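import Mathlib
import Fermat.Prelude.Def_ModularCurve_X0ModL
import Fermat.Agent.S28.LaurentRescale
import Fermat.Agent.S28.Defs
import Fermat.Agent.S28.ModPolyPrime

/-!
# PROJECT I (S37), slice I-1b (cusps), part (b2-i): embeddings send `j(q^d)` to monomial
substitutions of `j`

`K₀` an algebraically closed field of characteristic zero (in the application `ℚ̄`), `ι : K₀ → K₁`
a field embedding (`K₁ = ℂ`).  A series `z ∈ K₁((t))` is a *monomial substitution of `j`*
(`IsMono ι N z`) if `z = J(w t^m) = qExpand m (rescaleU (ι w) J)` for some `m ≥ 1` and some root of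
unity `w ∈ K₀` of order dividing a power of `N`.

Main result (`isMono_of_relations`): let `B` be a `K₀`-algebra with an injective algebra map
`ε : B → K₀((q))` and elements `jd d` (`d ∣ N`) with `ε (jd d) = J(q^d)`.  Every ring homomorphism
`φ : B → K₁((t))` which is `ι` on the constants and sends `jd 1` to a monomial substitution of `j`
sends every `jd d` to a monomial substitution of `j`.  The only input is the prime level modular
equation `S28.Defs.HasModPoly K₀ p` (complete factorisation of `Φ_p(X, J(q^p))` over `K₀((q))`).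
No analysis.
-/

set_option autoImplicit false

noncomputable section

namespace Fermat.Agent.S37.Cusps.MonomialSubst

open HahnSeries ModularCurve Polynomial
open Fermat.Agent.S28.LaurentRescale

variable {K₀ K₁ : Type*} [Field K₀] [Field K₁] (ι : K₀ →+* K₁)

/-! ### bivariate evaluation -/

section Ev2

variable {R B B' : Type*} [CommRing R] [CommRing B] [CommRing B']

/-- evaluation of `Φ ∈ R[Y][X]` at `Y = x`, `X = y` along `g : R → B` -/
def ev2 (g : R →+* B) (x y : B) (Φ : Polynomial (Polynomial R)) : B :=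
  Polynomial.eval₂ (Polynomial.eval₂RingHom g x) y Φ

theorem comp_eval₂RingHom (ψ : B →+* B') (g : R →+* B) (x : B) :
    ψ.comp (Polynomial.eval₂RingHom g x) = Polynomial.eval₂RingHom (ψ.comp g) (ψ x) := by
  refine Polynomial.ringHom_ext (fun a => ?_) ?_
  · simp
  · simp

theorem map_ev2 (ψ : B →+* B') (g : R →+* B) (x y : B) (Φ : Polynomial (Polynomial R)) :
    ψ (ev2 g x y Φ) = ev2 (ψ.comp g) (ψ x) (ψ y) Φ := by
  rw [ev2, ev2, Polynomial.hom_eval₂, comp_eval₂RingHom]

theorem ev2_eq_eval_map (g : R →+* B) (x y : B) (Φ : Polynomial (Polynomial R)) :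
    ev2 g x y Φ = (Φ.map (Polynomial.eval₂RingHom g x)).eval y := by
  rw [ev2, Polynomial.eval_map]

end Ev2

/-! ### the substitutions `q ↦ w t^m` -/

/-- `C` as a ring homomorphism `K → K((q))` -/
abbrev CHom (K : Type*) [Field K] : K →+* LaurentSeries K := HahnSeries.C

theorem aeval_toRingHom_eq (z : LaurentSeries K₀) :
    (Polynomial.aeval z : Polynomial K₀ →ₐ[K₀] LaurentSeries K₀).toRingHom =
      Polynomial.eval₂RingHom (CHom K₀) z := by
  refine Polynomial.ringHom_ext (fun a => ?_) ?_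
  · simp only [AlgHom.toRingHom_eq_coe, RingHom.coe_coe, Polynomial.aeval_C,
      Polynomial.coe_eval₂RingHom, Polynomial.eval₂_C]
    show algebraMap K₀ (LaurentSeries K₀) a = HahnSeries.C a
    rw [algebraMap_laurentSeries_eq_single, HahnSeries.C_apply]
  · simp

/-- the substitution `q ↦ w' t^m` composed with `ι` on the coefficients -/
def subst (w' : K₀ˣ) (m : ℕ) [NeZero m] : LaurentSeries K₀ →+* LaurentSeries K₁ :=
  (qExpand K₁ m).comp
    (((rescaleU (Units.map ι.toMonoidHom w')).toRingHom).comp (coeffMap ι))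

theorem subst_apply (w' : K₀ˣ) (m : ℕ) [NeZero m] (f : LaurentSeries K₀) :
    subst ι w' m f = qExpand K₁ m (rescaleU (Units.map ι.toMonoidHom w') (coeffMap ι f)) := rfl

theorem coeffMap_C (c : K₀) : coeffMap ι (HahnSeries.C c) = HahnSeries.C (ι c) := by
  have h : (HahnSeries.C c : LaurentSeries K₀) = HahnSeries.single 0 c := rfl
  rw [h, coeffMap_single]
  rfl

theorem subst_C (w' : K₀ˣ) (m : ℕ) [NeZero m] (c : K₀) :
    subst ι w' m (HahnSeries.C c) = HahnSeries.C (ι c) := by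
  rw [subst_apply, coeffMap_C, rescaleU_C, qExpand_C]

theorem subst_comp_C (w' : K₀ˣ) (m : ℕ) [NeZero m] :
    (subst ι w' m).comp (CHom K₀) = (CHom K₁).comp ι := by
  ext c : 1
  exact subst_C ι w' m c

theorem subst_qExpand (w' : K₀ˣ) (m : ℕ) [NeZero m] (p : ℕ) [NeZero p] (f : LaurentSeries K₀) :
    subst ι w' m (qExpand K₀ p f) =
      qExpand K₁ p (qExpand K₁ m
        (rescaleU (Units.map ι.toMonoidHom w' ^ p) (coeffMap ι f))) := by
  rw [subst_apply, coeffMap_qExpand, rescaleU_qExpand, qExpand_qExpand, qExpand_qExpand]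
  exact qExpand_congr (mul_comm m p) _

theorem subst_rescaleU (w' ζ : K₀ˣ) (m : ℕ) [NeZero m] (f : LaurentSeries K₀) :
    subst ι w' m (rescaleU ζ f) =
      qExpand K₁ m (rescaleU (Units.map ι.toMonoidHom (w' * ζ)) (coeffMap ι f)) := by
  rw [subst_apply, coeffMap_rescaleU, ← rescaleU_mul, map_mul]

/-! ### monomial substitutions of `j` -/

/-- `z = J(w t^m)` for some `m ≥ 1` and some root of unity `w ∈ K₀` of `N`-power order. -/
def IsMono (N : ℕ) (z : LaurentSeries K₁) : Prop :=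
  ∃ (w : K₀ˣ) (e m : ℕ) (hm : m ≠ 0), w ^ (N ^ e) = 1 ∧
    z = @qExpand K₁ _ m ⟨hm⟩ (rescaleU (Units.map ι.toMonoidHom w) (jqModC K₁))

theorem isMono_qExpand_jqModC (N : ℕ) (m : ℕ) [NeZero m] :
    IsMono ι N (qExpand K₁ m (jqModC K₁)) := by
  refine ⟨1, 0, m, NeZero.ne m, one_pow _, ?_⟩
  rw [map_one, rescaleU_one]

/-- the coefficient of `J(u t^m)` at `t^(-m)` is `u⁻¹ ≠ 0` -/
theorem coeff_mono_ne_zero (u : K₁ˣ) (m : ℕ) [NeZero m] :
    (qExpand K₁ m (rescaleU u (jqModC K₁))).coeff ((m : ℤ) * (-1)) ≠ 0 := by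
  rw [qExpand_coeff_mul, coeff_rescaleU, coeff_jqModC_neg_one, mul_one]
  exact Units.ne_zero _

variable [CharZero K₀] [IsAlgClosed K₀]

omit [CharZero K₀] in
theorem exists_unit_pow_eq (w : K₀ˣ) {p : ℕ} (hp : 0 < p) : ∃ w' : K₀ˣ, w' ^ p = w := by
  obtain ⟨z, hz⟩ := IsAlgClosed.exists_pow_nat_eq (w : K₀) hp
  have hz0 : z ≠ 0 := by
    rintro rfl
    rw [zero_pow hp.ne'] at hz
    exact w.ne_zero hz.symm
  refine ⟨Units.mk0 z hz0, ?_⟩
  apply Units.ext
  rw [Units.val_pow_eq_pow_val, Units.val_mk0, hz]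

theorem exists_primitiveRoot_unit (p : ℕ) [NeZero p] : ∃ ζ : K₀ˣ, IsPrimitiveRoot ζ p := by
  haveI : NeZero ((p : ℕ) : K₀) := ⟨by exact_mod_cast NeZero.ne p⟩
  obtain ⟨ζ, hζ⟩ := HasEnoughRootsOfUnity.exists_primitiveRoot K₀ p
  have hu : IsUnit ζ := hζ.isUnit (NeZero.ne p)
  refine ⟨hu.unit, ?_⟩
  rw [← IsPrimitiveRoot.coe_units_iff]
  exact hζ

/-- **The step.**  If `x = J(w t^m)` and `Φ_p(y, x) = 0`, then `y = J(w'' t^m'')`. -/
theorem isMono_step {N p : ℕ} (hp : p.Prime) (hpN : p ∣ N)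
    (Φ : Polynomial (Polynomial K₀))
    (hΦ : haveI : NeZero p := ⟨hp.ne_zero⟩
      ∀ ζ : K₀ˣ, IsPrimitiveRoot ζ p →
      Φ.map ((Polynomial.aeval (qExpand K₀ p (jqModC K₀))).toRingHom) =
        (X - Polynomial.C (qExpand K₀ (p ^ 2) (jqModC K₀))) *
          ∏ b ∈ Finset.range p, (X - Polynomial.C (rescaleU (ζ ^ b) (jqModC K₀))))
    {x y : LaurentSeries K₁} (hx : IsMono ι N x)
    (hrel : ev2 ((CHom K₁).comp ι) x y Φ = 0) : IsMono ι N y := by
  haveI : NeZero p := ⟨hp.ne_zero⟩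
  obtain ⟨w, e, m, hm, hw, rfl⟩ := hx
  haveI : NeZero m := ⟨hm⟩
  obtain ⟨w', hw'⟩ := exists_unit_pow_eq w hp.pos
  obtain ⟨ζ, hζ⟩ := exists_primitiveRoot_unit (K₀ := K₀) p
  set x : LaurentSeries K₁ :=
    qExpand K₁ m (rescaleU (Units.map ι.toMonoidHom w) (jqModC K₁)) with hxdef
  -- the factorisation pushed along `subst w' m`
  have hS1 : subst ι w' m (qExpand K₀ p (jqModC K₀)) = qExpand K₁ p x := by
    rw [subst_qExpand, coeffMap_jqModC, ← map_pow, hw']
  have hfac : ∀ Y : LaurentSeries K₁,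
      ev2 ((CHom K₁).comp ι) (qExpand K₁ p x) Y Φ =
        (Y - subst ι w' m (qExpand K₀ (p ^ 2) (jqModC K₀))) *
          ∏ b ∈ Finset.range p, (Y - subst ι w' m (rescaleU (ζ ^ b) (jqModC K₀))) := by
    intro Y
    have h1 := congrArg (fun P => (P.map (subst ι w' m)).eval Y) (hΦ ζ hζ)
    simp only [Polynomial.map_map, Polynomial.map_mul, Polynomial.map_sub, Polynomial.map_X,
      Polynomial.map_C, Polynomial.map_prod, Polynomial.eval_mul, Polynomial.eval_sub,
      Polynomial.eval_X, Polynomial.eval_C, Polynomial.eval_prod] at h1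
    rw [← h1, ev2_eq_eval_map, aeval_toRingHom_eq, comp_eval₂RingHom, subst_comp_C, hS1]
  -- the relation pushed along `qExpand p`
  have hrel' : ev2 ((CHom K₁).comp ι) (qExpand K₁ p x) (qExpand K₁ p y) Φ = 0 := by
    have h1 := map_ev2 (qExpand K₁ p) ((CHom K₁).comp ι) x y Φ
    rw [hrel, map_zero] at h1
    have h2 : (qExpand K₁ p).comp ((CHom K₁).comp ι) = (CHom K₁).comp ι := by
      ext c : 1
      simp only [RingHom.comp_apply]
      exact qExpand_C p _
    rw [h2] at h1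
    exact h1.symm
  rw [hfac] at hrel'
  rcases mul_eq_zero.mp hrel' with h | h
  · -- the root `J(w^p t^(mp))`
    have hy : qExpand K₁ p y = qExpand K₁ p
        (qExpand K₁ (m * p) (rescaleU (Units.map ι.toMonoidHom (w ^ p)) (jqModC K₁))) := by
      have e1 : w ^ p = w' ^ (p ^ 2) := by rw [← hw', ← pow_mul, sq]
      rw [sub_eq_zero.mp h, subst_apply, coeffMap_qExpand, coeffMap_jqModC, rescaleU_qExpand,
        qExpand_qExpand, qExpand_qExpand, ← map_pow, e1]
      exact qExpand_congr (by ring) _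
    have hy' := qExpand_injective p hy
    refine ⟨w ^ p, e, m * p, Nat.mul_ne_zero hm hp.ne_zero, ?_, hy'⟩
    rw [← pow_mul, mul_comm, pow_mul, hw, one_pow]
  · -- a root `J(w' ζ^b t^m)`, possible only if `p ∣ m`
    obtain ⟨b, -, hb⟩ := Finset.prod_eq_zero_iff.mp h
    have hy : qExpand K₁ p y =
        qExpand K₁ m (rescaleU (Units.map ι.toMonoidHom (w' * ζ ^ b)) (jqModC K₁)) := by
      rw [sub_eq_zero.mp hb, subst_rescaleU, coeffMap_jqModC]
    have hpm : p ∣ m := by
      by_contra hnd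
      have hnd' : ¬ ((p : ℤ) ∣ (m : ℤ) * (-1)) := by
        rw [mul_neg_one, dvd_neg]
        exact_mod_cast hnd
      have h0 := qExpand_coeff_of_not_dvd p y hnd'
      rw [hy] at h0
      exact coeff_mono_ne_zero _ m h0
    obtain ⟨m', rfl⟩ := hpm
    have hm' : m' ≠ 0 := by
      rintro rfl
      exact hm (mul_zero p)
    haveI : NeZero m' := ⟨hm'⟩
    have hy' : y = qExpand K₁ m'
        (rescaleU (Units.map ι.toMonoidHom (w' * ζ ^ b)) (jqModC K₁)) := by
      apply qExpand_injective p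
      rw [hy, qExpand_qExpand]
    refine ⟨w' * ζ ^ b, e + 1, m', hm', ?_, hy'⟩
    obtain ⟨N', hN'⟩ := hpN
    have h1 : (w' * ζ ^ b) ^ p = w := by
      rw [mul_pow, hw', ← pow_mul, mul_comm b p, pow_mul, hζ.pow_eq_one, one_pow, mul_one]
    have h2 : N ^ (e + 1) = p * (N ^ e * N') := by
      rw [pow_succ, mul_left_comm, ← hN']
    rw [h2, pow_mul, h1, pow_mul, hw, one_pow]


/-! ### the modular equation between `J(q^d)` and `J(q^(d p))` -/

omit [CharZero K₀] [IsAlgClosed K₀] in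
theorem qExpand_comp_C (K : Type*) [Field K] (p : ℕ) [NeZero p] :
    (qExpand K p).comp (CHom K) = CHom K := by
  ext c : 1
  exact qExpand_C p c

/-- `Φ_p(J(q^(d p)), J(q^d)) = 0` over `K₀((q))`. -/
theorem ev2_modPoly_eq_zero {p : ℕ} (hp : p.Prime) (d : ℕ) [NeZero d]
    (Φ : Polynomial (Polynomial K₀))
    (hΦ : haveI : NeZero p := ⟨hp.ne_zero⟩
      ∀ ζ : K₀ˣ, IsPrimitiveRoot ζ p →
      Φ.map ((Polynomial.aeval (qExpand K₀ p (jqModC K₀))).toRingHom) =
        (X - Polynomial.C (qExpand K₀ (p ^ 2) (jqModC K₀))) *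
          ∏ b ∈ Finset.range p, (X - Polynomial.C (rescaleU (ζ ^ b) (jqModC K₀)))) :
    haveI : NeZero p := ⟨hp.ne_zero⟩
    ev2 (CHom K₀) (qExpand K₀ d (jqModC K₀)) (qExpand K₀ (d * p) (jqModC K₀)) Φ = 0 := by
  haveI : NeZero p := ⟨hp.ne_zero⟩
  obtain ⟨ζ, hζ⟩ := exists_primitiveRoot_unit (K₀ := K₀) p
  -- (R0)
  have h0 : ev2 (CHom K₀) (qExpand K₀ p (jqModC K₀)) (qExpand K₀ (p ^ 2) (jqModC K₀)) Φ = 0 := by
    rw [ev2_eq_eval_map, ← aeval_toRingHom_eq, hΦ ζ hζ, Polynomial.eval_mul, Polynomial.eval_sub,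
      Polynomial.eval_X, Polynomial.eval_C, sub_self, zero_mul]
  -- (R1)
  have h1 : ev2 (CHom K₀) (jqModC K₀) (qExpand K₀ p (jqModC K₀)) Φ = 0 := by
    apply qExpand_injective p
    rw [map_ev2, qExpand_comp_C, qExpand_qExpand, map_zero, ← h0]
    congr 1
    exact qExpand_congr (by ring) _
  -- (R2)
  have h2 := map_ev2 (qExpand K₀ d) (CHom K₀) (jqModC K₀) (qExpand K₀ p (jqModC K₀)) Φ
  rw [h1, map_zero, qExpand_comp_C, qExpand_qExpand] at h2
  exact h2.symm

section Main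

variable {B : Type*} [CommRing B] [Algebra K₀ B]

/-- **Main theorem.**  A ring homomorphism `φ : B → K₁((t))` which is `ι` on the constants and
sends `j` to a monomial substitution of `j` sends every `j(q^d)`, `d ∣ N`, to a monomial
substitution of `j`. -/
theorem isMono_of_relations (N : ℕ)
    (ε : B →+* LaurentSeries K₀) (hε : Function.Injective ε)
    (hεC : ∀ c : K₀, ε (algebraMap K₀ B c) = HahnSeries.C c)
    (jd : ℕ → B)
    (hjd : ∀ (d : ℕ) [NeZero d], d ∣ N → ε (jd d) = qExpand K₀ d (jqModC K₀))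
    (φ : B →+* LaurentSeries K₁)
    (hφC : ∀ c : K₀, φ (algebraMap K₀ B c) = HahnSeries.C (ι c))
    (h1 : IsMono ι N (φ (jd 1))) :
    ∀ d : ℕ, d ≠ 0 → d ∣ N → IsMono ι N (φ (jd d)) := by
  intro d
  induction d using Nat.strong_induction_on with
  | _ d ih =>
    intro hd0 hdN
    rcases eq_or_ne d 1 with rfl | hd1
    · exact h1
    obtain ⟨p, hp, hpd⟩ := Nat.exists_prime_and_dvd hd1
    obtain ⟨d', rfl⟩ := hpd
    have hd'0 : d' ≠ 0 := by
      rintro rfl
      exact hd0 (mul_zero p)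
    have hd'N : d' ∣ N := (Dvd.intro_left p rfl).trans hdN
    have hpN : p ∣ N := (Dvd.intro d' rfl).trans hdN
    have hlt : d' < p * d' := by
      have := hp.two_le
      nlinarith [Nat.pos_of_ne_zero hd'0]
    have ih' := ih d' hlt hd'0 hd'N
    haveI : NeZero p := ⟨hp.ne_zero⟩
    haveI : NeZero d' := ⟨hd'0⟩
    haveI : NeZero (p * d') := ⟨hd0⟩
    obtain ⟨Φ, -, -, hΦ⟩ := Fermat.Agent.S28.ModPolyPrime.hasModPoly K₀ p hp
    have hrel0 := ev2_modPoly_eq_zero hp d' Φ hΦ
    -- the relation inside `B`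
    have hC : ε.comp (algebraMap K₀ B) = CHom K₀ := by
      ext c : 1
      exact hεC c
    have hrelB : ev2 (algebraMap K₀ B) (jd d') (jd (p * d')) Φ = 0 := by
      apply hε
      rw [map_ev2, hC, hjd d' hd'N, hjd (p * d') hdN, map_zero, ← hrel0]
      congr 1
      exact qExpand_congr (mul_comm p d') _
    have hφ : φ.comp (algebraMap K₀ B) = (CHom K₁).comp ι := by
      ext c : 1
      exact hφC c
    have hrel : ev2 ((CHom K₁).comp ι) (φ (jd d')) (φ (jd (p * d'))) Φ = 0 := by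
      rw [← hφ, ← map_ev2, hrelB, map_zero]
    exact isMono_step ι hp hpN Φ hΦ ih' hrel

end Main

end Fermat.Agent.S37.Cusps.MonomialSubst
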