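import Mathlib
import Fermat.Prelude.Def_ModularCurve_X0ModL
import Fermat.Agent.S28.LaurentRescale

/-!
# PROJECT I (S37), slice I-1b (cusps): the `t`-adic valuation on `K((t))` and the substitutions

Generic field `K`: `valuation_eq_exp_neg_order`, invariance of the valuation under `t ↦ u t`
(`valuation_rescaleU`), `order_qExpand`, `order_jqModC`, and the valuation of `1 / J(t^N)`.
-/

set_option autoImplicit false

noncomputable section

namespace Fermat.Agent.S37.Cusps.LaurentVal

open HahnSeries ModularCurve WithZero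
open Fermat.Agent.S28.LaurentRescale

variable {K : Type*} [Field K]

theorem valuation_eq_exp_neg_order {x : LaurentSeries K} (hx : x ≠ 0) :
    (Valued.v x : ℤᵐ⁰) = exp (-x.order) := by
  have h1 : Valued.v x ≤ exp (-x.order) := by
    rw [LaurentSeries.valuation_le_iff_coeff_lt_eq_zero]
    intro n hn
    exact HahnSeries.coeff_eq_zero_of_lt_order hn
  refine le_antisymm h1 ?_
  by_contra hlt
  rw [not_le] at hlt
  have hv0 : Valued.v x ≠ 0 := (Valuation.ne_zero_iff _).mpr hx
  have h2 : Valued.v x ≤ exp (-(x.order + 1)) := by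
    have hlog : log (Valued.v x) < -x.order := by
      rw [← exp_lt_exp, exp_log hv0]
      exact hlt
    rw [← exp_log hv0, exp_le_exp]
    omega
  rw [LaurentSeries.valuation_le_iff_coeff_lt_eq_zero] at h2
  have := h2 x.order (by omega)
  exact hx (HahnSeries.coeff_order_eq_zero.mp this)

theorem log_valuation_eq {x : LaurentSeries K} (hx : x ≠ 0) :
    log (Valued.v x : ℤᵐ⁰) = -x.order := by
  rw [valuation_eq_exp_neg_order hx, log_exp]

/-- the substitution `t ↦ u t` preserves the valuation -/
theorem valuation_rescaleU (u : Kˣ) (f : LaurentSeries K) :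
    (Valued.v (rescaleU u f) : ℤᵐ⁰) = Valued.v f := by
  by_cases hf : f = 0
  · rw [hf, map_zero]
  · have hf' : rescaleU u f ≠ 0 := fun h => hf ((rescaleU u).injective (by rw [h, map_zero]))
    rw [valuation_eq_exp_neg_order hf, valuation_eq_exp_neg_order hf', order_rescaleU]

theorem order_qExpand (m : ℕ) [NeZero m] {f : LaurentSeries K} (hf : f ≠ 0) :
    (qExpand K m f).order = (m : ℤ) * f.order := by
  have hm : (0 : ℤ) < m := by exact_mod_cast Nat.pos_of_ne_zero (NeZero.ne m)
  have hne : qExpand K m f ≠ 0 := fun h => hf (qExpand_injective m (by rw [h, map_zero]))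
  apply le_antisymm
  · apply HahnSeries.order_le_of_coeff_ne_zero
    rw [qExpand_coeff_mul]
    exact fun h => hf (HahnSeries.coeff_order_eq_zero.mp h)
  · rw [HahnSeries.le_order_iff_forall hne]
    intro n hn
    by_cases hd : (m : ℤ) ∣ n
    · obtain ⟨c, rfl⟩ := hd
      rw [qExpand_coeff_mul]
      exact HahnSeries.coeff_eq_zero_of_lt_order (lt_of_mul_lt_mul_left hn hm.le)
    · exact qExpand_coeff_of_not_dvd m f hd

theorem order_jqModC : (jqModC K).order = -1 := by
  have hne : jqModC K ≠ 0 := jqModC_ne_zero_of_nontrivial K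
  apply le_antisymm
  · apply HahnSeries.order_le_of_coeff_ne_zero
    rw [coeff_jqModC_neg_one]
    exact one_ne_zero
  · rw [HahnSeries.le_order_iff_forall hne]
    intro n hn
    exact coeff_jqModC_of_lt K hn

/-- `1 / J(t^N)` has a zero of order exactly `N`. -/
theorem valuation_inv_qExpand_jqModC (N : ℕ) [NeZero N] :
    (Valued.v (qExpand K N (jqModC K))⁻¹ : ℤᵐ⁰) = exp (-(N : ℤ)) := by
  have hne : qExpand K N (jqModC K) ≠ 0 := fun h =>
    jqModC_ne_zero_of_nontrivial K (qExpand_injective N (by rw [h, map_zero]))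
  rw [map_inv₀, valuation_eq_exp_neg_order hne, order_qExpand N (jqModC_ne_zero_of_nontrivial K),
    order_jqModC, ← exp_neg]
  congr 1
  ring

/-- a series in `t^d` has order divisible by `d` -/
theorem dvd_order_of_mem_range_qExpand (d : ℕ) [NeZero d] {x : LaurentSeries K}
    (hx : x ∈ Set.range (qExpand K d)) : (d : ℤ) ∣ x.order := by
  by_cases h0 : x = 0
  · rw [h0, HahnSeries.order_zero]
    exact dvd_zero _
  by_contra hnd
  exact h0 (HahnSeries.coeff_order_eq_zero.mp (((mem_range_qExpand_iff d x).mp hx) _ hnd))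

end Fermat.Agent.S37.Cusps.LaurentVal
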