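import Mathlib
import Fermat.Agent.S24.AllPlaces
import Fermat.Agent.S24.PlaceCount
import Fermat.Agent.S24.LemmaA
import Fermat.Agent.S18.A.FibreSep

/-!
# PROJECT I (S37), slice I-1b (cusps), part (b1): the place count of S24 for separable extensions

`Fermat.Agent.S24.OrbitCount` counts the places of a function field `F / K` over a point of the
`x`-line by the orbits of a cyclic group on a family of `[F : K(x)]` embeddings `L q : F →+* Ω`
into a valued field.  There `K` has characteristic zero; the characteristic is only used for the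
separability of `F / K(x)` (in the wrappers of Lemma A) and for the fundamental identity.  Here the
same statements are proved in ANY characteristic with the separability `hsep` as an explicit
hypothesis (the fundamental identity is `S18.A.FibreSep`).

* `exists_eq_comap_of_transcendental`, `exists_place_eq_comap_sub`, `exists_place_eq_comap_inv` :
  Lemma A (every place over the point is the pull-back of `O` along some `L q`);
* `card_zeros_eq_card_orbits`, `card_poles_eq_card_orbits` : the counts.
-/

set_option autoImplicit false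

namespace Fermat.Agent.S37.Cusps.OrbitCountSep

open AlgebraicCurve WithZero IntermediateField Module Polynomial
open Fermat.Agent.S24 Fermat.Agent.S24.FF Fermat.Agent.S24.AllPlaces
open Fermat.Agent.S18.A
open scoped IntermediateField.algebraAdjoinAdjoin

variable {K F Ω : Type*} [Field K] [Field F] [Algebra K F] [Field Ω]

/-- **Lemma A** for a separable extension (any characteristic). -/
theorem exists_eq_comap_of_transcendental (O : ValuationSubring Ω) {Q : Type*} [Fintype Q]
    (L : Q → F →+* Ω) {x : F} (hx : Transcendental K x) (a : K) [FiniteDimensional K⟮x⟯ F]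
    [Algebra.IsSeparable K⟮x⟯ F]
    (hcard : Fintype.card Q = finrank K⟮x⟯ F) (hinj : Function.Injective L)
    (hbase : ∀ q q' (y : K⟮x⟯), L q y = L q' y)
    (hK : ∀ q (c : K), L q (algebraMap K F c) ∈ O)
    (hxa : ∀ q, L q (x - algebraMap K F a) ∈ O.nonunits)
    (A : ValuationSubring F) (hA : A ≠ ⊤) (hKA : ∀ c : K, algebraMap K F c ∈ A)
    (hv : x - algebraMap K F a ∈ A.nonunits) :
    ∃ q, A = O.comap (L q) := by
  classical
  haveI : IsDedekindDomain (Algebra.adjoin K {x}) := isDedekindDomain_adjoin hx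
  have hQne : Nonempty Q := by
    have hpos : 0 < finrank K⟮x⟯ F := finrank_pos
    rw [← hcard] at hpos
    exact Fintype.card_pos_iff.1 hpos
  obtain ⟨q0⟩ := hQne
  let L0 : K⟮x⟯ →+* Ω := (L q0).comp (algebraMap K⟮x⟯ F)
  have hbase' : ∀ q (y : K⟮x⟯), L q (algebraMap K⟮x⟯ F y) = L0 y := fun q y => hbase q q0 y
  have hxA : x ∈ A := by
    have h1 := mem_of_mem_nonunits hv
    have := A.add_mem _ _ h1 (hKA a)
    simpa using this
  have hxO : ∀ q, L q x ∈ O := by
    intro q
    have h1 := mem_of_mem_nonunits (hxa q)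
    have := O.add_mem _ _ h1 (hK q a)
    rw [← map_add] at this
    simpa using this
  have h1 : ∀ r : Algebra.adjoin K {x}, algebraMap (Algebra.adjoin K {x}) F r ∈ A := by
    intro r
    exact adjoin_mem A (RingHom.id F) hKA hxA r
  have h2 : ∀ r : Algebra.adjoin K {x}, L0 (algebraMap (Algebra.adjoin K {x}) K⟮x⟯ r) ∈ O := by
    intro r
    exact adjoin_mem O (L q0) (hK q0) (hxO q0) r
  have h3 : ∀ r : Algebra.adjoin K {x}, algebraMap (Algebra.adjoin K {x}) F r ∈ A.nonunits →
      L0 (algebraMap (Algebra.adjoin K {x}) K⟮x⟯ r) ∈ O.nonunits := by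
    intro r hr
    obtain ⟨r, hrmem⟩ := r
    obtain ⟨p, rfl⟩ : ∃ p : K[X], aeval x p = r := by
      rw [Algebra.adjoin_singleton_eq_range_aeval] at hrmem
      exact hrmem
    obtain ⟨s, hs⟩ := Polynomial.X_sub_C_dvd_sub_C_eval (a := a) (p := p)
    have hp : aeval x p = algebraMap K F (p.eval a) + (x - algebraMap K F a) * aeval x s := by
      have := congrArg (aeval x) hs
      simp only [map_sub, aeval_C, map_mul, aeval_X] at this
      rw [← this]; ring
    have hsA : aeval x s ∈ A := by
      have := adjoin_mem A (RingHom.id F) hKA hxA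
        ⟨aeval x s, by rw [Algebra.adjoin_singleton_eq_range_aeval]; exact ⟨s, rfl⟩⟩
      exact this
    have hsO : L q0 (aeval x s) ∈ O := by
      have := adjoin_mem O (L q0) (hK q0) (hxO q0)
        ⟨aeval x s, by rw [Algebra.adjoin_singleton_eq_range_aeval]; exact ⟨s, rfl⟩⟩
      exact this
    have hr' : aeval x p ∈ A.nonunits := hr
    have hpa : p.eval a = 0 := by
      by_contra hne
      have hc1 : A.valuation (algebraMap K F (p.eval a)) = 1 := by
        have hle : A.valuation (algebraMap K F (p.eval a)) ≤ 1 :=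
          (A.valuation_le_one_iff _).2 (hKA _)
        have hle' : A.valuation (algebraMap K F (p.eval a)⁻¹) ≤ 1 :=
          (A.valuation_le_one_iff _).2 (hKA _)
        rw [map_inv₀, map_inv₀] at hle'
        have hne0 : A.valuation (algebraMap K F (p.eval a)) ≠ 0 := by
          rw [ne_eq, map_eq_zero, map_eq_zero]; exact hne
        have hge : 1 ≤ A.valuation (algebraMap K F (p.eval a)) := by
          by_contra hlt
          rw [not_le] at hlt
          have := (one_lt_inv₀ (pos_iff_ne_zero.2 hne0)).2 hlt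
          exact absurd hle' (not_le.2 this)
        exact le_antisymm hle hge
      have hc2 : A.valuation ((x - algebraMap K F a) * aeval x s) < 1 := by
        have := mul_mem_nonunits hv hsA
        rwa [ValuationSubring.mem_nonunits_iff] at this
      have hsum : A.valuation (aeval x p) = 1 := by
        rw [hp, Valuation.map_add_eq_of_lt_left _ (by rw [hc1]; exact hc2), hc1]
      rw [ValuationSubring.mem_nonunits_iff, hsum] at hr'
      exact lt_irrefl _ hr'
    show L q0 (aeval x p) ∈ O.nonunits
    rw [hp, hpa, map_zero, zero_add, map_mul]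
    exact mul_mem_nonunits (hxa q0) hsO
  exact exists_eq_comap (R0 := Algebra.adjoin K {x}) (k0 := K⟮x⟯) O L hinj hcard L0 hbase' A hA
    h1 h2 h3

/-- **Lemma A at a finite point `a`**, separable case. -/
theorem exists_place_eq_comap_sub (O : ValuationSubring Ω) {Q : Type*} [Fintype Q]
    (L : Q → F →+* Ω) {x : F} (hx : IsFF K x) (hsep : Algebra.IsSeparable K⟮x⟯ F) (a : K)
    (hcard : Fintype.card Q = finrank K⟮x⟯ F) (hinj : Function.Injective L)
    (hconst : ∀ q q' (c : K), L q (algebraMap K F c) = L q' (algebraMap K F c))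
    (hLx : ∀ q q', L q x = L q' x)
    (hK : ∀ q (c : K), L q (algebraMap K F c) ∈ O)
    (hxa : ∀ q, L q (x - algebraMap K F a) ∈ O.nonunits)
    (v : Place K F) (hv : x - algebraMap K F a ∈ v.toValuationSubring.nonunits) :
    ∃ q, v.toValuationSubring = O.comap (L q) := by
  haveI := hx.finite
  exact exists_eq_comap_of_transcendental O L hx.transcendental a hcard hinj
    (fun q q' y => LemmaA.eq_on_adjoin (hconst q q') (hLx q q') y) hK hxa v.toValuationSubring
    v.ne_top' v.algebraMap_mem' hv

/-- **Lemma A at the poles of `x`**, separable case. -/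
theorem exists_place_eq_comap_inv (O : ValuationSubring Ω) {Q : Type*} [Fintype Q]
    (L : Q → F →+* Ω) {x : F} (hx : IsFF K x) (hsep : Algebra.IsSeparable K⟮x⟯ F)
    (hcard : Fintype.card Q = finrank K⟮x⟯ F) (hinj : Function.Injective L)
    (hconst : ∀ q q' (c : K), L q (algebraMap K F c) = L q' (algebraMap K F c))
    (hLx : ∀ q q', L q x = L q' x)
    (hK : ∀ q (c : K), L q (algebraMap K F c) ∈ O)
    (hxinv : ∀ q, L q x⁻¹ ∈ O.nonunits)
    (v : Place K F) (hv : x⁻¹ ∈ v.toValuationSubring.nonunits) :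
    ∃ q, v.toValuationSubring = O.comap (L q) := by
  have hxi : IsFF K x⁻¹ := hx.inv
  have hsepi : Algebra.IsSeparable K⟮x⁻¹⟯ F := FibreSep.isSeparable_inv hsep
  have hcard' : Fintype.card Q = finrank K⟮x⁻¹⟯ F := by
    rw [hcard, FibreSep.adjoin_inv]
  have hLx' : ∀ q q', L q x⁻¹ = L q' x⁻¹ := by
    intro q q'
    rw [map_inv₀, map_inv₀, hLx q q']
  refine exists_place_eq_comap_sub O L hxi hsepi 0 hcard' hinj hconst hLx' hK ?_ v ?_
  · intro q
    rw [map_zero, sub_zero]
    exact hxinv q
  · rw [map_zero, sub_zero]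
    exact hv

variable [IsAlgClosed K]

theorem mem_nonunits_of_eq_exp (w : Valuation Ω ℤᵐ⁰) {z : Ω} {m : ℕ} (hm0 : 0 < m)
    (h : w z = exp (-(m : ℤ))) : z ∈ w.valuationSubring.nonunits := by
  have hlt : w z < 1 := by
    rw [h, ← WithZero.exp_zero, WithZero.exp_lt_exp]
    omega
  rw [ValuationSubring.mem_nonunits_iff_exists_mem_maximalIdeal]
  have hmem : z ∈ w.valuationSubring := hlt.le
  refine ⟨hmem, ?_⟩
  rw [IsLocalRing.mem_maximalIdeal, mem_nonunits_iff]
  intro hu
  have h1 := (Valuation.integer.integers w).isUnit_iff_valuation_eq_one.mp hu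
  exact absurd h1 (ne_of_lt hlt)

/-- the fundamental identity at the zeros of `x - a`, as a `finsum` over the subtype -/
theorem finsum_ord_zeros {x : F} (hx : IsFF K x) (hsep : Algebra.IsSeparable K⟮x⟯ F) (a : K) :
    ∑ᶠ v : {v : Place K F // x - algebraMap K F a ∈ v.toValuationSubring.nonunits},
      v.1.ord (x - algebraMap K F a) = (Module.finrank K⟮x⟯ F : ℤ) := by
  have h : {v : Place K F | x - algebraMap K F a ∈ v.toValuationSubring.nonunits}
      = ↑(FibreSep.zeros hx hsep a) := by
    ext v
    simp only [Set.mem_ofPred_eq, Finset.mem_coe, FibreSep.mem_zeros, FibreSep.mem_nonunits_iff]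
  calc ∑ᶠ v : {v : Place K F // x - algebraMap K F a ∈ v.toValuationSubring.nonunits},
        v.1.ord (x - algebraMap K F a)
      = ∑ᶠ v ∈ {v : Place K F | x - algebraMap K F a ∈ v.toValuationSubring.nonunits},
          v.ord (x - algebraMap K F a) :=
        finsum_set_coe_eq_finsum_mem (f := fun v : Place K F => v.ord (x - algebraMap K F a))
          {v : Place K F | x - algebraMap K F a ∈ v.toValuationSubring.nonunits}
    _ = ∑ᶠ v ∈ (↑(FibreSep.zeros hx hsep a) : Set (Place K F)),
          v.ord (x - algebraMap K F a) := by rw [h]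
    _ = ∑ v ∈ FibreSep.zeros hx hsep a, v.ord (x - algebraMap K F a) :=
        finsum_mem_coe_finset _ _
    _ = _ := FibreSep.sum_zeros hx hsep a

omit [IsAlgClosed K] in
/-- the places at which `x⁻¹` vanishes are the poles of `x` -/
theorem inv_mem_nonunits_iff {x : F} (hx : IsFF K x) (v : Place K F) :
    x⁻¹ ∈ v.toValuationSubring.nonunits ↔ x ∉ v.toValuationSubring := by
  rw [FibreSep.mem_nonunits_iff, FibreSep.not_mem_iff, map_inv₀]
  have h0 : v.adicValuation x ≠ 0 := v.adicValuation_ne_zero hx.ne_zero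
  exact inv_lt_one₀ (zero_lt_iff.mpr h0)

theorem card_inv_zeros {x : F} (hx : IsFF K x) (hsep : Algebra.IsSeparable K⟮x⟯ F) :
    Nat.card {v : Place K F // x⁻¹ ∈ v.toValuationSubring.nonunits}
      = (FibreSep.poles hx hsep).card :=
  Nat.subtype_card _ (fun v => by
    rw [FibreSep.mem_poles, inv_mem_nonunits_iff hx, FibreSep.not_mem_iff])

theorem finite_inv_zeros {x : F} (hx : IsFF K x) (hsep : Algebra.IsSeparable K⟮x⟯ F) :
    Finite {v : Place K F // x⁻¹ ∈ v.toValuationSubring.nonunits} := by
  have h : {v : Place K F | x⁻¹ ∈ v.toValuationSubring.nonunits}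
      = ↑(FibreSep.poles hx hsep) := by
    ext v
    simp only [Set.mem_ofPred_eq, Finset.mem_coe, FibreSep.mem_poles, inv_mem_nonunits_iff hx,
      FibreSep.not_mem_iff]
  have hf : Set.Finite {v : Place K F | x⁻¹ ∈ v.toValuationSubring.nonunits} :=
    h ▸ Finset.finite_toSet _
  exact hf.to_subtype

theorem finsum_ord_inv {x : F} (hx : IsFF K x) (hsep : Algebra.IsSeparable K⟮x⟯ F) :
    ∑ᶠ v : {v : Place K F // x⁻¹ ∈ v.toValuationSubring.nonunits}, v.1.ord x⁻¹
      = (Module.finrank K⟮x⟯ F : ℤ) := by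
  have h : {v : Place K F | x⁻¹ ∈ v.toValuationSubring.nonunits}
      = ↑(FibreSep.poles hx hsep) := by
    ext v
    simp only [Set.mem_ofPred_eq, Finset.mem_coe, FibreSep.mem_poles, inv_mem_nonunits_iff hx,
      FibreSep.not_mem_iff]
  calc ∑ᶠ v : {v : Place K F // x⁻¹ ∈ v.toValuationSubring.nonunits}, v.1.ord x⁻¹
      = ∑ᶠ v ∈ {v : Place K F | x⁻¹ ∈ v.toValuationSubring.nonunits}, v.ord x⁻¹ :=
        finsum_set_coe_eq_finsum_mem (f := fun v : Place K F => v.ord x⁻¹)
          {v : Place K F | x⁻¹ ∈ v.toValuationSubring.nonunits}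
    _ = ∑ᶠ v ∈ (↑(FibreSep.poles hx hsep) : Set (Place K F)), v.ord x⁻¹ := by rw [h]
    _ = ∑ v ∈ FibreSep.poles hx hsep, v.ord x⁻¹ := finsum_mem_coe_finset _ _
    _ = ∑ v ∈ FibreSep.poles hx hsep, -v.ord x :=
        Finset.sum_congr rfl fun v _ => v.ord_inv x
    _ = _ := FibreSep.sum_poles hx hsep

/-- **Zeros of `x - a`**, separable case: the number of zeros of `x - a` is the number of orbits of
`⟨d⟩` on the index set `Q` of the embeddings. -/
theorem card_zeros_eq_card_orbits {x : F} (hx : IsFF K x) (hsep : Algebra.IsSeparable K⟮x⟯ F)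
    (a : K) (w : Valuation Ω ℤᵐ⁰) {Q : Type*} [Fintype Q] {G : Type*} [Group G] [MulAction G Q]
    (d : G) (L : Q → F →+* Ω)
    (hcard : Fintype.card Q = finrank K⟮x⟯ F) (hinj : Function.Injective L)
    (hconst : ∀ q q' (c : K), L q (algebraMap K F c) = L q' (algebraMap K F c))
    (hLx : ∀ q q', L q x = L q' x)
    (hK : ∀ q (c : K), w (L q (algebraMap K F c)) ≤ 1)
    (m : ℕ) (hm0 : 0 < m) (hm : ∀ q, w (L q (x - algebraMap K F a)) = exp (-(m : ℤ)))
    (hsame : ∀ q : Q, w.valuationSubring.comap (L (d • q)) = w.valuationSubring.comap (L q))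
    (hdvd : ∀ q : Q, Nat.card (MulAction.orbit (Subgroup.zpowers d) q) ∣ m)
    (hs : ∀ (q : Q) (f : F), f ≠ 0 →
      (m : ℤ) ∣ (Nat.card (MulAction.orbit (Subgroup.zpowers d) q) : ℤ) * log (w (L q f))) :
    (FibreSep.zeros hx hsep a).card
      = Nat.card (MulAction.orbitRel.Quotient (Subgroup.zpowers d) Q) := by
  haveI := FibreSep.finite_zeros hx hsep a
  rw [← FibreSep.card_zeros hx hsep a]
  refine PlaceCount.card_places_eq_card_orbits (K := K) w d L (x - algebraMap K F a)
    ?_ ?_ m hm0 hm hsame hdvd hs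
  · rw [finsum_ord_zeros hx hsep a, hcard]
  · intro v hv
    exact exists_place_eq_comap_sub w.valuationSubring L hx hsep a hcard hinj hconst hLx
      (fun q c => hK q c) (fun q => mem_nonunits_of_eq_exp w hm0 (hm q)) v hv

/-- **Poles of `x`**, separable case: the same with `x⁻¹` in place of `x - a`. -/
theorem card_poles_eq_card_orbits {x : F} (hx : IsFF K x) (hsep : Algebra.IsSeparable K⟮x⟯ F)
    (w : Valuation Ω ℤᵐ⁰) {Q : Type*} [Fintype Q] {G : Type*} [Group G] [MulAction G Q] (d : G)
    (L : Q → F →+* Ω)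
    (hcard : Fintype.card Q = finrank K⟮x⟯ F) (hinj : Function.Injective L)
    (hconst : ∀ q q' (c : K), L q (algebraMap K F c) = L q' (algebraMap K F c))
    (hLx : ∀ q q', L q x = L q' x)
    (hK : ∀ q (c : K), w (L q (algebraMap K F c)) ≤ 1)
    (m : ℕ) (hm0 : 0 < m) (hm : ∀ q, w (L q x⁻¹) = exp (-(m : ℤ)))
    (hsame : ∀ q : Q, w.valuationSubring.comap (L (d • q)) = w.valuationSubring.comap (L q))
    (hdvd : ∀ q : Q, Nat.card (MulAction.orbit (Subgroup.zpowers d) q) ∣ m)
    (hs : ∀ (q : Q) (f : F), f ≠ 0 →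
      (m : ℤ) ∣ (Nat.card (MulAction.orbit (Subgroup.zpowers d) q) : ℤ) * log (w (L q f))) :
    (FibreSep.poles hx hsep).card
      = Nat.card (MulAction.orbitRel.Quotient (Subgroup.zpowers d) Q) := by
  haveI := finite_inv_zeros hx hsep
  rw [← card_inv_zeros hx hsep]
  refine PlaceCount.card_places_eq_card_orbits (K := K) w d L x⁻¹
    ?_ ?_ m hm0 hm hsame hdvd hs
  · rw [finsum_ord_inv hx hsep, hcard]
  · intro v hv
    exact exists_place_eq_comap_inv w.valuationSubring L hx hsep hcard hinj hconst hLx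
      (fun q c => hK q c) (fun q => mem_nonunits_of_eq_exp w hm0 (hm q)) v hv

end Fermat.Agent.S37.Cusps.OrbitCountSep
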