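import Mathlib
import Fermat.Agent.S24.LemmaA

/-!
# PROJECT I (S37), slice I-1b (cusps): a complete family of embeddings is permuted by the
automorphisms of the target

`k0 ⊆ F` a finite field extension, `L : Q → F →+* Ω` a family of `[F : k0]` pairwise distinct ring
homomorphisms into a field which all restrict to `L0` on `k0`.

* `exists_eq_of_agree` : every ring homomorphism `ψ : F →+* Ω` restricting to `L0` is some `L q`;
* `exists_perm` : a ring endomorphism `σ` of `Ω` fixing `L0 k0` induces a permutation `s` of `Q`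
  with `L (s q) = σ ∘ L q`; `perm_pow_apply`, `perm_pow_eq_one`.
-/

set_option autoImplicit false

noncomputable section

namespace Fermat.Agent.S37.Cusps.PermFamily

open Module

variable {k0 F Ω : Type*} [Field k0] [Field F] [Algebra k0 F] [FiniteDimensional k0 F] [Field Ω]

/-- a family of `[F : k0]` distinct embeddings over `L0` is the family of ALL embeddings over
`L0` -/
theorem exists_eq_of_agree {Q : Type*} [Fintype Q] (L : Q → F →+* Ω)
    (hinj : Function.Injective L) (hcard : Fintype.card Q = finrank k0 F)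
    (L0 : k0 →+* Ω) (hbase : ∀ q y, L q (algebraMap k0 F y) = L0 y)
    (ψ : F →+* Ω) (hψ : ∀ y, ψ (algebraMap k0 F y) = L0 y) : ∃ q, L q = ψ := by
  classical
  letI : Algebra k0 Ω := L0.toAlgebra
  let σ : Q → (F →ₐ[k0] Ω) := fun q =>
    { toRingHom := L q
      commutes' := fun y => hbase q y }
  have hσinj : Function.Injective σ := by
    intro q q' h
    apply hinj
    ext f
    exact congrArg (fun s : F →ₐ[k0] Ω => s f) h
  have hσbij : Function.Bijective σ := by
    refine hσinj.bijective_of_nat_card_le ?_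
    rw [Nat.card_eq_fintype_card (α := Q), hcard]
    exact card_algHom_le_finrank k0 F Ω
  let ψ' : F →ₐ[k0] Ω :=
    { toRingHom := ψ
      commutes' := fun y => hψ y }
  obtain ⟨q, hq⟩ := hσbij.2 ψ'
  refine ⟨q, ?_⟩
  ext f
  exact congrArg (fun s : F →ₐ[k0] Ω => s f) hq

variable {Q : Type*} [Fintype Q] (L : Q → F →+* Ω)
  (hinj : Function.Injective L) (hcard : Fintype.card Q = finrank k0 F)
  (L0 : k0 →+* Ω) (hbase : ∀ q y, L q (algebraMap k0 F y) = L0 y)

include hinj hcard hbase in
/-- **The permutation induced by an endomorphism of the target.** -/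
theorem exists_perm (σ : Ω →+* Ω) (hσ : ∀ y, σ (L0 y) = L0 y) :
    ∃ s : Equiv.Perm Q, ∀ q, L (s q) = σ.comp (L q) := by
  classical
  have hex : ∀ q, ∃ q', L q' = σ.comp (L q) := fun q =>
    exists_eq_of_agree L hinj hcard L0 hbase (σ.comp (L q)) (fun y => by
      rw [RingHom.comp_apply, hbase, hσ])
  choose s hs using hex
  have hsinj : Function.Injective s := by
    intro q q' h
    apply hinj
    ext f
    have h1 : σ (L q f) = σ (L q' f) := by
      have := congrArg (fun φ : F →+* Ω => φ f) ((hs q).symm.trans ((congrArg L h).trans (hs q')))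
      simpa using this
    exact σ.injective h1
  have hsbij : Function.Bijective s := Finite.injective_iff_bijective.mp hsinj
  exact ⟨Equiv.ofBijective s hsbij, fun q => hs q⟩

omit [FiniteDimensional k0 F] [Fintype Q] in
theorem perm_pow_apply (σ : Ω →+* Ω) (s : Equiv.Perm Q) (hs : ∀ q, L (s q) = σ.comp (L q))
    (n : ℕ) (q : Q) (f : F) : L ((s ^ n) q) f = σ^[n] (L q f) := by
  induction n generalizing q with
  | zero => simp
  | succ n ih =>
    rw [pow_succ', Equiv.Perm.mul_apply, hs, RingHom.comp_apply, ih, Function.iterate_succ_apply']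

omit [FiniteDimensional k0 F] [Fintype Q] in
include hinj in
theorem perm_pow_smul_eq (σ : Ω →+* Ω) (s : Equiv.Perm Q) (hs : ∀ q, L (s q) = σ.comp (L q))
    (n : ℕ) (q : Q) (hfix : ∀ f : F, σ^[n] (L q f) = L q f) : (s ^ n) q = q := by
  apply hinj
  ext f
  rw [perm_pow_apply L σ s hs, hfix]

/-! ### the function field form: agreement on `K` and on `x` -/

section FF

open IntermediateField

variable {K F' Ω' : Type*} [Field K] [Field F'] [Algebra K F'] [Field Ω'] {x : F'}
  [FiniteDimensional K⟮x⟯ F']

/-- An endomorphism `σ` of the target which fixes the images of the constants and of `x` permutes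
a complete family of embeddings over `K(x)`. -/
theorem exists_perm_of_fix {Q' : Type*} [Fintype Q'] (L : Q' → F' →+* Ω')
    (hinj : Function.Injective L) (hcard : Fintype.card Q' = finrank K⟮x⟯ F')
    (hconst : ∀ q q' (c : K), L q (algebraMap K F' c) = L q' (algebraMap K F' c))
    (hLx : ∀ q q', L q x = L q' x)
    (σ : Ω' →+* Ω') (hσK : ∀ q (c : K), σ (L q (algebraMap K F' c)) = L q (algebraMap K F' c))
    (hσx : ∀ q, σ (L q x) = L q x) :
    ∃ s : Equiv.Perm Q', ∀ q, L (s q) = σ.comp (L q) := by
  rcases isEmpty_or_nonempty Q' with hQ | ⟨⟨q₀⟩⟩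
  · exact ⟨Equiv.refl _, fun q => (hQ.false q).elim⟩
  let L0 : K⟮x⟯ →+* Ω' := (L q₀).comp (algebraMap K⟮x⟯ F')
  have hbase : ∀ q (y : K⟮x⟯), L q (algebraMap K⟮x⟯ F' y) = L0 y := fun q y =>
    Fermat.Agent.S24.LemmaA.eq_on_adjoin (hconst q q₀) (hLx q q₀) y
  have hσ : ∀ y : K⟮x⟯, σ (L0 y) = L0 y := fun y =>
    Fermat.Agent.S24.LemmaA.eq_on_adjoin (φ := σ.comp (L q₀)) (ψ := L q₀)
      (fun c => hσK q₀ c) (hσx q₀) y
  exact exists_perm L hinj hcard L0 hbase σ hσ

end FF

end Fermat.Agent.S37.Cusps.PermFamily
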