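import Mathlib
import Fermat.Agent.S37.Cusps.OrbitCountSep
import Fermat.Agent.S37.Cusps.PermFamily
import Fermat.Agent.S37.Cusps.LaurentVal
import Fermat.Agent.S24.CuspWidth

/-!
# PROJECT I (S37), slice I-1b (cusps): the cusps are the orbits of `t ↦ ζ t`

`F / K` a function field with separating element `x` (any characteristic, `K` algebraically
closed), `L : Q → F →+* K'((t))` a complete family (`card Q = [F : K(x)]`, pairwise distinct) of
embeddings which send the constants to constants and `x` to `J(t^N)`.  For a primitive `N`-th root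
of unity `ζ ∈ K'` the substitution `t ↦ ζ t` permutes the family (`exists_perm`), and the poles of
`x` are counted by the orbits of this permutation (`card_poles_eq`): no analytic input.
-/

set_option autoImplicit false

noncomputable section

namespace Fermat.Agent.S37.Cusps.RescaleCount

open HahnSeries ModularCurve WithZero IntermediateField Module AlgebraicCurve
open Fermat.Agent.S28.LaurentRescale Fermat.Agent.S24.FF Fermat.Agent.S18.A
open Fermat.Agent.S37.Cusps

variable {K F K' : Type*} [Field K] [Field F] [Algebra K F] [Field K']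

/-- the `t`-adic valuation of `K'((t))` -/
abbrev vt (K' : Type*) [Field K'] : Valuation (LaurentSeries K') ℤᵐ⁰ := Valued.v

theorem vt_C_le_one (c : K') : vt K' (HahnSeries.C c) ≤ 1 := by
  rw [← exp_zero, ← neg_zero, LaurentSeries.valuation_le_iff_coeff_lt_eq_zero]
  intro n hn
  have h : (HahnSeries.C c : LaurentSeries K') = HahnSeries.single 0 c := rfl
  rw [h, HahnSeries.coeff_single_of_ne (ne_of_lt hn)]

section Perm

variable {x : F} [FiniteDimensional K⟮x⟯ F] {Q : Type*} [Fintype Q]
  (L : Q → F →+* LaurentSeries K')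
  (hinj : Function.Injective L) (hcard : Fintype.card Q = finrank K⟮x⟯ F)
  (g : K →+* K') (hconst : ∀ q (c : K), L q (algebraMap K F c) = HahnSeries.C (g c))
  (N : ℕ) [NeZero N] (hLx : ∀ q, L q x = qExpand K' N (jqModC K'))

include hinj hcard hconst hLx in
/-- `t ↦ ζ t` (`ζ^N = 1`) permutes the family. -/
theorem exists_perm (ζ : K'ˣ) (hζ : ζ ^ N = 1) :
    ∃ s : Equiv.Perm Q, ∀ q, L (s q) = (rescaleU ζ).toRingHom.comp (L q) := by
  refine PermFamily.exists_perm_of_fix (K := K) (x := x) L hinj hcard
    (fun q q' c => by rw [hconst, hconst]) (fun q q' => by rw [hLx, hLx])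
    (rescaleU ζ).toRingHom (fun q c => ?_) (fun q => ?_)
  · rw [hconst]
    exact rescaleU_C ζ _
  · rw [hLx]
    exact rescaleU_qExpand_of_pow_eq_one N hζ _

end Perm

variable [IsAlgClosed K]

/-- **The poles of `x` are the orbits of `t ↦ ζ t` on the family of embeddings.** -/
theorem card_poles_eq {x : F} (hx : IsFF K x) (hsep : Algebra.IsSeparable K⟮x⟯ F)
    {Q : Type*} [Fintype Q] (L : Q → F →+* LaurentSeries K')
    (hinj : Function.Injective L) (hcard : Fintype.card Q = finrank K⟮x⟯ F)
    (g : K →+* K') (hconst : ∀ q (c : K), L q (algebraMap K F c) = HahnSeries.C (g c))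
    (N : ℕ) [NeZero N] (hLx : ∀ q, L q x = qExpand K' N (jqModC K'))
    (ζ : K'ˣ) (hζ : IsPrimitiveRoot ζ N) (s : Equiv.Perm Q)
    (hs : ∀ q, L (s q) = (rescaleU ζ).toRingHom.comp (L q)) :
    (FibreSep.poles hx hsep).card
      = Nat.card (MulAction.orbitRel.Quotient (Subgroup.zpowers s) Q) := by
  have hN0 : 0 < N := Nat.pos_of_ne_zero (NeZero.ne N)
  have hiter : ∀ (n : ℕ) (z : LaurentSeries K'),
      (⇑(rescaleU ζ).toRingHom)^[n] z = rescaleU (ζ ^ n) z := by
    intro n z
    rw [rescaleU_pow]
    rfl
  have hpowN : ∀ q : Q, (s ^ N) • q = q := by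
    intro q
    refine PermFamily.perm_pow_smul_eq L hinj (rescaleU ζ).toRingHom s hs N q (fun f => ?_)
    rw [hiter, hζ.pow_eq_one, rescaleU_one]
  refine OrbitCountSep.card_poles_eq_card_orbits hx hsep (vt K') s L hcard hinj
    (fun q q' c => by rw [hconst, hconst]) (fun q q' => by rw [hLx, hLx])
    (fun q c => by rw [hconst]; exact vt_C_le_one _) N hN0
    (fun q => by rw [map_inv₀, hLx]; exact LaurentVal.valuation_inv_qExpand_jqModC N)
    (fun q => ?_) (fun q => ?_) (fun q f hf => ?_)
  · -- hsame
    ext y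
    rw [ValuationSubring.mem_comap, ValuationSubring.mem_comap,
      Valuation.mem_valuationSubring_iff, Valuation.mem_valuationSubring_iff]
    have h1 : vt K' (L (s • q) y) = vt K' (L q y) := by
      show vt K' (L (s q) y) = vt K' (L q y)
      rw [hs, RingHom.comp_apply]
      exact LaurentVal.valuation_rescaleU ζ _
    rw [h1]
  · -- hdvd
    exact Fermat.Agent.S24.CuspWidth.card_orbit_dvd_of_pow_smul_eq (hpowN q)
  · -- hs
    set w := Nat.card (MulAction.orbit (Subgroup.zpowers s) q) with hw
    have hwN : w ∣ N := Fermat.Agent.S24.CuspWidth.card_orbit_dvd_of_pow_smul_eq (hpowN q)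
    obtain ⟨d, hd⟩ := hwN
    have hd0 : d ≠ 0 := by
      rintro rfl
      rw [mul_zero] at hd
      exact NeZero.ne N hd
    haveI : NeZero d := ⟨hd0⟩
    have hfixq : (s ^ w) • q = q := Fermat.Agent.S24.CuspWidth.pow_card_orbit_smul s q
    have hfix : rescaleU (ζ ^ w) (L q f) = L q f := by
      have h1 := PermFamily.perm_pow_apply L (rescaleU ζ).toRingHom s hs w q f
      rw [hiter] at h1
      rw [← h1]
      congr 2
    have hord : orderOf (ζ ^ w) = d := ((hζ.pow hN0 hd).eq_orderOf).symm
    have hrange := (rescaleU_eq_self_iff d hord (L q f)).mp hfix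
    have hdvd := LaurentVal.dvd_order_of_mem_range_qExpand d hrange
    have hne : L q f ≠ 0 := (map_ne_zero (L q)).mpr hf
    rw [LaurentVal.log_valuation_eq hne]
    obtain ⟨c, hc⟩ := hdvd
    refine ⟨-c, ?_⟩
    rw [hc, hd]
    push_cast
    ring

end Fermat.Agent.S37.Cusps.RescaleCount
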