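import Mathlib
import Fermat.Agent.S24.OrbitsCuspAlt
import Fermat.Agent.S18.A.Instances
import Fermat.Agent.S37.Cusps.MonomialSubst
import Fermat.Agent.S37.Cusps.RescaleCount

/-!
# PROJECT I (S37), slice I-1b (cusps): the characteristic zero cusp family, explicitly

`S24.OrbitsCuspAlt.Lfam N q : F_L →+* ℂ((t))` (`q ∈ SL₂(ℤ) ⧸ Γ₀(N)`, `t = q_N`) are the `ψ(N)`
embeddings of the function field of `X₀(N)` over `ℚ̄(j)` given by the expansions at the cusps.

* `Lfam_jgen` : `Lfam N q j = J(t^N)` (the formal series), `Lfam_algebraMap`;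
* `isMono_Lfam` : `Lfam N q (j(q^d)) = J(w t^m)` for a root of unity `w` of `N`-power order
  (`MonomialSubst`, no computation of expansions);
* `exists_perm_card_poles` : `t ↦ ζ t` permutes the family and the poles of `j` on `X₀(N)` over
  `ℚ̄` are counted by the orbits of this permutation.
-/

set_option autoImplicit false

noncomputable section

open UpperHalfPlane hiding I
open ModularForm CongruenceSubgroup ModularCurve AlgebraicCurve WithZero
open scoped MatrixGroups ModularForm Manifold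

namespace Fermat.Agent.S37.Cusps.CuspFamily

open Fermat.Agent.S20 Fermat.Agent.S24.RepHom Fermat.Agent.S24.LaurentCusp
open Fermat.Agent.S24.OrbitDefs Fermat.Agent.S24.RepAll Fermat.Agent.S24.DegreeAlg
open Fermat.Agent.S24.OrbitsCuspAlt Fermat.Agent.S24

local notation "Kb" => AlgebraicClosure ℚ

variable (N : ℕ) [NeZero N]

/-- the `q_N`-expansion of a `1`-periodic function is its `q`-expansion in `q = q_N^N` -/
theorem cuspExp_eq_qExpand {f : ℍ → ℂ} (hf : IsCuspHol 1 f) :
    cuspExp N f = qExpand ℂ N (cuspExp 1 f) := by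
  have hNpos : 0 < N := Nat.pos_of_ne_zero (NeZero.ne N)
  have hN' : (0 : ℤ) < N := by exact_mod_cast hNpos
  ext n
  by_cases hd : (N : ℤ) ∣ n
  · obtain ⟨m, rfl⟩ := hd
    rw [qExpand_coeff_mul, coeff_cuspExp, coeff_cuspExp]
    by_cases hm : m < 0
    · have : (N : ℤ) * m < 0 := mul_neg_of_pos_of_neg hN' hm
      rw [if_pos this, if_pos hm]
    · rw [not_lt] at hm
      have : ¬ ((N : ℤ) * m < 0) := not_lt.mpr (mul_nonneg hN'.le hm)
      rw [if_neg this, if_neg (not_lt.mpr hm), coeff_qExpansion_of_isCuspHol_one hf]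
      have e : ((N : ℤ) * m).natAbs = N * m.natAbs := by
        rw [Int.natAbs_mul, Int.natAbs_natCast]
      rw [e, if_pos (Dvd.intro _ rfl), Nat.mul_div_cancel_left _ hNpos]
      simp only [Nat.cast_one]
  · rw [qExpand_coeff_of_not_dvd N _ hd, coeff_cuspExp]
    split_ifs with hneg
    · rfl
    · rw [coeff_qExpansion_of_isCuspHol_one hf, if_neg]
      intro hdn
      apply hd
      rw [not_lt] at hneg
      have : (n.natAbs : ℤ) = n := Int.natAbs_of_nonneg hneg
      rw [← this]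
      exact_mod_cast hdn

theorem jC_eq : LmapJ.jC = jqModC ℂ := by
  rw [LmapJ.jC, coeffEmb, ← jqModC_rat, coeffMap_jqModC]

theorem cuspExp_one_eq (f : ℍ → ℂ) : cuspExp 1 f = ofPS (Fermat.Agent.S23.QRing.qx f) := by
  rw [cuspExp_def]
  simp only [Nat.cast_one]
  rfl

/-- **(AN3)** every member of the cusp family sends `j` to `J(t^N)`. -/
theorem Lfam_jgen (q : SL(2, ℤ) ⧸ Gamma0 N) :
    Lfam N q (jgen N) = qExpand ℂ N (jqModC ℂ) := by
  rw [Lfam_apply, toRepField_jgen]
  have h := Lmap_levelOne (T := cuspHolHom N) (slashP_cusp N (Quotient.out q)⁻¹) (LmapJ.jrep N)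
    (LmapJ.isRepOf_jC N) (IsMF.coe LevelRaise.E4cube) (IsMF.coe LevelRaise.DeltaMF)
  show Lmap (cuspHolHom N) (Quotient.out q)⁻¹ (slashP_cusp N _) (LmapJ.jrep N) = _
  rw [h]
  show cuspExp N (⇑LevelRaise.E4cube) / cuspExp N (⇑LevelRaise.DeltaMF) = _
  rw [cuspExp_eq_qExpand N (isCuspHol_one_of_class LevelRaise.E4cube),
    cuspExp_eq_qExpand N (isCuspHol_one_of_class LevelRaise.DeltaMF), ← map_div₀,
    cuspExp_one_eq, cuspExp_one_eq, LmapJ.ofPS_qx_E4cube, ← jC_eq]
  congr 1
  exact mul_div_cancel_right₀ _ (LmapJ.isRepOf_jC N).qx_b_ne_zero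

theorem Lfam_algebraMap (q : SL(2, ℤ) ⧸ Gamma0 N) (c : Kb) :
    Lfam N q (algebraMap Kb ↥(modularFunctionFieldBar N) c) = HahnSeries.C (ι c) := by
  rw [Lfam_apply, toRepField_algebraMap, Lc_crep]

theorem coeffEmb_jq (L : Type*) [Field L] [Algebra ℚ L] : coeffEmb L jq = jqModC L := by
  rw [coeffEmb, ← jqModC_rat, coeffMap_jqModC]

/-- **Explicit values**: every member of the cusp family sends every generator `j(q^d)` to a
monomial substitution `J(w t^m)` of `j`, `w` a root of unity of `N`-power order. -/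
theorem isMono_Lfam (q : SL(2, ℤ) ⧸ Gamma0 N) (d : ℕ) (hd0 : d ≠ 0) (hd : d ∣ N) :
    MonomialSubst.IsMono ι N (Lfam N q (jdivF N ⟨d, hd⟩)) := by
  classical
  let jd : ℕ → ↥(modularFunctionFieldBar N) := fun d =>
    if h : d ∣ N then jdivF N ⟨d, h⟩ else 0
  have hjd : ∀ (d : ℕ) (h : d ∣ N), jd d = jdivF N ⟨d, h⟩ := fun d h => dif_pos h
  have key := MonomialSubst.isMono_of_relations (K₀ := Kb) (K₁ := ℂ) ι
    (B := ↥(modularFunctionFieldBar N)) N
    ((modularFunctionFieldBar N).val : ↥(modularFunctionFieldBar N) →+* LaurentSeries Kb)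
    Subtype.val_injective
    (fun c => by
      show algebraMap Kb (LaurentSeries Kb) c = HahnSeries.C c
      rw [algebraMap_laurentSeries_eq_single, HahnSeries.C_apply])
    jd
    (fun d _ h => by
      rw [hjd d h]
      show jdiv Kb N ⟨d, h⟩ = _
      rw [jdiv_eq_qExpand, coeffEmb_jq])
    (Lfam N q) (Lfam_algebraMap N q)
    (by
      rw [hjd 1 (one_dvd N)]
      show MonomialSubst.IsMono ι N (Lfam N q (jgen N))
      rw [Lfam_jgen]
      exact MonomialSubst.isMono_qExpand_jqModC ι N N)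
    d hd0 hd
  rwa [hjd d hd] at key


/-! ### the count in characteristic zero -/

open Fermat.Agent.S28.LaurentRescale in
/-- **The poles of `j` on `X₀(N)` over `ℚ̄` are the orbits of `t ↦ ζ t` on the cusp family.** -/
theorem exists_perm_card_poles (ζ₀ : Kbˣ) (hζ₀ : IsPrimitiveRoot ζ₀ N)
    (hsepL : Algebra.IsSeparable (IntermediateField.adjoin Kb {jgen N})
      ↥(modularFunctionFieldBar N)) :
    ∃ s : Equiv.Perm (SL(2, ℤ) ⧸ Gamma0 N),
      (∀ q, Lfam N (s q) =
        (rescaleU (Units.map (ι : Kb →+* ℂ).toMonoidHom ζ₀)).toRingHom.comp (Lfam N q)) ∧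
      (Fermat.Agent.S18.A.FibreSep.poles (Fermat.Agent.S18.A.Instances.isFF_jgen N) hsepL).card
        = Nat.card (MulAction.orbitRel.Quotient (Subgroup.zpowers s) (SL(2, ℤ) ⧸ Gamma0 N)) := by
  classical
  letI : Fintype (SL(2, ℤ) ⧸ Gamma0 N) := Fintype.ofFinite _
  haveI : FiniteDimensional (IntermediateField.adjoin Kb {jgen N})
      ↥(modularFunctionFieldBar N) := (Fermat.Agent.S18.A.Instances.isFF_jgen N).finite
  have hcard : Fintype.card (SL(2, ℤ) ⧸ Gamma0 N) =
      Module.finrank (IntermediateField.adjoin Kb {jgen N}) ↥(modularFunctionFieldBar N) := by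
    rw [Degree.finrank_eq_card N, Nat.card_eq_fintype_card]
  have hζ : IsPrimitiveRoot (Units.map (ι : Kb →+* ℂ).toMonoidHom ζ₀) N := by
    rw [← IsPrimitiveRoot.coe_units_iff]
    have h1 : IsPrimitiveRoot ((ζ₀ : Kbˣ) : Kb) N := IsPrimitiveRoot.coe_units_iff.mpr hζ₀
    exact h1.map_of_injective ι_injective
  obtain ⟨s, hs⟩ := RescaleCount.exists_perm (K := Kb) (x := jgen N) (Lfam N) (hinj N) hcard ι
    (Lfam_algebraMap N) N (Lfam_jgen N) _ hζ.pow_eq_one
  exact ⟨s, hs, RescaleCount.card_poles_eq (Fermat.Agent.S18.A.Instances.isFF_jgen N) hsepL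
    (Lfam N) (hinj N) hcard ι (Lfam_algebraMap N) N (Lfam_jgen N) _ hζ s hs⟩

end Fermat.Agent.S37.Cusps.CuspFamily
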