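import Mathlib
import Fermat.Prelude.Def_ModularCurve_X0ModL
import Fermat.Agent.S28.LaurentRescale

/-!
# PROJECT I (S37), slice I-1b (cusps), part (b3-inj): monomial substitutions of `j` are determined
by their data, and reduction is injective on roots of unity of order prime to the residue
characteristic

* `coeff_mono_of_lt`, `coeff_mono_neg` : the series `J(u t^m) = qExpand m (rescaleU u J)` starts
  with `u⁻¹ t^(-m)`;
* **`mono_injective`** : `J(u t^m) = J(u' t^m') → m = m' ∧ u = u'` over any field (any
  characteristic); `mono_injective'` is the same with the `NeZero` instances given as proofs, as in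
  `MonomialSubst.IsMono`;
* **`eq_of_residue_eq_of_pow_eq_one`** : in a local domain `R`, two `n`-th roots of unity with the
  same residue are equal if `n ≠ 0` in the residue field;
* `mem_valuationSubring_of_pow_eq_one`, `rootUnit`, **`eq_of_residue_rootUnit_eq`** : the same for
  roots of unity of a field `K` and a valuation subring `A` of `K`;
* `coeffMap_mono` : the reduction of `J(w t^m)` (coefficients in `A`) is `J(w̄ t^m)`.
-/

set_option autoImplicit false

namespace Fermat.Agent.S37.Cusps.MonoInj

open HahnSeries ModularCurve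
open Fermat.Agent.S28.LaurentRescale

/-! ### monomial substitutions are determined by their data -/

section Mono

variable {K : Type*} [Field K]

/-- the coefficients of `J(u t^m)` below `t^(-m)` vanish -/
theorem coeff_mono_of_lt (u : Kˣ) (m : ℕ) [NeZero m] {n : ℤ} (hn : n < -(m : ℤ)) :
    (qExpand K m (rescaleU u (jqModC K))).coeff n = 0 := by
  by_cases hdvd : (m : ℤ) ∣ n
  · obtain ⟨i, rfl⟩ := hdvd
    rw [qExpand_coeff_mul, coeff_rescaleU]
    have hm : (0 : ℤ) < m := by exact_mod_cast Nat.pos_of_ne_zero (NeZero.ne m)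
    have hi : i < -1 := by
      by_contra hcon
      push Not at hcon
      have : -(m : ℤ) ≤ (m : ℤ) * i := by nlinarith
      omega
    rw [coeff_jqModC_of_lt K hi, mul_zero]
  · exact qExpand_coeff_of_not_dvd m _ hdvd

/-- the leading coefficient of `J(u t^m)` is `u⁻¹` -/
theorem coeff_mono_neg (u : Kˣ) (m : ℕ) [NeZero m] :
    (qExpand K m (rescaleU u (jqModC K))).coeff (-(m : ℤ)) = ((u⁻¹ : Kˣ) : K) := by
  have h : -(m : ℤ) = (m : ℤ) * (-1) := by ring
  rw [h, qExpand_coeff_mul, coeff_rescaleU, coeff_jqModC_neg_one, mul_one, zpow_neg_one]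

/-- **`J(u t^m)` determines `m` and `u`** (any characteristic) -/
theorem mono_injective {u u' : Kˣ} {m m' : ℕ} [NeZero m] [NeZero m']
    (h : qExpand K m (rescaleU u (jqModC K)) = qExpand K m' (rescaleU u' (jqModC K))) :
    m = m' ∧ u = u' := by
  have hmm : m = m' := by
    rcases lt_trichotomy m m' with hlt | heq | hgt
    · exfalso
      have h1 := congrArg (fun f : LaurentSeries K => f.coeff (-(m' : ℤ))) h
      beta_reduce at h1
      rw [coeff_mono_neg, coeff_mono_of_lt u m (by exact_mod_cast (neg_lt_neg (by exact_mod_cast hlt)))]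
        at h1
      exact Units.ne_zero _ h1.symm
    · exact heq
    · exfalso
      have h1 := congrArg (fun f : LaurentSeries K => f.coeff (-(m : ℤ))) h
      beta_reduce at h1
      rw [coeff_mono_neg, coeff_mono_of_lt u' m' (by exact_mod_cast (neg_lt_neg (by exact_mod_cast hgt)))]
        at h1
      exact Units.ne_zero _ h1
  subst hmm
  refine ⟨rfl, ?_⟩
  have h1 := congrArg (fun f : LaurentSeries K => f.coeff (-(m : ℤ))) h
  beta_reduce at h1
  rw [coeff_mono_neg, coeff_mono_neg] at h1
  exact inv_injective (Units.ext h1)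

/-- `mono_injective` with the `NeZero` instances given by proofs (the shape of
`MonomialSubst.IsMono`) -/
theorem mono_injective' {u u' : Kˣ} {m m' : ℕ} (hm : m ≠ 0) (hm' : m' ≠ 0)
    (h : @qExpand K _ m ⟨hm⟩ (rescaleU u (jqModC K)) =
      @qExpand K _ m' ⟨hm'⟩ (rescaleU u' (jqModC K))) :
    m = m' ∧ u = u' :=
  @mono_injective K _ u u' m m' ⟨hm⟩ ⟨hm'⟩ h

end Mono

/-! ### reduction of a monomial substitution -/

section Reduce

/-- the coefficientwise image of `J(u t^m)` is `J(φ(u) t^m)` -/
theorem coeffMap_mono {R S : Type*} [CommRing R] [CommRing S] (φ : R →+* S) (u : Rˣ) (m : ℕ)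
    [NeZero m] :
    coeffMap φ (qExpand R m (rescaleU u (jqModC R))) =
      qExpand S m (rescaleU (Units.map φ.toMonoidHom u) (jqModC S)) := by
  ext k
  by_cases hk : (m : ℤ) ∣ k
  · obtain ⟨i, rfl⟩ := hk
    rw [coeffMap_coeff, qExpand_coeff_mul, qExpand_coeff_mul, ← coeffMap_coeff, coeffMap_rescaleU,
      coeffMap_jqModC]
  · rw [coeffMap_coeff, qExpand_coeff_of_not_dvd m _ hk, qExpand_coeff_of_not_dvd m _ hk,
      map_zero]

end Reduce

/-! ### reduction is injective on roots of unity of order prime to the residue characteristic -/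

section Roots

open IsLocalRing

/-- in a local domain, two `n`-th roots of unity with the same residue are equal, provided `n` is
nonzero in the residue field -/
theorem eq_of_residue_eq_of_pow_eq_one {R : Type*} [CommRing R] [IsLocalRing R] [IsDomain R]
    {n : ℕ} (hn : ((n : ℕ) : ResidueField R) ≠ 0) {w w' : R} (hw : w ^ n = 1) (hw' : w' ^ n = 1)
    (h : residue R w = residue R w') : w = w' := by
  have hn0 : n ≠ 0 := by
    rintro rfl
    exact hn (by simp)
  -- `w' ` is a unit
  have hu' : IsUnit w' := IsUnit.of_pow_eq_one hw' hn0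
  obtain ⟨v, rfl⟩ := hu'
  set z : R := w * ((v⁻¹ : Rˣ) : R) with hz
  have hzn : z ^ n = 1 := by
    have hvn : (v ^ n : Rˣ) = 1 := Units.ext (by rw [Units.val_pow_eq_pow_val, hw', Units.val_one])
    rw [hz, mul_pow, hw, one_mul, ← Units.val_pow_eq_pow_val, inv_pow, hvn, inv_one,
      Units.val_one]
  have hzres : residue R z = 1 := by
    rw [hz, map_mul, h, ← map_mul, Units.mul_inv, map_one]
  have hz1 : z = 1 := by
    by_contra hne
    have hgeom : (∑ i ∈ Finset.range n, z ^ i) * (z - 1) = 0 := by
      rw [geom_sum_mul, hzn, sub_self]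
    have hsum : ∑ i ∈ Finset.range n, z ^ i = 0 := by
      rcases mul_eq_zero.mp hgeom with h0 | h0
      · exact h0
      · exact absurd (sub_eq_zero.mp h0) hne
    have hres := congrArg (residue R) hsum
    rw [map_sum, map_zero] at hres
    simp only [map_pow, hzres, one_pow, Finset.sum_const, Finset.card_range, nsmul_eq_mul,
      mul_one] at hres
    exact hn hres
  have : w = z * (v : R) := by
    rw [hz, mul_assoc, Units.inv_mul, mul_one]
  rw [this, hz1, one_mul]

variable {K : Type*} [Field K] (A : ValuationSubring K)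

/-- roots of unity lie in every valuation subring -/
theorem mem_valuationSubring_of_pow_eq_one {w : K} {n : ℕ} (hn : n ≠ 0) (hw : w ^ n = 1) :
    w ∈ A := by
  rw [← A.valuation_le_one_iff]
  by_contra hlt
  push Not at hlt
  have h1 : 1 < A.valuation w ^ n := one_lt_pow₀ hlt hn
  rw [← map_pow, hw, map_one] at h1
  exact lt_irrefl _ h1

/-- a root of unity of `K` as an element of the valuation subring `A` -/
def rootElem {w : K} {n : ℕ} (hn : n ≠ 0) (hw : w ^ n = 1) : A :=
  ⟨w, mem_valuationSubring_of_pow_eq_one A hn hw⟩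

@[simp] theorem coe_rootElem {w : K} {n : ℕ} (hn : n ≠ 0) (hw : w ^ n = 1) :
    ((rootElem A hn hw : A) : K) = w := rfl

theorem rootElem_pow {w : K} {n : ℕ} (hn : n ≠ 0) (hw : w ^ n = 1) :
    (rootElem A hn hw) ^ n = 1 := by
  apply Subtype.ext
  rw [SubmonoidClass.coe_pow]
  exact hw

/-- **reduction is injective on roots of unity of order prime to the residue characteristic** -/
theorem eq_of_residue_rootElem_eq {n : ℕ} (hn0 : n ≠ 0) (hn : ((n : ℕ) : ResidueField A) ≠ 0)
    {w w' : K} (hw : w ^ n = 1) (hw' : w' ^ n = 1)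
    (h : residue A (rootElem A hn0 hw) = residue A (rootElem A hn0 hw')) : w = w' := by
  have h1 := eq_of_residue_eq_of_pow_eq_one hn (rootElem_pow A hn0 hw) (rootElem_pow A hn0 hw') h
  exact congrArg Subtype.val h1

end Roots

end Fermat.Agent.S37.Cusps.MonoInj
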