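import Mathlib
import Fermat.Agent.S24.OrbitsCuspAlt
import Fermat.Agent.S18.B.FkBasics
import Fermat.Agent.S37.Cusps.MonoInj

/-!
# PROJECT I (S37), slice I-1b (cusps): the reduced cusp family is injective

`Lbar : Q → (F_k →+* k((t)))` (`Q = SL₂(ℤ) ⧸ Γ₀(N)`, `k` the residue field of a valuation subring
`A` of `ℚ̄`) is a family of embeddings of the function field of `X₀(N)` over `k` which is the
"reduction" of the characteristic zero cusp family `S24.OrbitsCuspAlt.Lfam N` in the following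
explicit sense (hypothesis `(V1)`): both `Lfam N q (j(q^d))` and `Lbar q (J(q^d))` are monomial
substitutions `J(w t^m)`, with the same `m` and with `w` a root of unity of `A` of `N`-power order,
resp. its residue.  If `N` is invertible in `k`, then `Lbar` is injective:

`Lbar q = Lbar q'` ⟹ (`MonoInj.mono_injective'`) the same `m` and the same residue of `w`
⟹ (`MonoInj.eq_of_residue_eq_of_pow_eq_one`) the same `w`
⟹ `Lfam N q (j(q^N)) = Lfam N q' (j(q^N))` ⟹ (`S24.LmapSep`) `q = q'`.

Only the generator `d = N` is used.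

* `eq_of_Lfam_jdivF_N_eq` : the value at `j(q^N)` determines the member of the cusp family;
* `unit_eq_of_residue_eq` : two roots of unity (units of `A`) of `N`-power order with the same
  residue are equal;
* **`injective_of_mono_N`** (only `d = N` in the hypothesis), **`injective_of_mono`** (hypothesis
  for all `d ∣ N`, in the shape produced by `Cusps/EmbeddingsK`).
-/

set_option autoImplicit false

noncomputable section

open UpperHalfPlane hiding I
open ModularForm CongruenceSubgroup ModularCurve AlgebraicCurve WithZero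
open scoped MatrixGroups ModularForm Manifold

namespace Fermat.Agent.S37.Cusps.InjK

open Fermat.Agent.S20 Fermat.Agent.S24.RepHom Fermat.Agent.S24.LaurentCusp
open Fermat.Agent.S24.OrbitDefs Fermat.Agent.S24.RepAll Fermat.Agent.S24.DegreeAlg
open Fermat.Agent.S24.OrbitsCuspAlt Fermat.Agent.S24
open Fermat.Agent.S28.LaurentRescale Fermat.Agent.S18.B
open IsLocalRing

local notation "Kb" => AlgebraicClosure ℚ

variable (N : ℕ) [NeZero N]

/-- the value at `j(q^N)` determines the member of the characteristic zero cusp family -/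
theorem eq_of_Lfam_jdivF_N_eq {q q' : SL(2, ℤ) ⧸ Gamma0 N}
    (h : Lfam N q (jdivF N ⟨N, dvd_rfl⟩) = Lfam N q' (jdivF N ⟨N, dvd_rfl⟩)) : q = q' := by
  simp only [Lfam_apply, toRepField_jdivF_N] at h
  exact LmapSep.quot_eq_of_Lmap_out_inv_eq (cuspHolHom N) (fun _ _ hf hg => hf.sub hg) q q'
    (slashP_cusp N _) (slashP_cusp N _) h

variable {N}

omit [NeZero N] in
/-- two units of `A` which are roots of unity of `N`-power order and have the same residue are
equal, if `N` is invertible in the residue field -/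
theorem unit_eq_of_residue_eq (A : ValuationSubring Kb) (hl : ((N : ℕ) : ResidueField ↥A) ≠ 0)
    {w w' : (↥A)ˣ} {e e' : ℕ}
    (hw : ((w : ↥A) : Kb) ^ (N ^ e) = 1) (hw' : ((w' : ↥A) : Kb) ^ (N ^ e') = 1)
    (h : Units.map (residue ↥A).toMonoidHom w = Units.map (residue ↥A).toMonoidHom w') :
    w = w' := by
  have hwA : (w : ↥A) ^ (N ^ e) = 1 := by
    apply Subtype.ext
    rw [SubmonoidClass.coe_pow]
    exact hw
  have hwA' : (w' : ↥A) ^ (N ^ e') = 1 := by
    apply Subtype.ext
    rw [SubmonoidClass.coe_pow]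
    exact hw'
  have h1 : (w : ↥A) ^ (N ^ (e + e')) = 1 := by
    rw [pow_add, pow_mul, hwA, one_pow]
  have h1' : (w' : ↥A) ^ (N ^ (e + e')) = 1 := by
    rw [pow_add, mul_comm, pow_mul, hwA', one_pow]
  have hn : (((N ^ (e + e') : ℕ) : ℕ) : ResidueField ↥A) ≠ 0 := by
    rw [Nat.cast_pow]
    exact pow_ne_zero _ hl
  have hres : residue ↥A (w : ↥A) = residue ↥A (w' : ↥A) := by
    have := congrArg (fun u : (ResidueField ↥A)ˣ => (u : ResidueField ↥A)) h
    simpa using this
  exact Units.ext (MonoInj.eq_of_residue_eq_of_pow_eq_one hn h1 h1' hres)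

variable (N)

/-- **The reduced cusp family is injective** (hypothesis only at the generator `j(q^N)`). -/
theorem injective_of_mono_N (A : ValuationSubring Kb)
    (hl : ((N : ℕ) : ResidueField ↥A) ≠ 0)
    (Lbar : SL(2, ℤ) ⧸ Gamma0 N →
      (↥(modularFunctionFieldFullC (ResidueField ↥A) N) →+* LaurentSeries (ResidueField ↥A)))
    (hV : ∀ q : SL(2, ℤ) ⧸ Gamma0 N, ∃ (wA : (↥A)ˣ) (e m : ℕ) (hm : m ≠ 0),
      ((wA : ↥A) : Kb) ^ (N ^ e) = 1 ∧
      Lfam N q (jdivF N ⟨N, dvd_rfl⟩) = @qExpand ℂ _ m ⟨hm⟩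
        (rescaleU (Units.map (ι.comp A.subtype).toMonoidHom wA) (jqModC ℂ)) ∧
      Lbar q (FkBasics.jdk (ResidueField ↥A) N ⟨N, dvd_rfl⟩) = @qExpand (ResidueField ↥A) _ m ⟨hm⟩
        (rescaleU (Units.map (residue ↥A).toMonoidHom wA) (jqModC (ResidueField ↥A)))) :
    Function.Injective Lbar := by
  intro q q' hqq
  obtain ⟨w, e, m, hm, hw, hL, hk⟩ := hV q
  obtain ⟨w', e', m', hm', hw', hL', hk'⟩ := hV q'
  have h1 : @qExpand (ResidueField ↥A) _ m ⟨hm⟩
        (rescaleU (Units.map (residue ↥A).toMonoidHom w) (jqModC (ResidueField ↥A))) =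
      @qExpand (ResidueField ↥A) _ m' ⟨hm'⟩
        (rescaleU (Units.map (residue ↥A).toMonoidHom w') (jqModC (ResidueField ↥A))) := by
    rw [← hk, ← hk', hqq]
  obtain ⟨hmm, hu⟩ := MonoInj.mono_injective' hm hm' h1
  subst hmm
  have hww : w = w' := unit_eq_of_residue_eq A hl hw hw' hu
  subst hww
  apply eq_of_Lfam_jdivF_N_eq N
  rw [hL, hL']

/-- **The reduced cusp family is injective** (hypothesis at all generators `j(q^d)`, `d ∣ N`). -/
theorem injective_of_mono (A : ValuationSubring Kb)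
    (hl : ((N : ℕ) : ResidueField ↥A) ≠ 0)
    (Lbar : SL(2, ℤ) ⧸ Gamma0 N →
      (↥(modularFunctionFieldFullC (ResidueField ↥A) N) →+* LaurentSeries (ResidueField ↥A)))
    (hV : ∀ (q : SL(2, ℤ) ⧸ Gamma0 N) (d : {d : ℕ // d ∣ N}),
      ∃ (wA : (↥A)ˣ) (e m : ℕ) (hm : m ≠ 0),
      ((wA : ↥A) : Kb) ^ (N ^ e) = 1 ∧
      Lfam N q (jdivF N d) = @qExpand ℂ _ m ⟨hm⟩
        (rescaleU (Units.map (ι.comp A.subtype).toMonoidHom wA) (jqModC ℂ)) ∧
      Lbar q (FkBasics.jdk (ResidueField ↥A) N d) = @qExpand (ResidueField ↥A) _ m ⟨hm⟩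
        (rescaleU (Units.map (residue ↥A).toMonoidHom wA) (jqModC (ResidueField ↥A)))) :
    Function.Injective Lbar :=
  injective_of_mono_N N A hl Lbar fun q => hV q ⟨N, dvd_rfl⟩

end Fermat.Agent.S37.Cusps.InjK
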