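import Mathlib
import Fermat.Agent.S37.Cusps.CuspFamily
import Fermat.Agent.S37.Cusps.RescaleCount
import Fermat.Agent.S37.Cusps.InjK

/-!
# PROJECT I (S37), slice I-1b (cusps), (E4) (helper6): the cusp count from a reduced cusp family

`A` a valuation subring of `ℚ̄`, `k = κ(A)` algebraically closed with `N` invertible in `k`,
`Q = SL₂(ℤ) ⧸ Γ₀(N)`.  Let `Lbar : Q → (F_k →+* k((t)))` be a family of embeddings of the function
field of `X₀(N)` over `k` with

* (K1) `Lbar q c = c` on constants, (K2) `Lbar q j̄ = J(t^N)`,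
* (V1) (at the generator `d = N` only) `Lfam N q (j(q^N)) = J(w t^m)` and
  `Lbar q (J(q^N)) = J(w̄ t^m)` with the same `m` and `w ∈ Aˣ` a root of unity of `N`-power order
  (the shape of `InjK.injective_of_mono_N`),

and with `[F_L : ℚ̄(j)] = [F_k : k(j̄)]`.  Then the poles of `j̄` on `X₀(N)/k` and the poles of `j` on
`X₀(N)/ℚ̄` are both counted by the orbits of ONE permutation of `Q` (`t ↦ ζ t` on the
characteristic zero cusp family), so their numbers are equal (`card_poles_eq`, `cuspCount`).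
-/

set_option autoImplicit false
set_option linter.unusedSectionVars false

noncomputable section

open UpperHalfPlane hiding I
open ModularForm CongruenceSubgroup ModularCurve AlgebraicCurve WithZero
open scoped MatrixGroups ModularForm Manifold

namespace Fermat.Agent.S37.Cusps.CountK

open Fermat.Agent.S20 Fermat.Agent.S24.RepHom Fermat.Agent.S24.LaurentCusp
open Fermat.Agent.S24.OrbitDefs Fermat.Agent.S24.RepAll Fermat.Agent.S24.DegreeAlg
open Fermat.Agent.S24.OrbitsCuspAlt Fermat.Agent.S24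
open Fermat.Agent.S28.LaurentRescale Fermat.Agent.S18.B Fermat.Agent.S18.A
open IsLocalRing IntermediateField

local notation "Kb" => AlgebraicClosure ℚ

variable (N : ℕ) [NeZero N] (A : ValuationSubring Kb)

/-- the hypothesis (V1) at the generator `j(q^N)` -/
def V1N (Lbar : SL(2, ℤ) ⧸ Gamma0 N →
    (↥(modularFunctionFieldFullC (ResidueField ↥A) N) →+* LaurentSeries (ResidueField ↥A))) :
    Prop :=
  ∀ q : SL(2, ℤ) ⧸ Gamma0 N, ∃ (wA : (↥A)ˣ) (e m : ℕ) (hm : m ≠ 0),
    ((wA : ↥A) : Kb) ^ (N ^ e) = 1 ∧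
    Lfam N q (jdivF N ⟨N, dvd_rfl⟩) = @qExpand ℂ _ m ⟨hm⟩
      (rescaleU (Units.map (ι.comp A.subtype).toMonoidHom wA) (jqModC ℂ)) ∧
    Lbar q (FkBasics.jdk (ResidueField ↥A) N ⟨N, dvd_rfl⟩) = @qExpand (ResidueField ↥A) _ m ⟨hm⟩
      (rescaleU (Units.map (residue ↥A).toMonoidHom wA) (jqModC (ResidueField ↥A)))

variable {N A}

/-- the value at `J(q^N)` determines the member of the reduced cusp family -/
theorem eq_of_Lbar_jdk_N_eq (hl : ((N : ℕ) : ResidueField ↥A) ≠ 0)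
    {Lbar : SL(2, ℤ) ⧸ Gamma0 N →
      (↥(modularFunctionFieldFullC (ResidueField ↥A) N) →+* LaurentSeries (ResidueField ↥A))}
    (hV : V1N N A Lbar) {q q' : SL(2, ℤ) ⧸ Gamma0 N}
    (h : Lbar q (FkBasics.jdk (ResidueField ↥A) N ⟨N, dvd_rfl⟩) =
      Lbar q' (FkBasics.jdk (ResidueField ↥A) N ⟨N, dvd_rfl⟩)) : q = q' := by
  obtain ⟨w, e, m, hm, hw, hL, hk⟩ := hV q
  obtain ⟨w', e', m', hm', hw', hL', hk'⟩ := hV q'
  have h1 : @qExpand (ResidueField ↥A) _ m ⟨hm⟩
        (rescaleU (Units.map (residue ↥A).toMonoidHom w) (jqModC (ResidueField ↥A))) =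
      @qExpand (ResidueField ↥A) _ m' ⟨hm'⟩
        (rescaleU (Units.map (residue ↥A).toMonoidHom w') (jqModC (ResidueField ↥A))) := by
    rw [← hk, ← hk', h]
  obtain ⟨hmm, hu⟩ := MonoInj.mono_injective' hm hm' h1
  subst hmm
  have hww : w = w' := InjK.unit_eq_of_residue_eq A hl hw hw' hu
  subst hww
  apply InjK.eq_of_Lfam_jdivF_N_eq N
  rw [hL, hL']

/-- `t ↦ u t` after a monomial substitution -/
theorem rescaleU_mono {R : Type*} [CommRing R] (u v : Rˣ) (m : ℕ) (hm : m ≠ 0)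
    (f : LaurentSeries R) :
    rescaleU u (@qExpand R _ m ⟨hm⟩ (rescaleU v f)) =
      @qExpand R _ m ⟨hm⟩ (rescaleU (u ^ m * v) f) := by
  haveI : NeZero m := ⟨hm⟩
  rw [rescaleU_qExpand, ← rescaleU_mul]

/-- a primitive `N`-th root of unity of `ℚ̄`, as a unit of `A` -/
theorem exists_unit_of_primitiveRoot (ζ₀ : Kbˣ) (hζ₀ : IsPrimitiveRoot ζ₀ N) :
    ∃ zA : (↥A)ˣ, ((zA : ↥A) : Kb) = (ζ₀ : Kb) := by
  have hN0 : N ≠ 0 := NeZero.ne N
  have h1 : ((ζ₀ : Kbˣ) : Kb) ^ N = 1 := by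
    rw [← Units.val_pow_eq_pow_val, hζ₀.pow_eq_one, Units.val_one]
  have h2 : ((ζ₀⁻¹ : Kbˣ) : Kb) ^ N = 1 := by
    rw [← Units.val_pow_eq_pow_val, inv_pow, hζ₀.pow_eq_one, inv_one, Units.val_one]
  refine ⟨⟨⟨(ζ₀ : Kb), MonoInj.mem_valuationSubring_of_pow_eq_one A hN0 h1⟩,
    ⟨((ζ₀⁻¹ : Kbˣ) : Kb), MonoInj.mem_valuationSubring_of_pow_eq_one A hN0 h2⟩, ?_, ?_⟩, rfl⟩
  · apply Subtype.ext
    show (ζ₀ : Kb) * ((ζ₀⁻¹ : Kbˣ) : Kb) = 1
    rw [← Units.val_mul, mul_inv_cancel, Units.val_one]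
  · apply Subtype.ext
    show ((ζ₀⁻¹ : Kbˣ) : Kb) * (ζ₀ : Kb) = 1
    rw [← Units.val_mul, inv_mul_cancel, Units.val_one]

/-- the residue of a primitive `N`-th root of unity is a primitive `N`-th root of unity when `N`
is invertible in the residue field -/
theorem isPrimitiveRoot_residue (hl : ((N : ℕ) : ResidueField ↥A) ≠ 0) {ζ₀ : Kbˣ}
    (hζ₀ : IsPrimitiveRoot ζ₀ N) {zA : (↥A)ˣ} (hz : ((zA : ↥A) : Kb) = (ζ₀ : Kb)) :
    IsPrimitiveRoot (Units.map (residue ↥A).toMonoidHom zA) N := by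
  have hzN : (zA : ↥A) ^ N = 1 := by
    apply Subtype.ext
    rw [SubmonoidClass.coe_pow, hz, ← Units.val_pow_eq_pow_val, hζ₀.pow_eq_one, Units.val_one]
    rfl
  refine ⟨?_, fun l hl1 => ?_⟩
  · rw [← map_pow]
    have : zA ^ N = 1 := Units.ext (by rw [Units.val_pow_eq_pow_val, hzN, Units.val_one])
    rw [this, map_one]
  · have h1 : residue ↥A ((zA : ↥A) ^ l) = residue ↥A 1 := by
      have := congrArg (fun u : (ResidueField ↥A)ˣ => (u : ResidueField ↥A)) hl1
      simpa using this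
    have h2 : ((zA : ↥A) ^ l) ^ N = 1 := by rw [← pow_mul, mul_comm, pow_mul, hzN, one_pow]
    have h3 := MonoInj.eq_of_residue_eq_of_pow_eq_one hl h2 (one_pow N) h1
    have h4 : (ζ₀ : Kb) ^ l = 1 := by
      have := congrArg (fun a : ↥A => (a : Kb)) h3
      simpa [hz] using this
    have h5 : ζ₀ ^ l = 1 := Units.ext (by rw [Units.val_pow_eq_pow_val, h4, Units.val_one])
    exact hζ₀.dvd_of_pow_eq_one l h5

variable (N A)

/-- **The cusp count (equality)**: the poles of `j̄` on `X₀(N)/k` are as many as the poles of `j`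
on `X₀(N)/ℚ̄`, given a reduced cusp family. -/
theorem card_poles_eq [IsAlgClosed (ResidueField ↥A)]
    (hl : ((N : ℕ) : ResidueField ↥A) ≠ 0)
    (hn : Module.finrank Kb⟮jgen N⟯ ↥(modularFunctionFieldBar N)
      = Module.finrank (ResidueField ↥A)⟮FkBasics.jk (ResidueField ↥A) N⟯
          ↥(modularFunctionFieldFullC (ResidueField ↥A) N))
    (Lbar : SL(2, ℤ) ⧸ Gamma0 N →
      (↥(modularFunctionFieldFullC (ResidueField ↥A) N) →+* LaurentSeries (ResidueField ↥A)))
    (hconst : ∀ q (c : ResidueField ↥A),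
      Lbar q (algebraMap (ResidueField ↥A)
        ↥(modularFunctionFieldFullC (ResidueField ↥A) N) c) = HahnSeries.C c)
    (hJ : ∀ q, Lbar q (FkBasics.jk (ResidueField ↥A) N) =
      qExpand (ResidueField ↥A) N (jqModC (ResidueField ↥A)))
    (hV : V1N N A Lbar)
    (hsep : Algebra.IsSeparable
      (ResidueField ↥A)⟮FkBasics.jk (ResidueField ↥A) N⟯
      ↥(modularFunctionFieldFullC (ResidueField ↥A) N)) :
    (FibreSep.poles (FkBasics.isFF (ResidueField ↥A) N) hsep).card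
      = (FibreSep.poles (Instances.isFF_jgen N) (Instances.isSeparable_jgen N)).card := by
  classical
  letI : Fintype (SL(2, ℤ) ⧸ Gamma0 N) := Fintype.ofFinite _
  have hN0 : N ≠ 0 := NeZero.ne N
  -- a primitive root of unity
  obtain ⟨ζ, hζ⟩ := HasEnoughRootsOfUnity.exists_primitiveRoot Kb N
  set ζ₀ : Kbˣ := (hζ.isUnit hN0).unit with hζ₀def
  have hζ₀ : IsPrimitiveRoot ζ₀ N := by
    rw [← IsPrimitiveRoot.coe_units_iff]
    exact hζ
  obtain ⟨zA, hz⟩ := exists_unit_of_primitiveRoot (A := A) ζ₀ hζ₀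
  have hζk := isPrimitiveRoot_residue hl hζ₀ hz
  -- the characteristic zero side
  obtain ⟨s, hs, hcL⟩ := CuspFamily.exists_perm_card_poles N ζ₀ hζ₀ (Instances.isSeparable_jgen N)
  -- the residue side
  have hinj : Function.Injective Lbar := InjK.injective_of_mono_N N A hl Lbar hV
  haveI : FiniteDimensional (ResidueField ↥A)⟮FkBasics.jk (ResidueField ↥A) N⟯
      ↥(modularFunctionFieldFullC (ResidueField ↥A) N) := (FkBasics.isFF (ResidueField ↥A) N).finite
  have hcard : Fintype.card (SL(2, ℤ) ⧸ Gamma0 N) =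
      Module.finrank (ResidueField ↥A)⟮FkBasics.jk (ResidueField ↥A) N⟯
        ↥(modularFunctionFieldFullC (ResidueField ↥A) N) := by
    rw [← hn, Degree.finrank_eq_card N, Nat.card_eq_fintype_card]
  have hconst' : ∀ q (c : ResidueField ↥A),
      Lbar q (algebraMap (ResidueField ↥A)
        ↥(modularFunctionFieldFullC (ResidueField ↥A) N) c) =
        HahnSeries.C ((RingHom.id (ResidueField ↥A)) c) := fun q c => hconst q c
  obtain ⟨s', hs'⟩ := RescaleCount.exists_perm (K := ResidueField ↥A)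
    (x := FkBasics.jk (ResidueField ↥A) N) Lbar hinj hcard (RingHom.id _) hconst' N hJ
    (Units.map (residue ↥A).toMonoidHom zA) hζk.pow_eq_one
  have hck := RescaleCount.card_poles_eq (FkBasics.isFF (ResidueField ↥A) N) hsep Lbar hinj hcard
    (RingHom.id _) hconst' N hJ _ hζk s' hs'
  -- the two permutations coincide
  have hzι : Units.map (ι.comp A.subtype).toMonoidHom zA =
      Units.map (ι : Kb →+* ℂ).toMonoidHom ζ₀ := by
    apply Units.ext
    show ι ((zA : ↥A) : Kb) = ι (ζ₀ : Kb)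
    rw [hz]
  have key : ∀ q, s' q = s q := by
    intro q
    obtain ⟨w, e, m, hm, hw, hL, hk⟩ := hV q
    obtain ⟨w₁, e₁, m₁, hm₁, hw₁, hL₁, hk₁⟩ := hV (s q)
    have h1 : Lfam N (s q) (jdivF N ⟨N, dvd_rfl⟩) =
        rescaleU (Units.map (ι : Kb →+* ℂ).toMonoidHom ζ₀) (Lfam N q (jdivF N ⟨N, dvd_rfl⟩)) := by
      rw [hs]
      rfl
    rw [hL₁, hL, rescaleU_mono _ _ m hm] at h1
    obtain ⟨hmm, hu⟩ := MonoInj.mono_injective' hm₁ hm h1
    subst hmm
    have hw₁' : w₁ = zA ^ m₁ * w := by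
      rw [← hzι, ← map_pow, ← map_mul] at hu
      apply Units.ext
      apply Subtype.ext
      apply ι_injective
      have := congrArg (fun u : ℂˣ => (u : ℂ)) hu
      exact this
    have h2 : Lbar (s' q) (FkBasics.jdk (ResidueField ↥A) N ⟨N, dvd_rfl⟩) =
        rescaleU (Units.map (residue ↥A).toMonoidHom zA)
          (Lbar q (FkBasics.jdk (ResidueField ↥A) N ⟨N, dvd_rfl⟩)) := by
      rw [hs']
      rfl
    rw [hk, rescaleU_mono _ _ m₁ hm₁] at h2
    have h3 := hk₁
    rw [hw₁', map_mul, map_pow] at h3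
    exact eq_of_Lbar_jdk_N_eq hl hV (h2.trans h3.symm)
  have hss : s' = s := Equiv.ext key
  rw [hck, hcL, hss]

/-- **The cusp count** in the shape of `GenusAll.CuspCount N A` (= `hcp` of
`S18.B.GenusLe.genus_le_X0`). -/
theorem cuspCount
    (hl : ((N : ℕ) : ResidueField ↥A) ≠ 0)
    (hn : Module.finrank Kb⟮jgen N⟯ ↥(modularFunctionFieldBar N)
      = Module.finrank (ResidueField ↥A)⟮FkBasics.jk (ResidueField ↥A) N⟯
          ↥(modularFunctionFieldFullC (ResidueField ↥A) N))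
    (Lbar : SL(2, ℤ) ⧸ Gamma0 N →
      (↥(modularFunctionFieldFullC (ResidueField ↥A) N) →+* LaurentSeries (ResidueField ↥A)))
    (hconst : ∀ q (c : ResidueField ↥A),
      Lbar q (algebraMap (ResidueField ↥A)
        ↥(modularFunctionFieldFullC (ResidueField ↥A) N) c) = HahnSeries.C c)
    (hJ : ∀ q, Lbar q (FkBasics.jk (ResidueField ↥A) N) =
      qExpand (ResidueField ↥A) N (jqModC (ResidueField ↥A)))
    (hV : V1N N A Lbar) :
    ∀ [IsAlgClosed (ResidueField ↥A)]
      (hsep : Algebra.IsSeparable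
        (ResidueField ↥A)⟮FkBasics.jk (ResidueField ↥A) N⟯
        ↥(modularFunctionFieldFullC (ResidueField ↥A) N)),
      (FibreSep.poles (FkBasics.isFF (ResidueField ↥A) N) hsep).card
        ≤ (FibreSep.poles (Instances.isFF_jgen N) (Instances.isSeparable_jgen N)).card :=
  fun hsep => (card_poles_eq N A hl hn Lbar hconst hJ hV hsep).le

end Fermat.Agent.S37.Cusps.CountK
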