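import Mathlib

/-!
# PROJECT I (S37), slice I-1b (cusps): the local ring of fractions with nonzero reduction

`inc : R →+* Ω` an injective ring homomorphism into a field, `ρ₀ : R →+* κ` a ring homomorphism
into a field (in the application `R = A((t))`, `Ω = ℂ((t))`, `κ = k((t))`, `ρ₀` the coefficientwise
reduction).

* `fracSubring inc ρ₀ : Subring Ω` : the `x` with `x * inc s = inc a`, `ρ₀ s ≠ 0`;
* `fracRed inc ρ₀ hinc : fracSubring inc ρ₀ →+* κ`, `x ↦ ρ₀ a / ρ₀ s` (`fracRed_eq`);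
* `inc_mem`, `fracRed_inc`; `inv_mem`; equivariance `map_mem`, `fracRed_map`.
-/

set_option autoImplicit false

noncomputable section

namespace Fermat.Agent.S37.Cusps.FracLocal

variable {R Ω κ : Type*} [CommRing R] [Field Ω] [Field κ] (inc : R →+* Ω) (ρ₀ : R →+* κ)

/-- the fractions `inc a / inc s` with `ρ₀ s ≠ 0` -/
def fracSubring : Subring Ω where
  carrier := {x | ∃ a s : R, ρ₀ s ≠ 0 ∧ x * inc s = inc a}
  mul_mem' := by
    rintro x y ⟨a, s, hs, h⟩ ⟨b, u, hu, h'⟩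
    refine ⟨a * b, s * u, ?_, ?_⟩
    · rw [map_mul]; exact mul_ne_zero hs hu
    · rw [map_mul, map_mul, ← h, ← h']; ring
  one_mem' := ⟨1, 1, by rw [map_one]; exact one_ne_zero, by rw [map_one, mul_one]⟩
  add_mem' := by
    rintro x y ⟨a, s, hs, h⟩ ⟨b, u, hu, h'⟩
    refine ⟨a * u + b * s, s * u, ?_, ?_⟩
    · rw [map_mul]; exact mul_ne_zero hs hu
    · rw [map_add, map_mul, map_mul, map_mul, ← h, ← h']; ring
  zero_mem' := ⟨0, 1, by rw [map_one]; exact one_ne_zero, by rw [map_zero, zero_mul]⟩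
  neg_mem' := by
    rintro x ⟨a, s, hs, h⟩
    exact ⟨-a, s, hs, by rw [map_neg, ← h]; ring⟩

variable {inc ρ₀}

theorem mem_fracSubring {x : Ω} :
    x ∈ fracSubring inc ρ₀ ↔ ∃ a s : R, ρ₀ s ≠ 0 ∧ x * inc s = inc a := Iff.rfl

theorem inc_mem (a : R) : inc a ∈ fracSubring inc ρ₀ :=
  ⟨a, 1, by rw [map_one]; exact one_ne_zero, by rw [map_one, mul_one]⟩

variable (hinc : Function.Injective inc)

include hinc in
theorem cross {x : Ω} {a s a' s' : R} (h : x * inc s = inc a) (h' : x * inc s' = inc a') :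
    ρ₀ a * ρ₀ s' = ρ₀ a' * ρ₀ s := by
  have h1 : a * s' = a' * s := by
    apply hinc
    rw [map_mul, map_mul, ← h, ← h']; ring
  rw [← map_mul, ← map_mul, h1]

variable (inc ρ₀) in
/-- the underlying function of the reduction -/
def fracRedFun (x : fracSubring inc ρ₀) : κ :=
  ρ₀ x.2.choose / ρ₀ x.2.choose_spec.choose

include hinc in
theorem fracRedFun_eq (x : fracSubring inc ρ₀) {a s : R} (hs : ρ₀ s ≠ 0)
    (h : (x : Ω) * inc s = inc a) : fracRedFun inc ρ₀ x = ρ₀ a / ρ₀ s := by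
  obtain ⟨hs', h'⟩ := x.2.choose_spec.choose_spec
  rw [fracRedFun, div_eq_div_iff hs' hs]
  exact cross hinc h' h

variable (inc ρ₀) in
/-- **the reduction** `inc a / inc s ↦ ρ₀ a / ρ₀ s` -/
def fracRed : fracSubring inc ρ₀ →+* κ where
  toFun := fracRedFun inc ρ₀
  map_one' := by
    rw [fracRedFun_eq hinc 1 (a := 1) (s := 1) (by rw [map_one]; exact one_ne_zero)
      (by simp), map_one, div_one]
  map_mul' := by
    intro X Y
    obtain ⟨a, s, hs, h⟩ := X.2
    obtain ⟨b, u, hu, h'⟩ := Y.2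
    have hsu : ρ₀ (s * u) ≠ 0 := by rw [map_mul]; exact mul_ne_zero hs hu
    have e1 := fracRedFun_eq hinc X hs h
    have e2 := fracRedFun_eq hinc Y hu h'
    have e3 := fracRedFun_eq hinc (X * Y) (a := a * b) hsu
      (by rw [Subring.coe_mul, map_mul, map_mul, ← h, ← h']; ring)
    rw [e1, e2, e3, map_mul, map_mul, div_mul_div_comm]
  map_zero' := by
    rw [fracRedFun_eq hinc 0 (a := 0) (s := 1) (by rw [map_one]; exact one_ne_zero)
      (by simp), map_zero, zero_div]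
  map_add' := by
    intro X Y
    obtain ⟨a, s, hs, h⟩ := X.2
    obtain ⟨b, u, hu, h'⟩ := Y.2
    have hsu : ρ₀ (s * u) ≠ 0 := by rw [map_mul]; exact mul_ne_zero hs hu
    have e1 := fracRedFun_eq hinc X hs h
    have e2 := fracRedFun_eq hinc Y hu h'
    have e3 := fracRedFun_eq hinc (X + Y) (a := a * u + b * s) hsu
      (by rw [Subring.coe_add, map_add, map_mul, map_mul, map_mul, ← h, ← h']; ring)
    rw [e1, e2, e3, map_add, map_mul, map_mul, map_mul, div_add_div _ _ hs hu, mul_comm (ρ₀ s) (ρ₀ b)]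

theorem fracRed_eq (x : fracSubring inc ρ₀) {a s : R} (hs : ρ₀ s ≠ 0)
    (h : (x : Ω) * inc s = inc a) : fracRed inc ρ₀ hinc x = ρ₀ a / ρ₀ s :=
  fracRedFun_eq hinc x hs h

theorem fracRed_inc (a : R) : fracRed inc ρ₀ hinc ⟨inc a, inc_mem a⟩ = ρ₀ a := by
  rw [fracRed_eq hinc _ (a := a) (s := 1) (by rw [map_one]; exact one_ne_zero)
    (by rw [map_one, mul_one]), map_one, div_one]

/-- an element with nonzero reduction is a unit of the local ring -/
theorem inv_mem {x : Ω} (hx : x ∈ fracSubring inc ρ₀)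
    (h0 : fracRed inc ρ₀ hinc ⟨x, hx⟩ ≠ 0) : x⁻¹ ∈ fracSubring inc ρ₀ := by
  obtain ⟨a, s, hs, h⟩ := hx
  have ha : ρ₀ a ≠ 0 := by
    intro ha
    apply h0
    rw [fracRed_eq hinc _ hs h, ha, zero_div]
  have hx0 : x ≠ 0 := by
    rintro rfl
    rw [zero_mul] at h
    have : a = 0 := hinc (by rw [← h, map_zero])
    exact ha (by rw [this, map_zero])
  refine ⟨s, a, ha, ?_⟩
  rw [← h]
  field_simp

/-! ### equivariance -/

section Equivariance

variable (σ : Ω →+* Ω) (σR : R →+* R) (σκ : κ →+* κ)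
  (h1 : ∀ a, σ (inc a) = inc (σR a)) (h2 : ∀ a, ρ₀ (σR a) = σκ (ρ₀ a))

include h1 h2 in
theorem map_mem {x : Ω} (hx : x ∈ fracSubring inc ρ₀) : σ x ∈ fracSubring inc ρ₀ := by
  obtain ⟨a, s, hs, h⟩ := hx
  refine ⟨σR a, σR s, ?_, ?_⟩
  · rw [h2]
    exact (map_ne_zero σκ).mpr hs
  · rw [← h1, ← h1, ← map_mul, h]

theorem fracRed_map {x : Ω} (hx : x ∈ fracSubring inc ρ₀) :
    fracRed inc ρ₀ hinc ⟨σ x, map_mem σ σR σκ h1 h2 hx⟩ = σκ (fracRed inc ρ₀ hinc ⟨x, hx⟩) := by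
  obtain ⟨a, s, hs, h⟩ := hx
  have hs' : ρ₀ (σR s) ≠ 0 := by
    rw [h2]
    exact (map_ne_zero σκ).mpr hs
  have h' : σ x * inc (σR s) = inc (σR a) := by
    rw [← h1, ← h1, ← map_mul, h]
  rw [fracRed_eq hinc ⟨σ x, _⟩ hs' h', fracRed_eq hinc ⟨x, _⟩ hs h, h2, h2, map_div₀]

end Equivariance

end Fermat.Agent.S37.Cusps.FracLocal
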