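import Mathlib
import Fermat.Agent.S18.C.UnramVal

/-!
# PROJECT I (S37), slice I-1b (cusps): reduction of an embedding along an unramified valuation

Setting of `S18.C.UnramVal`: `E ⊆ F` finite, `O` a valuation ring of `F`, `V₀ = O ∩ E`,
`red : O → κ`, `redV : V₀ → κ₀` with `h : Hyp E O red redV t` (`O` is free over `V₀` on lifts of a
basis of `κ / κ₀`).  Let `S ⊆ O` be a set whose residues generate `κ` as a `κ₀`-algebra.

* `adjoin_eq_top` : `O = V₀[S]` (Nakayama);
* `exists_redEmb` : let `L : F →+* Ω` be a ring homomorphism, `V ⊆ Ω` a subring with a ring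
  homomorphism `ρ : V → Ωk` such that `L` maps `V₀` into `V` compatibly with `redV` (through
  `lam : κ₀ → Ωk`) and maps `S` into `V`.  Then `L` maps `O` into `V` and there is a ring
  homomorphism `Lbar : κ → Ωk` with `Lbar (red x) = ρ (L x)` for all `x ∈ O`.
-/

set_option autoImplicit false
set_option linter.unusedSectionVars false

noncomputable section

namespace Fermat.Agent.S37.Cusps.RedEmb

open Fermat.Agent.S18.C.UnramVal

variable {E : Type*} {F : Type*} [Field E] [Field F] [Algebra E F] [FiniteDimensional E F]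
variable {O : ValuationSubring F}
variable {κ : Type*} [Field κ] {red : ↥O →+* κ}
variable {κ₀ : Type*} [Field κ₀] [Algebra κ₀ κ] {redV : ↥(below E O) →+* κ₀}
variable {ι : Type*} [Fintype ι] {t : ι → ↥O}

attribute [local instance] algBelow

/-- the kernel of the reduction is `𝔪_{V₀} O` (`e = 1`) -/
theorem mem_smul_top_of_red_eq_zero (h : Hyp E O red redV t) {z : ↥O} (hz : red z = 0) :
    z ∈ (IsLocalRing.maximalIdeal ↥(below E O)) • (⊤ : Submodule ↥(below E O) ↥O) := by
  by_cases hz0 : z = 0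
  · rw [hz0]; exact Submodule.zero_mem _
  have hzF : (z : F) ≠ 0 := fun h0 => hz0 (Subtype.ext h0)
  obtain ⟨a, u, ha0, hau⟩ := h.exists_scale (z : F) hzF
  have huinv : ((u : ↥O) : F) * (((u⁻¹ : (↥O)ˣ) : ↥O) : F) = 1 :=
    congrArg Subtype.val u.mul_inv
  have haO : algebraMap E F a ∈ O := by
    have : algebraMap E F a = (z : F) * (((u⁻¹ : (↥O)ˣ) : ↥O) : F) := by
      rw [hau, mul_assoc, huinv, mul_one]
    rw [this]
    exact O.mul_mem _ _ z.2 (((u⁻¹ : (↥O)ˣ) : ↥O)).2
  let a' : ↥(below E O) := ⟨a, haO⟩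
  have hza : z = a' • (u : ↥O) := by
    apply Subtype.ext
    rw [coe_smul_below, Algebra.smul_def]
    exact hau
  have hnu : ¬ IsUnit a' := by
    intro hu
    have h1 : IsUnit (incl E O a') := hu.map (incl E O)
    have h2 : red (incl E O a') ≠ 0 := fun h0 => ((h.ker _).mp h0) h1
    have h3 : red (u : ↥O) ≠ 0 := fun h0 => ((h.ker _).mp h0) u.isUnit
    apply mul_ne_zero h2 h3
    rw [← map_mul, ← hz, hza, Algebra.smul_def, algebraMap_below_eq]
  rw [hza]
  exact Submodule.smul_mem_smul ((IsLocalRing.mem_maximalIdeal _).mpr hnu) Submodule.mem_top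

/-- **Nakayama**: `O` is generated over `V₀ = O ∩ E` by any set whose residues generate the
residue field over `κ₀`. -/
theorem adjoin_eq_top (h : Hyp E O red redV t) (hredV : Function.Surjective redV)
    (S : Set ↥O) (hS : Algebra.adjoin κ₀ (red '' S) = ⊤) :
    Algebra.adjoin ↥(below E O) S = ⊤ := by
  have hsurj : ∀ y : κ, ∃ x ∈ Algebra.adjoin ↥(below E O) S, red x = y := by
    intro y
    have hy : y ∈ Algebra.adjoin κ₀ (red '' S) := by rw [hS]; exact Algebra.mem_top
    induction hy using Algebra.adjoin_induction with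
    | mem y hy =>
      obtain ⟨x, hx, rfl⟩ := hy
      exact ⟨x, Algebra.subset_adjoin hx, rfl⟩
    | algebraMap c =>
      obtain ⟨x', rfl⟩ := hredV c
      refine ⟨algebraMap ↥(below E O) ↥O x', Subalgebra.algebraMap_mem _ _, ?_⟩
      rw [algebraMap_below_eq, ← h.compat]
    | add y z _ _ hy hz =>
      obtain ⟨x, hx, rfl⟩ := hy
      obtain ⟨x', hx', rfl⟩ := hz
      exact ⟨x + x', Subalgebra.add_mem _ hx hx', map_add _ _ _⟩
    | mul y z _ _ hy hz =>
      obtain ⟨x, hx, rfl⟩ := hy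
      obtain ⟨x', hx', rfl⟩ := hz
      exact ⟨x * x', Subalgebra.mul_mem _ hx hx', map_mul _ _ _⟩
  haveI := h.finite
  have hle : (⊤ : Submodule ↥(below E O) ↥O) ≤
      Subalgebra.toSubmodule (Algebra.adjoin ↥(below E O) S) := by
    refine Submodule.le_of_le_smul_of_le_jacobson_bot
      (I := IsLocalRing.maximalIdeal ↥(below E O)) Module.Finite.fg_top
      (IsLocalRing.maximalIdeal_le_jacobson ⊥) ?_
    intro x _
    obtain ⟨x₀, hx₀, hx⟩ := hsurj (red x)
    have hz : red (x - x₀) = 0 := by rw [map_sub, hx, sub_self]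
    have h1 := mem_smul_top_of_red_eq_zero h hz
    have h2 : x = x₀ + (x - x₀) := by ring
    rw [h2]
    exact Submodule.add_mem_sup (show x₀ ∈ Subalgebra.toSubmodule (Algebra.adjoin ↥(below E O) S) from hx₀) h1
  rw [eq_top_iff]
  intro x _
  exact hle (Submodule.mem_top : x ∈ (⊤ : Submodule ↥(below E O) ↥O))

variable {Ω Ωk : Type*} [CommRing Ω] [CommRing Ωk]

/-- **Reduction of an embedding.** -/
theorem exists_redEmb (h : Hyp E O red redV t) (hredV : Function.Surjective redV)
    (S : Set ↥O) (hS : Algebra.adjoin κ₀ (red '' S) = ⊤)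
    (V : Subring Ω) (ρ : ↥V →+* Ωk) (L : F →+* Ω) (lam : κ₀ →+* Ωk)
    (ha : ∀ x : ↥(below E O), ∃ hx : L (algebraMap E F (x : E)) ∈ V, ρ ⟨_, hx⟩ = lam (redV x))
    (hb : ∀ g ∈ S, L ((g : ↥O) : F) ∈ V) :
    ∃ Lbar : κ →+* Ωk, (∀ x : ↥O, ∃ hx : L (x : F) ∈ V, Lbar (red x) = ρ ⟨L (x : F), hx⟩) ∧
      ∀ c : κ₀, Lbar (algebraMap κ₀ κ c) = lam c := by
  have htop := adjoin_eq_top h hredV S hS
  have hmem : ∀ x : ↥O, L (x : F) ∈ V := by
    intro x
    have hx : x ∈ Algebra.adjoin ↥(below E O) S := by rw [htop]; exact Algebra.mem_top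
    induction hx using Algebra.adjoin_induction with
    | mem x hx => exact hb x hx
    | algebraMap c => exact (ha c).1
    | add x y _ _ hx hy =>
      rw [Subring.coe_add, map_add]
      exact V.add_mem hx hy
    | mul x y _ _ hx hy =>
      rw [Subring.coe_mul, map_mul]
      exact V.mul_mem hx hy
  let Λ : ↥O →+* ↥V := (L.comp O.subtype).codRestrict V hmem
  have hΛ : ∀ x : ↥O, ((Λ x : ↥V) : Ω) = L (x : F) := fun x => rfl
  have hΛincl : ∀ c : ↥(below E O), ρ (Λ (incl E O c)) = lam (redV c) := by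
    intro c
    obtain ⟨hx, hc⟩ := ha c
    rw [← hc]
    congr 1
  have hker : RingHom.ker red ≤ RingHom.ker (ρ.comp Λ) := by
    intro z hz
    rw [RingHom.mem_ker] at hz ⊢
    by_cases hz0 : z = 0
    · rw [hz0, map_zero]
    have hzF : (z : F) ≠ 0 := fun h0 => hz0 (Subtype.ext h0)
    obtain ⟨a, u, ha0, hau⟩ := h.exists_scale (z : F) hzF
    have huinv : ((u : ↥O) : F) * (((u⁻¹ : (↥O)ˣ) : ↥O) : F) = 1 :=
      congrArg Subtype.val u.mul_inv
    have haO : algebraMap E F a ∈ O := by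
      have : algebraMap E F a = (z : F) * (((u⁻¹ : (↥O)ˣ) : ↥O) : F) := by
        rw [hau, mul_assoc, huinv, mul_one]
      rw [this]
      exact O.mul_mem _ _ z.2 (((u⁻¹ : (↥O)ˣ) : ↥O)).2
    let a' : ↥(below E O) := ⟨a, haO⟩
    have hza : z = incl E O a' * (u : ↥O) := Subtype.ext hau
    have h3 : red (u : ↥O) ≠ 0 := fun h0 => ((h.ker _).mp h0) u.isUnit
    have h4 : red (incl E O a') = 0 := by
      have h5 : red (incl E O a') * red (u : ↥O) = 0 := by rw [← map_mul, ← hza, hz]
      exact (mul_eq_zero.mp h5).resolve_right h3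
    have h6 : redV a' = 0 := by
      have := h.compat a'
      rw [h4] at this
      exact (map_eq_zero_iff _ (algebraMap κ₀ κ).injective).mp this
    rw [RingHom.comp_apply, hza, map_mul, map_mul, hΛincl, h6, map_zero, zero_mul]
  refine ⟨RingHom.liftOfSurjective red h.surj ⟨ρ.comp Λ, hker⟩, fun x => ⟨hmem x, ?_⟩, ?_⟩
  · rw [RingHom.liftOfSurjective_comp_apply]
    rfl
  · intro c
    obtain ⟨x', rfl⟩ := hredV c
    rw [h.compat, RingHom.liftOfSurjective_comp_apply]
    exact hΛincl x'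

end Fermat.Agent.S37.Cusps.RedEmb
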