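import Mathlib
import Fermat.Agent.S18.C.ModularInst
import Fermat.Agent.S18.C.BaseChangeR
import Fermat.Agent.S37.Wild.GaussA
import Fermat.Agent.S37.Cusps.FracLocal
import Fermat.Agent.S37.Cusps.RedEmb
import Fermat.Agent.S37.Cusps.MonoInj
import Fermat.Agent.S37.Cusps.CuspFamily

/-!
# PROJECT I (S37), slice I-1b (cusps): reduction of the cusp family

`A` a valuation subring of `ℚ̄`, `κ` its residue field, `G` a Gauss datum for
`F_L = ℚ̄(X₀(N))` and `F_κ = κ(X₀(N))` over the `j`-lines, containing the generators `j(q^d)`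
(`d ∣ N`) and reducing them to the generators of `F_κ`, with `[F_L : ℚ̄(j)] ≤ [F_κ : κ(j)]`.

The `ψ(N)` embeddings `S24.OrbitsCuspAlt.Lfam N q : F_L →+* ℂ((t))` (expansions at the cusps,
`t = q_N`) map the Gauss valuation ring `G.O` into the local ring
`V = {a / s : a, s ∈ A((t)), s̄ ≠ 0}` of `ℂ((t))` (Nakayama: `RedEmb.exists_redEmb`; no computation of
expansions), hence induce embeddings `Lbar q : F_κ →+* κ((t))`:

* `exists_Lbar` : existence of `Lbar q` with `Lbar q (G.red x) = ρ (Lfam N q x)` on `G.O`;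
* constants go to constants, `j ↦ J(t^N)`;
* `(V1)` : `j(q^d) ↦ J(w̄ t^m)` where `Lfam N q (j(q^d)) = J(w t^m)`;
* equivariance under `t ↦ ζ t`.
-/

set_option autoImplicit false
set_option linter.style.haveILetI false

noncomputable section

open UpperHalfPlane hiding I
open ModularForm CongruenceSubgroup ModularCurve AlgebraicCurve
open scoped MatrixGroups ModularForm Manifold

namespace Fermat.Agent.S37.Cusps.EmbeddingsK

open Polynomial
open Fermat.Agent.S24.OrbitDefs Fermat.Agent.S24.DegreeAlg Fermat.Agent.S24.OrbitsCuspAlt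
open Fermat.Agent.S28.LaurentRescale
open Fermat.Agent.S37.Deuring.Core Fermat.Agent.S37.Wild.GaussA
open Fermat.Agent.S18.C.UnramVal Fermat.Agent.S18.B.FkBasics
open Fermat.Agent.S37.Cusps Fermat.Agent.S37.Cusps.FracLocal

local notation "Kb" => AlgebraicClosure ℚ

/-! ### generalities on coefficient maps -/

section Coeff

variable {R S : Type*} [CommRing R] [CommRing S] (φ : R →+* S)

theorem coeffMap_qExpand_aux (n : ℕ) [NeZero n] (x : LaurentSeries R) :
    coeffMap φ (qExpand R n x) = qExpand S n (coeffMap φ x) := by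
  ext k
  by_cases hk : (n : ℤ) ∣ k
  · obtain ⟨m, rfl⟩ := hk
    rw [coeffMap_coeff, qExpand_coeff_mul, qExpand_coeff_mul, coeffMap_coeff]
  · rw [coeffMap_coeff, qExpand_coeff_of_not_dvd n _ hk, qExpand_coeff_of_not_dvd n _ hk,
      map_zero]

theorem coeffMap_C_aux (r : R) :
    coeffMap φ (HahnSeries.C r : LaurentSeries R) = HahnSeries.C (φ r) := by
  have h1 : (HahnSeries.C r : LaurentSeries R) = HahnSeries.single 0 r := rfl
  have h2 : (HahnSeries.C (φ r) : LaurentSeries S) = HahnSeries.single 0 (φ r) := rfl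
  rw [h1, h2, coeffMap_single]

theorem coeffMap_injective_aux (hφ : Function.Injective φ) : Function.Injective (coeffMap φ) := by
  intro x y h
  ext k
  apply hφ
  rw [← coeffMap_coeff, ← coeffMap_coeff, h]

end Coeff

variable (N : ℕ) [NeZero N] (A : ValuationSubring Kb)

/-- the coefficient embedding `A → ℂ` -/
abbrev emb : ↥A →+* ℂ := (ι : Kb →+* ℂ).comp A.subtype

theorem emb_injective : Function.Injective (emb A) :=
  ι_injective.comp Subtype.val_injective

/-- `A((t)) → ℂ((t))` -/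
def incA : LaurentSeries ↥A →+* LaurentSeries ℂ := coeffMap (emb A)

/-- `A((t)) → κ((t))` -/
def rhoA : LaurentSeries ↥A →+* LaurentSeries (IsLocalRing.ResidueField ↥A) :=
  coeffMap (IsLocalRing.residue ↥A)

theorem incA_injective : Function.Injective (incA A) :=
  coeffMap_injective_aux _ (emb_injective A)

/-- the local ring `{a / s : a, s ∈ A((t)), s̄ ≠ 0}` of `ℂ((t))` -/
abbrev VA : Subring (LaurentSeries ℂ) := fracSubring (incA A) (rhoA A)

/-- its reduction `a / s ↦ ā / s̄` -/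
abbrev rhoV : ↥(VA A) →+* LaurentSeries (IsLocalRing.ResidueField ↥A) :=
  fracRed (incA A) (rhoA A) (incA_injective A)

/-- `J(t^N)` over `A` -/
def JA : LaurentSeries ↥A := qExpand ↥A N (jqModC ↥A)

theorem incA_JA : incA A (JA N A) = qExpand ℂ N (jqModC ℂ) := by
  rw [incA, JA, coeffMap_qExpand_aux, coeffMap_jqModC]

theorem rhoA_JA : rhoA A (JA N A) =
    qExpand (IsLocalRing.ResidueField ↥A) N (jqModC (IsLocalRing.ResidueField ↥A)) := by
  rw [rhoA, JA, coeffMap_qExpand_aux, coeffMap_jqModC]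

/-- polynomials over `A` evaluated at `J(t^N)` -/
def evA : (↥A)[X] →+* LaurentSeries ↥A :=
  Polynomial.eval₂RingHom (HahnSeries.C : ↥A →+* LaurentSeries ↥A) (JA N A)

theorem transcendental_JK (K : Type*) [Field K] :
    Transcendental K (qExpand K N (jqModC K)) := by
  have h := Fermat.Agent.S28.ThetaAdjoin.transcendental_jqModC K
  rw [transcendental_iff] at h ⊢
  intro p hp
  apply h p
  apply qExpand_injective (R := K) (N := N)
  rw [map_zero, ← hp, ← qExpandAlgHomC_apply, ← qExpandAlgHomC_apply,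
    Polynomial.aeval_algHom_apply]

/-- `κ(j) → κ((t))`, `j ↦ J(t^N)` -/
def lamK : RatFunc (IsLocalRing.ResidueField ↥A) →+*
    LaurentSeries (IsLocalRing.ResidueField ↥A) :=
  (Fermat.Agent.S18.A.Chart.evalRat
    (transcendental_JK N (IsLocalRing.ResidueField ↥A))).toRingHom

theorem lamK_X : lamK N A RatFunc.X =
    qExpand (IsLocalRing.ResidueField ↥A) N (jqModC (IsLocalRing.ResidueField ↥A)) :=
  Fermat.Agent.S18.A.Chart.evalRat_X _

theorem lamK_C (c : IsLocalRing.ResidueField ↥A) : lamK N A (RatFunc.C c) = HahnSeries.C c := by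
  rw [← RatFunc.algebraMap_eq_C]
  show (Fermat.Agent.S18.A.Chart.evalRat _) (algebraMap _ _ c) = _
  rw [AlgHom.commutes, algebraMap_laurentSeries_eq_single]
  rfl

/-- polynomials over `A` in `j`: the cusp family evaluates them at `J(t^N)` -/
theorem Lfam_polyL (q : SL(2, ℤ) ⧸ Gamma0 N) (p : (↥A)[X]) :
    Lfam N q (algebraMap (RatFunc Kb) ↥(modularFunctionFieldBar N) (polyL p)) =
      incA A (evA N A p) := by
  have h : ((Lfam N q).comp (algebraMap (RatFunc Kb) ↥(modularFunctionFieldBar N))).comp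
      (polyL (A := A)) = (incA A).comp (evA N A) := by
    refine Polynomial.ringHom_ext (fun a => ?_) ?_
    · simp only [RingHom.comp_apply, evA, Polynomial.coe_eval₂RingHom, Polynomial.eval₂_C,
        polyL, Polynomial.coe_mapRingHom, Polynomial.map_C]
      rw [RatFunc.algebraMap_C, ← RatFunc.algebraMap_eq_C, ← IsScalarTower.algebraMap_apply,
        incA, coeffMap_C_aux]
      exact CuspFamily.Lfam_algebraMap N q _
    · simp only [RingHom.comp_apply, evA, Polynomial.coe_eval₂RingHom, Polynomial.eval₂_X,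
        polyL, Polynomial.coe_mapRingHom, Polynomial.map_X, RatFunc.algebraMap_X]
      rw [Fermat.Agent.S18.C.ModularInst.algebraMap_FL_X, CuspFamily.Lfam_jgen, incA_JA]
  exact congrFun (congrArg DFunLike.coe h) p

/-- reduction of polynomials over `A` evaluated at `J(t^N)` -/
theorem rhoA_evA (p : (↥A)[X]) :
    rhoA A (evA N A p) = lamK N A (polyK (IsLocalRing.residue ↥A) p) := by
  have h : (rhoA A).comp (evA N A) = (lamK N A).comp (polyK (IsLocalRing.residue ↥A)) := by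
    refine Polynomial.ringHom_ext (fun a => ?_) ?_
    · simp only [RingHom.comp_apply, evA, Polynomial.coe_eval₂RingHom, Polynomial.eval₂_C,
        polyK, Polynomial.coe_mapRingHom, Polynomial.map_C]
      rw [RatFunc.algebraMap_C, lamK_C, rhoA, coeffMap_C_aux]
    · simp only [RingHom.comp_apply, evA, Polynomial.coe_eval₂RingHom, Polynomial.eval₂_X,
        polyK, Polynomial.coe_mapRingHom, Polynomial.map_X, RatFunc.algebraMap_X]
      rw [lamK_X, rhoA_JA]
  exact congrFun (congrArg DFunLike.coe h) p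

/-! ### the generators of `F_κ` over `κ(j)` -/

theorem adjoin_ratFunc_jdk_eq_top (K : Type*) [Field K] :
    Algebra.adjoin (RatFunc K) (Set.range (jdk K N)) = ⊤ := by
  haveI := (Fermat.Agent.S18.C.BaseChangeR.finrank_ratFunc_fullC K N).1
  have h1 : (⊤ : IntermediateField K ↥(modularFunctionFieldFullC K N)) ≤
      (IntermediateField.adjoin (RatFunc K) (Set.range (jdk K N))).restrictScalars K := by
    rw [← adjoin_range_jdk_eq_top K N, IntermediateField.adjoin_le_iff]
    intro z hz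
    rw [IntermediateField.coe_restrictScalars]
    exact IntermediateField.subset_adjoin (RatFunc K) (Set.range (jdk K N)) hz
  have h2 : IntermediateField.adjoin (RatFunc K) (Set.range (jdk K N)) = ⊤ := by
    rw [eq_top_iff]
    intro y _
    exact (IntermediateField.mem_restrictScalars K).mp (h1 IntermediateField.mem_top)
  rw [← IntermediateField.adjoin_toSubalgebra, h2, IntermediateField.top_toSubalgebra]

/-! ### roots of unity are units of `A` -/

theorem exists_unit_of_pow_eq_one {w : Kbˣ} {n : ℕ} (hn : n ≠ 0) (hw : w ^ n = 1) :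
    ∃ wA : (↥A)ˣ, ((wA : ↥A) : Kb) = (w : Kb) := by
  have h1 : (w : Kb) ^ n = 1 := by rw [← Units.val_pow_eq_pow_val, hw, Units.val_one]
  have h2 : ((w⁻¹ : Kbˣ) : Kb) ^ n = 1 := by
    rw [← Units.val_pow_eq_pow_val, inv_pow, hw, inv_one, Units.val_one]
  refine ⟨⟨⟨(w : Kb), MonoInj.mem_valuationSubring_of_pow_eq_one A hn h1⟩,
    ⟨((w⁻¹ : Kbˣ) : Kb), MonoInj.mem_valuationSubring_of_pow_eq_one A hn h2⟩,
    Subtype.ext ?_, Subtype.ext ?_⟩, rfl⟩
  · show (w : Kb) * ((w⁻¹ : Kbˣ) : Kb) = 1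
    rw [← Units.val_mul, mul_inv_cancel, Units.val_one]
  · show ((w⁻¹ : Kbˣ) : Kb) * (w : Kb) = 1
    rw [← Units.val_mul, inv_mul_cancel, Units.val_one]

/-- **values on the generators**: `Lfam N q (j(q^d)) = J(w t^m)` with `w` a root of unity of
`N`-power order, a unit of `A` -/
theorem Lfam_jdivF (q : SL(2, ℤ) ⧸ Gamma0 N) (d : {d : ℕ // d ∣ N}) :
    ∃ (wA : (↥A)ˣ) (e m : ℕ) (hm : m ≠ 0), ((wA : ↥A) : Kb) ^ (N ^ e) = 1 ∧
      Lfam N q (jdivF N d) = @qExpand ℂ _ m ⟨hm⟩
        (rescaleU (Units.map (emb A).toMonoidHom wA) (jqModC ℂ)) := by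
  obtain ⟨d, hd⟩ := d
  have hd0 : d ≠ 0 := by
    rintro rfl
    exact NeZero.ne N (Nat.eq_zero_of_zero_dvd hd)
  obtain ⟨w, e, m, hm, hw, hL⟩ := CuspFamily.isMono_Lfam N q d hd0 hd
  have hNe : N ^ e ≠ 0 := pow_ne_zero _ (NeZero.ne N)
  obtain ⟨wA, hwA⟩ := exists_unit_of_pow_eq_one A hNe hw
  refine ⟨wA, e, m, hm, ?_, ?_⟩
  · rw [hwA, ← Units.val_pow_eq_pow_val, hw, Units.val_one]
  · have hu : Units.map (ι : Kb →+* ℂ).toMonoidHom w = Units.map (emb A).toMonoidHom wA := by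
      apply Units.ext
      show ι (w : Kb) = ι ((wA : ↥A) : Kb)
      rw [hwA]
    rw [hL, hu]

/-! ### the reduced embeddings -/

section Main

variable {N A}
variable (G : GaussDatum A (IsLocalRing.residue ↥A) ↥(modularFunctionFieldBar N)
    ↥(modularFunctionFieldFullC (IsLocalRing.ResidueField ↥A) N))
  (hx : algebraMap (RatFunc Kb) ↥(modularFunctionFieldBar N) RatFunc.X ∈ G.O)
  (hrx : G.red ⟨_, hx⟩ = algebraMap (RatFunc (IsLocalRing.ResidueField ↥A))
    ↥(modularFunctionFieldFullC (IsLocalRing.ResidueField ↥A) N) RatFunc.X)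

/-- **(a)** the cusp family maps the Gauss valuation ring of the `j`-line into `V`, compatibly
with the reductions -/
theorem Lfam_Vj (q : SL(2, ℤ) ⧸ Gamma0 N) (x : ↥(Vj G)) :
    ∃ hx' : Lfam N q (algebraMap (RatFunc Kb) ↥(modularFunctionFieldBar N) (x : RatFunc Kb))
        ∈ VA A,
      rhoV A ⟨_, hx'⟩ = lamK N A (redVj G hx hrx x) := by
  obtain ⟨a, s, hs, h⟩ := (mem_Vj_iff G hx hrx (x : RatFunc Kb)).mp x.2
  have hrel : Lfam N q (algebraMap (RatFunc Kb) ↥(modularFunctionFieldBar N) (x : RatFunc Kb)) *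
      incA A (evA N A s) = incA A (evA N A a) := by
    have h1 : Lfam N q (algebraMap (RatFunc Kb) ↥(modularFunctionFieldBar N)
        ((x : RatFunc Kb) * polyL s)) =
        Lfam N q (algebraMap (RatFunc Kb) ↥(modularFunctionFieldBar N) (polyL a)) := by rw [h]
    rw [RingHom.map_mul, RingHom.map_mul, Lfam_polyL, Lfam_polyL] at h1
    exact h1
  have hsK : lamK N A (polyK (IsLocalRing.residue ↥A) s) ≠ 0 :=
    (map_ne_zero (lamK N A)).mpr (polyK_ne_zero hs)
  have hs' : rhoA A (evA N A s) ≠ 0 := by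
    rw [rhoA_evA]
    exact hsK
  have hmem : Lfam N q (algebraMap (RatFunc Kb) ↥(modularFunctionFieldBar N) (x : RatFunc Kb))
      ∈ VA A := ⟨evA N A a, evA N A s, hs', hrel⟩
  refine ⟨hmem, ?_⟩
  have h2 := redVj_mul_polyK G hx hrx x h
  have h3 : rhoV A ⟨_, hmem⟩ = rhoA A (evA N A a) / rhoA A (evA N A s) :=
    fracRed_eq (incA_injective A) ⟨_, hmem⟩ hs' hrel
  rw [h3, rhoA_evA, rhoA_evA, ← h2, RingHom.map_mul, mul_div_cancel_right₀ _ hsK]

variable (hsurj : Function.Surjective G.red)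
  (hdim : Module.finrank (RatFunc Kb) ↥(modularFunctionFieldBar N) ≤
    Module.finrank (RatFunc (IsLocalRing.ResidueField ↥A))
      ↥(modularFunctionFieldFullC (IsLocalRing.ResidueField ↥A) N))
  (hgen : ∀ d : {d : ℕ // d ∣ N}, ∃ h : jdivF N d ∈ G.O,
    G.red ⟨_, h⟩ = jdk (IsLocalRing.ResidueField ↥A) N d)

attribute [local instance] algBelow

include hx hrx hsurj hdim hgen in
/-- **Existence of the reduced embeddings.** -/
theorem exists_Lbar (q : SL(2, ℤ) ⧸ Gamma0 N) :
    ∃ Lb : ↥(modularFunctionFieldFullC (IsLocalRing.ResidueField ↥A) N) →+*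
        LaurentSeries (IsLocalRing.ResidueField ↥A),
      (∀ x : ↥G.O, ∃ hx' : Lfam N q (x : ↥(modularFunctionFieldBar N)) ∈ VA A,
        Lb (G.red x) = rhoV A ⟨_, hx'⟩) ∧
      ∀ c : RatFunc (IsLocalRing.ResidueField ↥A), Lb (algebraMap _ _ c) = lamK N A c := by
  haveI := (Fermat.Agent.S18.C.BaseChangeR.finrank_ratFunc_bar N).1
  obtain ⟨t, ht⟩ := exists_hyp G hx hrx hsurj hdim
  have hredV := redVj_surjective G hx hrx G.pi_surjective
  let S : Set ↥G.O := Set.range (fun d : {d : ℕ // d ∣ N} => (⟨jdivF N d, (hgen d).1⟩ : ↥G.O))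
  have hS : Algebra.adjoin (RatFunc (IsLocalRing.ResidueField ↥A)) (G.red '' S) = ⊤ := by
    have h1 : G.red '' S = Set.range (jdk (IsLocalRing.ResidueField ↥A) N) := by
      ext y
      constructor
      · rintro ⟨_, ⟨d, rfl⟩, rfl⟩
        exact ⟨d, ((hgen d).2).symm⟩
      · rintro ⟨d, rfl⟩
        exact ⟨_, ⟨d, rfl⟩, (hgen d).2⟩
    rw [h1]
    exact adjoin_ratFunc_jdk_eq_top N _
  refine RedEmb.exists_redEmb ht hredV S hS (VA A) (rhoV A) (Lfam N q) (lamK N A)
    (Lfam_Vj G hx hrx q) ?_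
  rintro _ ⟨d, rfl⟩
  obtain ⟨wA, e, m, hm, -, hL⟩ := Lfam_jdivF N A q d
  show Lfam N q (jdivF N d) ∈ VA A
  rw [hL]
  haveI : NeZero m := ⟨hm⟩
  rw [← MonoInj.coeffMap_mono (emb A) wA m]
  exact inc_mem _

/-- **the reduced cusp family** `Lbar q : F_κ →+* κ((t))` -/
def Lbar (q : SL(2, ℤ) ⧸ Gamma0 N) :
    ↥(modularFunctionFieldFullC (IsLocalRing.ResidueField ↥A) N) →+*
      LaurentSeries (IsLocalRing.ResidueField ↥A) :=
  (exists_Lbar G hx hrx hsurj hdim hgen q).choose

/-- `Lbar q ∘ red = ρ ∘ Lfam N q` on the Gauss valuation ring -/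
theorem Lbar_red (q : SL(2, ℤ) ⧸ Gamma0 N) (x : ↥G.O) :
    ∃ hx' : Lfam N q (x : ↥(modularFunctionFieldBar N)) ∈ VA A,
      Lbar G hx hrx hsurj hdim hgen q (G.red x) = rhoV A ⟨_, hx'⟩ :=
  (exists_Lbar G hx hrx hsurj hdim hgen q).choose_spec.1 x

theorem Lbar_ratFunc (q : SL(2, ℤ) ⧸ Gamma0 N) (c : RatFunc (IsLocalRing.ResidueField ↥A)) :
    Lbar G hx hrx hsurj hdim hgen q (algebraMap _ _ c) = lamK N A c :=
  (exists_Lbar G hx hrx hsurj hdim hgen q).choose_spec.2 c

/-- constants go to constants -/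
theorem Lbar_algebraMap (q : SL(2, ℤ) ⧸ Gamma0 N) (c : IsLocalRing.ResidueField ↥A) :
    Lbar G hx hrx hsurj hdim hgen q (algebraMap (IsLocalRing.ResidueField ↥A)
      ↥(modularFunctionFieldFullC (IsLocalRing.ResidueField ↥A) N) c) = HahnSeries.C c := by
  rw [IsScalarTower.algebraMap_apply (IsLocalRing.ResidueField ↥A)
    (RatFunc (IsLocalRing.ResidueField ↥A))
    ↥(modularFunctionFieldFullC (IsLocalRing.ResidueField ↥A) N), Lbar_ratFunc,
    RatFunc.algebraMap_eq_C, lamK_C]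

/-- `j ↦ J(t^N)` -/
theorem Lbar_jk (q : SL(2, ℤ) ⧸ Gamma0 N) :
    Lbar G hx hrx hsurj hdim hgen q (jk (IsLocalRing.ResidueField ↥A) N) =
      qExpand (IsLocalRing.ResidueField ↥A) N (jqModC (IsLocalRing.ResidueField ↥A)) := by
  rw [← Fermat.Agent.S18.C.ModularInst.algebraMap_Fk_X, Lbar_ratFunc, lamK_X]

/-- **(V1)**: the values of the reduced family on the generators are the reductions of the values
of the cusp family -/
theorem Lbar_jdk (q : SL(2, ℤ) ⧸ Gamma0 N) (d : {d : ℕ // d ∣ N}) :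
    ∃ (wA : (↥A)ˣ) (e m : ℕ) (hm : m ≠ 0), ((wA : ↥A) : Kb) ^ (N ^ e) = 1 ∧
      Lfam N q (jdivF N d) = @qExpand ℂ _ m ⟨hm⟩
        (rescaleU (Units.map ((ι : Kb →+* ℂ).comp A.subtype).toMonoidHom wA) (jqModC ℂ)) ∧
      Lbar G hx hrx hsurj hdim hgen q (jdk (IsLocalRing.ResidueField ↥A) N d) =
        @qExpand (IsLocalRing.ResidueField ↥A) _ m ⟨hm⟩
          (rescaleU (Units.map (IsLocalRing.residue ↥A).toMonoidHom wA)
            (jqModC (IsLocalRing.ResidueField ↥A))) := by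
  obtain ⟨wA, e, m, hm, hw, hL⟩ := Lfam_jdivF N A q d
  refine ⟨wA, e, m, hm, hw, hL, ?_⟩
  obtain ⟨hmem, hred⟩ := hgen d
  obtain ⟨hx', hLb⟩ := Lbar_red G hx hrx hsurj hdim hgen q ⟨jdivF N d, hmem⟩
  rw [← hred, hLb]
  haveI : NeZero m := ⟨hm⟩
  have h1 : Lfam N q (jdivF N d) = incA A (qExpand ↥A m (rescaleU wA (jqModC ↥A))) := by
    rw [hL, incA, MonoInj.coeffMap_mono]
  have h2 : (⟨Lfam N q (jdivF N d), hx'⟩ : ↥(VA A)) =
      ⟨incA A (qExpand ↥A m (rescaleU wA (jqModC ↥A))), inc_mem _⟩ := Subtype.ext h1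
  rw [h2, fracRed_inc, rhoA, MonoInj.coeffMap_mono]

/-- **equivariance**: if `t ↦ ζ t` maps `Lfam N q` to `Lfam N q'`, then `t ↦ ζ̄ t` maps `Lbar q` to
`Lbar q'` -/
theorem Lbar_rescale (ζA : (↥A)ˣ) (q q' : SL(2, ℤ) ⧸ Gamma0 N)
    (h : Lfam N q' = (rescaleU (Units.map ((ι : Kb →+* ℂ).comp A.subtype).toMonoidHom ζA)).toRingHom.comp
      (Lfam N q)) :
    Lbar G hx hrx hsurj hdim hgen q' =
      (rescaleU (Units.map (IsLocalRing.residue ↥A).toMonoidHom ζA)).toRingHom.comp
        (Lbar G hx hrx hsurj hdim hgen q) := by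
  apply RingHom.ext
  intro y
  obtain ⟨x, rfl⟩ := hsurj y
  obtain ⟨h1, e1⟩ := Lbar_red G hx hrx hsurj hdim hgen q' x
  obtain ⟨h2, e2⟩ := Lbar_red G hx hrx hsurj hdim hgen q x
  rw [RingHom.comp_apply, e1, e2]
  have key := fracRed_map (inc := incA A) (ρ₀ := rhoA A) (incA_injective A)
    (rescaleU (Units.map (emb A).toMonoidHom ζA)).toRingHom (rescaleU ζA).toRingHom
    (rescaleU (Units.map (IsLocalRing.residue ↥A).toMonoidHom ζA)).toRingHom
    (fun a => (coeffMap_rescaleU (emb A) ζA a).symm)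
    (fun a => coeffMap_rescaleU (IsLocalRing.residue ↥A) ζA a) h2
  refine Eq.trans ?_ key
  congr 1
  apply Subtype.ext
  show Lfam N q' (x : ↥(modularFunctionFieldBar N)) = _
  rw [h]
  rfl

end Main

end Fermat.Agent.S37.Cusps.EmbeddingsK


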