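import Mathlib
import Fermat.Agent.S37.GenusAll
import Fermat.Agent.S37.Cusps.EmbeddingsK
import Fermat.Agent.S37.Cusps.CountK

/-!
# PROJECT I (S37), slice I-1b (cusps): THE CUSP COUNT, hypothesis-free

`A` a valuation ring of `ℚ̄` over a prime `ℓ ∤ N`, `k = κ(A)`.  The Gauss datum
`Gauss.Datum.gaussDatum N A` contains the generators `j(q^d)` (`d ∣ N`) of the function field of
`X₀(N)` over `ℚ̄` and reduces them to the generators `J(q^d)` of the function field over `k`
(`hgen`).  Hence the reduced cusp family of `EmbeddingsK` exists, and `CountK.cuspCount` gives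

* `cuspCount N A hA hℓN : GenusAll.CuspCount N A` : `j̄` has at most as many poles on `X₀(N)/k` as
  `j` has on `X₀(N)/ℚ̄`;
* `reductionInputsModL N A hA hℓN : ReductionInputsModL A N`, for EVERY prime `ℓ ∤ N`.
-/

set_option autoImplicit false
set_option synthInstance.maxHeartbeats 400000
set_option linter.unusedSectionVars false
set_option linter.style.haveILetI false

noncomputable section

namespace Fermat.Agent.S37.Cusps.CuspCountFinal

open AlgebraicCurve ModularCurve IntermediateField IsLocalRing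
open Fermat.Agent.S18.GaussFromH Fermat.Agent.S18.B.FkBasics
open Fermat.Agent.S37.Gauss
open Fermat.Agent.S24.DegreeAlg

local notation "Kb" => AlgebraicClosure ℚ

attribute [local instance 2000] Fermat.Agent.S18.C.KModelX0.algkFk

variable {ℓ : ℕ} [Fact ℓ.Prime] (N : ℕ) [NeZero N] (A : ValuationSubring Kb)
variable (hA : A.LiesOverPrime ℓ) (hℓN : ¬ ℓ ∣ N)

/-- the integral lift of the generator `j(q^d)` -/
def jdI (d : {d : ℕ // d ∣ N}) : ↥(intRing A (residue ↥A) N) :=
  haveI : NeZero d.1 := neZero_of_dvd d.2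
  ⟨qExpand ↥A d.1 (jqModC ↥A), jd_mem_intRing d.2⟩

theorem toFL_jdI (d : {d : ℕ // d ∣ N}) : toFL A (residue ↥A) N (jdI N A d) = jdivF N d := by
  haveI : NeZero d.1 := neZero_of_dvd d.2
  apply Subtype.ext
  rw [coe_toFL]
  show coeffMap A.subtype (qExpand ↥A d.1 (jqModC ↥A)) = jdiv Kb N d
  obtain ⟨d, hd⟩ := d
  rw [jdiv_eq_qExpand, EmbeddingsK.coeffMap_qExpand_aux, coeffMap_jqModC, coeffEmb,
    ← jqModC_rat, coeffMap_jqModC]

theorem red_jdI (d : {d : ℕ // d ∣ N}) :
    Fermat.Agent.S18.GaussFromH.red A (residue ↥A) N (jdI N A d) = jdk (ResidueField ↥A) N d := by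
  haveI : NeZero d.1 := neZero_of_dvd d.2
  apply Subtype.ext
  rw [coe_red]
  show coeffMap (residue ↥A) (qExpand ↥A d.1 (jqModC ↥A)) = qExpand (ResidueField ↥A) d.1 _
  rw [EmbeddingsK.coeffMap_qExpand_aux, coeffMap_jqModC]

include hA hℓN in
/-- the generators are Gauss-integral and reduce to the generators -/
theorem hgen (d : {d : ℕ // d ∣ N}) :
    ∃ h : jdivF N d ∈ (Datum.gaussDatum N A hA hℓN).O,
      (Datum.gaussDatum N A hA hℓN).red ⟨_, h⟩ = jdk (ResidueField ↥A) N d := by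
  have hmem : jdivF N d ∈ (Datum.gaussDatum N A hA hℓN).O := by
    rw [← toFL_jdI N A d]
    exact Datum.toFL_mem_O hA hℓN _
  refine ⟨hmem, ?_⟩
  have h1 : (⟨jdivF N d, hmem⟩ : ↥(Datum.gaussDatum N A hA hℓN).O) =
      ⟨toFL A (residue ↥A) N (jdI N A d), Datum.toFL_mem_O hA hℓN _⟩ :=
    Subtype.ext (toFL_jdI N A d).symm
  rw [h1, Datum.red_toFL, red_jdI]

include hA hℓN in
/-- **THE CUSP COUNT**: `j̄` has at most as many poles on `X₀(N)/k` as `j` has on `X₀(N)/ℚ̄`. -/
theorem cuspCount : Fermat.Agent.S37.GenusAll.CuspCount N A := by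
  intro _ hsep
  have hJ := Fermat.Agent.S37.GenusAll.jIn N A hA hℓN
  exact CountK.cuspCount (N := N) (A := A)
    (Fermat.Agent.S18.ResidueBasics.natCast_ne_zero_of_not_dvd A hA hℓN)
    (Fermat.Agent.S37.Wild.GenusLe.finrank_eq N A hℓN hA)
    (EmbeddingsK.Lbar (Datum.gaussDatum N A hA hℓN) hJ.mem hJ.red_eq
      (Datum.red_surjective hA hℓN) (Fermat.Agent.S18.C.KModelX0.finrank_le hA hℓN)
      (hgen N A hA hℓN))
    (EmbeddingsK.Lbar_algebraMap _ _ _ _ _ _)
    (EmbeddingsK.Lbar_jk _ _ _ _ _ _)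
    (fun q => EmbeddingsK.Lbar_jdk _ _ _ _ _ _ q ⟨N, dvd_rfl⟩) hsep

include hA hℓN in
/-- **`ReductionInputsModL A N` for every valuation ring `A` of `ℚ̄` over a prime `ℓ ∤ N`.** -/
theorem reductionInputsModL : ReductionInputsModL A N :=
  Fermat.Agent.S37.GenusAll.reductionInputsModL N A hA hℓN (fun _ => cuspCount N A hA hℓN)

end Fermat.Agent.S37.Cusps.CuspCountFinal
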