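import Mathlib
import Fermat.Agent.S18.C.ModularInst
import Fermat.Agent.S18.C.BaseChangeR
import Fermat.Agent.S18.B.FkBasics

/-!
# PROJECT I (S37), slice I-1b-cusps: the `J(q^d)`, `d ∣ N`, generate `F_k` as a `k(J)`-ALGEBRA

`F_k = modularFunctionFieldFullC k N` is generated by the `J(q^d)` as a field over `k`
(`FkBasics.adjoin_range_jdk_eq_top`); since it is finite over `k(J) = RatFunc k`
(`C/ModularInst.algFk`), the `RatFunc k`-subalgebra generated by the `J(q^d)` is already a field,
hence everything.  This is the hypothesis `hS` of `Cusps/RedEmb.exists_redEmb` for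
`S = {J(q^d)}`.
-/

set_option autoImplicit false

namespace Fermat.Agent.S37.Cusps.AdjoinJdk

open ModularCurve
open Fermat.Agent.S18.B.FkBasics (jdk)
open Fermat.Agent.S18.C

/-- **The `J(q^d)`, `d ∣ N`, generate `F_k` as an algebra over `k(J)`.** -/
theorem adjoin_range_jdk_eq_top (k : Type*) [Field k] (N : ℕ) [NeZero N] :
    Algebra.adjoin (RatFunc k) (Set.range (jdk k N)) =
      (⊤ : Subalgebra (RatFunc k) ↥(modularFunctionFieldFullC k N)) := by
  have hfd : FiniteDimensional (RatFunc k) ↥(modularFunctionFieldFullC k N) :=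
    (BaseChangeR.finrank_ratFunc_fullC k N).1
  have key : ∀ x ∈ IntermediateField.adjoin k (Set.range (jdk k N)),
      x ∈ Algebra.adjoin (RatFunc k) (Set.range (jdk k N)) := by
    intro x hx
    induction hx using IntermediateField.adjoin_induction with
    | mem x hx => exact Algebra.subset_adjoin hx
    | algebraMap c =>
      rw [IsScalarTower.algebraMap_apply k (RatFunc k) ↥(modularFunctionFieldFullC k N)]
      exact Subalgebra.algebraMap_mem _ _
    | add x y _ _ hx hy => exact add_mem hx hy
    | inv x _ hx =>
      exact Subalgebra.inv_mem_of_algebraic _ (x := ⟨x, hx⟩)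
        (Algebra.IsAlgebraic.isAlgebraic (R := RatFunc k) x)
    | mul x y _ _ hx hy => exact mul_mem hx hy
  rw [eq_top_iff]
  intro x _
  apply key
  rw [Fermat.Agent.S18.B.FkBasics.adjoin_range_jdk_eq_top]
  trivial

/-- the same for the image in `k((q))`-free form: every element of `F_k` is a polynomial in the
`J(q^d)` with coefficients in `k(J)` -/
theorem mem_adjoin_range_jdk (k : Type*) [Field k] (N : ℕ) [NeZero N]
    (x : ↥(modularFunctionFieldFullC k N)) :
    x ∈ Algebra.adjoin (RatFunc k) (Set.range (jdk k N)) := by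
  rw [adjoin_range_jdk_eq_top]
  trivial

end Fermat.Agent.S37.Cusps.AdjoinJdk
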