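import Mathlib
import Fermat.Agent.S37.Cusps.CuspFamily
import Fermat.Agent.S37.Cusps.RedEmb
import Fermat.Agent.S37.Cusps.FracLocal
import Fermat.Agent.S37.Cusps.MonoInj
import Fermat.Agent.S37.Cusps.CountK
import Fermat.Agent.S37.Wild.GaussA
import Fermat.Agent.S37.Gauss.Datum
import Fermat.Agent.S18.C.KModelX0
import Fermat.Agent.S18.C.FormsZMod
import Fermat.Agent.S37.Cusps.AdjoinJdk

/-!
# PROJECT I (S37), slice I-1b (cusps), (E2)+(E3) (helper6): the reduced cusp family

`A` a valuation ring of `ℚ̄` over a prime `ℓ ∤ N`, `k = κ(A)`, `G = Gauss.Datum.gaussDatum N A`.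
For every `q ∈ SL₂(ℤ) ⧸ Γ₀(N)` the characteristic zero cusp embedding
`Lfam N q : F_L →+* ℂ((t))` maps the Gauss valuation ring `G.O` into the local ring
`V = {inc a / inc s : a, s ∈ A((t)), s̄ ≠ 0}` and induces (`RedEmb.exists_redEmb`) an embedding
`Lbar q : F_k →+* k((t))` with

* (K1) `Lbar q c = c` on constants, (K2) `Lbar q j̄ = J(t^N)`,
* (V1) `Lbar q (J(q^N)) = J(w̄ t^m)` when `Lfam N q (j(q^N)) = J(w t^m)`.

With `CountK.cuspCount` this gives `GenusAll.CuspCount N A`.
-/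

set_option autoImplicit false
set_option linter.unusedSectionVars false
set_option linter.style.haveILetI false
set_option synthInstance.maxHeartbeats 400000

noncomputable section

open UpperHalfPlane hiding I
open ModularForm CongruenceSubgroup ModularCurve AlgebraicCurve WithZero
open scoped MatrixGroups ModularForm Manifold

namespace Fermat.Agent.S37.Cusps.EmbK

open Polynomial
open Fermat.Agent.S24.OrbitDefs Fermat.Agent.S24.DegreeAlg
open Fermat.Agent.S24.OrbitsCuspAlt Fermat.Agent.S24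
open Fermat.Agent.S28.LaurentRescale Fermat.Agent.S18.B Fermat.Agent.S18.A Fermat.Agent.S18.C
open Fermat.Agent.S37.Gauss Fermat.Agent.S37.Deuring.Core
open IsLocalRing IntermediateField

local notation "Kb" => AlgebraicClosure ℚ

attribute [local instance 2000] Fermat.Agent.S18.C.KModelX0.algkFk

/-! ### the two coefficient maps on `A((t))` -/

section Coeff

variable (A : ValuationSubring Kb)

/-- `A((t)) → ℂ((t))` -/
def inc : LaurentSeries ↥A →+* LaurentSeries ℂ := coeffMap (ι.comp A.subtype)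

/-- `A((t)) → k((t))`, the coefficientwise reduction -/
def rho0 : LaurentSeries ↥A →+* LaurentSeries (ResidueField ↥A) := coeffMap (residue ↥A)

theorem inc_injective : Function.Injective (inc A) := by
  intro x y h
  ext n
  have := congrArg (fun z => z.coeff n) h
  simp only [inc, coeffMap_coeff, RingHom.comp_apply] at this
  exact ι_injective this

/-- the local ring `V ⊆ ℂ((t))` -/
abbrev V : Subring (LaurentSeries ℂ) := FracLocal.fracSubring (inc A) (rho0 A)

/-- the reduction `V → k((t))` -/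
abbrev rho : ↥(V A) →+* LaurentSeries (ResidueField ↥A) :=
  FracLocal.fracRed (inc A) (rho0 A) (inc_injective A)

variable (N : ℕ) [NeZero N]

/-- `J(t^N)` with coefficients in `A` -/
def JA : LaurentSeries ↥A := qExpand ↥A N (jqModC ↥A)

theorem inc_JA : inc A (JA A N) = qExpand ℂ N (jqModC ℂ) := by
  rw [inc, JA, coeffMap_qExpand, coeffMap_jqModC]

theorem rho0_JA : rho0 A (JA A N) = qExpand (ResidueField ↥A) N (jqModC (ResidueField ↥A)) := by
  rw [rho0, JA, coeffMap_qExpand, coeffMap_jqModC]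

/-- integral polynomials evaluated at `J(t^N)` -/
def evA : (↥A)[X] →+* LaurentSeries ↥A :=
  Polynomial.eval₂RingHom (HahnSeries.C : ↥A →+* LaurentSeries ↥A) (JA A N)

theorem inc_C (a : ↥A) : inc A (HahnSeries.C a) = HahnSeries.C (ι (a : Kb)) := by
  rw [inc]
  show coeffMap _ (HahnSeries.single 0 a) = HahnSeries.single 0 _
  rw [coeffMap_single]
  rfl

theorem rho0_C (a : ↥A) : rho0 A (HahnSeries.C a) = HahnSeries.C (residue ↥A a) := by
  rw [rho0]
  show coeffMap _ (HahnSeries.single 0 a) = HahnSeries.single 0 _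
  rw [coeffMap_single]

end Coeff

/-! ### the Gauss datum of `X₀(N)` and the `j`-line -/

section Main

variable {ℓ : ℕ} [Fact ℓ.Prime] (N : ℕ) [NeZero N] (A : ValuationSubring Kb)
variable (hA : A.LiesOverPrime ℓ) (hℓN : ¬ ℓ ∣ N)

include hA hℓN in
theorem hx : algebraMap (RatFunc Kb) ↥(modularFunctionFieldBar N) RatFunc.X ∈
    (Datum.gaussDatum N A hA hℓN).O := by
  rw [ModularInst.algebraMap_FL_X]
  exact Datum.jgen_mem_O hA hℓN

theorem hrx : (Datum.gaussDatum N A hA hℓN).red ⟨_, hx N A hA hℓN⟩ =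
    algebraMap (RatFunc (ResidueField ↥A))
      ↥(modularFunctionFieldFullC (ResidueField ↥A) N) RatFunc.X := by
  rw [ModularInst.algebraMap_Fk_X]
  refine Eq.trans ?_ (Datum.red_jgen hA hℓN)
  congr 1
  exact Subtype.ext (ModularInst.algebraMap_FL_X N)

/-- the characteristic zero cusp embedding on integral polynomials in `j` -/
theorem Lfam_polyL (q : SL(2, ℤ) ⧸ Gamma0 N) (p : (↥A)[X]) :
    Lfam N q (algebraMap (RatFunc Kb) ↥(modularFunctionFieldBar N)
      (Fermat.Agent.S37.Wild.GaussA.polyL p)) = inc A (evA A N p) := by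
  have h : ((Lfam N q).comp ((algebraMap (RatFunc Kb) ↥(modularFunctionFieldBar N)).comp
      (Fermat.Agent.S37.Wild.GaussA.polyL (A := A)))) = (inc A).comp (evA A N) := by
    refine Polynomial.ringHom_ext (fun a => ?_) ?_
    · simp only [RingHom.comp_apply, Fermat.Agent.S37.Wild.GaussA.polyL_apply, Polynomial.map_C,
        evA, Polynomial.coe_eval₂RingHom, Polynomial.eval₂_C]
      rw [inc_C]
      have h1 : algebraMap Kb[X] (RatFunc Kb) (Polynomial.C (A.subtype a)) =
          algebraMap Kb (RatFunc Kb) (a : Kb) := by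
        rw [RatFunc.algebraMap_C]
        rfl
      rw [h1, ← IsScalarTower.algebraMap_apply Kb (RatFunc Kb) ↥(modularFunctionFieldBar N)]
      exact Fermat.Agent.S37.Cusps.CuspFamily.Lfam_algebraMap N q _
    · simp only [RingHom.comp_apply, Fermat.Agent.S37.Wild.GaussA.polyL_apply, Polynomial.map_X,
        evA, Polynomial.coe_eval₂RingHom, Polynomial.eval₂_X]
      rw [inc_JA, RatFunc.algebraMap_X, ModularInst.algebraMap_FL_X]
      exact Fermat.Agent.S37.Cusps.CuspFamily.Lfam_jgen N q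
  exact RingHom.congr_fun h p

/-- the embedding of the `j̄`-line into `k((t))`: `X ↦ J(t^N)` -/
def lam : RatFunc (ResidueField ↥A) →+* LaurentSeries (ResidueField ↥A) :=
  (qExpand (ResidueField ↥A) N).comp
    ((modularFunctionFieldFullC (ResidueField ↥A) N).val.toRingHom.comp
      (algebraMap (RatFunc (ResidueField ↥A)) ↥(modularFunctionFieldFullC (ResidueField ↥A) N)))

theorem lam_apply (f : RatFunc (ResidueField ↥A)) :
    lam N A f = qExpand (ResidueField ↥A) N
      ((algebraMap (RatFunc (ResidueField ↥A))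
        ↥(modularFunctionFieldFullC (ResidueField ↥A) N) f :
          ↥(modularFunctionFieldFullC (ResidueField ↥A) N)) : LaurentSeries (ResidueField ↥A)) :=
  rfl

theorem lam_C (c : ResidueField ↥A) :
    lam N A (algebraMap (ResidueField ↥A) (RatFunc (ResidueField ↥A)) c) = HahnSeries.C c := by
  rw [lam_apply, ← IsScalarTower.algebraMap_apply (ResidueField ↥A) (RatFunc (ResidueField ↥A))
    ↥(modularFunctionFieldFullC (ResidueField ↥A) N)]
  have h1 : ((algebraMap (ResidueField ↥A) ↥(modularFunctionFieldFullC (ResidueField ↥A) N) c :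
      ↥(modularFunctionFieldFullC (ResidueField ↥A) N)) : LaurentSeries (ResidueField ↥A)) =
      HahnSeries.C c := by
    show algebraMap (ResidueField ↥A) (LaurentSeries (ResidueField ↥A)) c = _
    rw [algebraMap_laurentSeries_eq_single]
    rfl
  rw [h1, qExpand_C]

theorem lam_X : lam N A RatFunc.X =
    qExpand (ResidueField ↥A) N (jqModC (ResidueField ↥A)) := by
  rw [lam_apply, ModularInst.algebraMap_Fk_X]
  rfl

/-- the reduction of integral polynomials in `J(t^N)` -/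
theorem lam_polyK (p : (↥A)[X]) :
    lam N A (Fermat.Agent.S37.Wild.GaussA.polyK (residue ↥A) p) = rho0 A (evA A N p) := by
  have h : ((lam N A).comp (Fermat.Agent.S37.Wild.GaussA.polyK (residue ↥A))) =
      (rho0 A).comp (evA A N) := by
    refine Polynomial.ringHom_ext (fun a => ?_) ?_
    · simp only [RingHom.comp_apply, Fermat.Agent.S37.Wild.GaussA.polyK_apply, Polynomial.map_C,
        evA, Polynomial.coe_eval₂RingHom, Polynomial.eval₂_C]
      rw [rho0_C]
      have h1 : algebraMap (ResidueField ↥A)[X] (RatFunc (ResidueField ↥A))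
          (Polynomial.C (residue ↥A a)) =
          algebraMap (ResidueField ↥A) (RatFunc (ResidueField ↥A)) (residue ↥A a) := by
        rw [RatFunc.algebraMap_C]
        rfl
      rw [h1, lam_C]
    · simp only [RingHom.comp_apply, Fermat.Agent.S37.Wild.GaussA.polyK_apply, Polynomial.map_X,
        evA, Polynomial.coe_eval₂RingHom, Polynomial.eval₂_X]
      rw [rho0_JA, RatFunc.algebraMap_X, lam_X]
  exact RingHom.congr_fun h p

/-! ### `ha`: the Gauss valuation ring of the `j`-line goes to `V` -/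

open Fermat.Agent.S37.Wild.GaussA in
/-- **`ha`**: `Lfam N q` maps the Gauss valuation ring of the `j`-line into `V`, compatibly with
the reductions. -/
theorem ha (q : SL(2, ℤ) ⧸ Gamma0 N)
    (x : ↥(Vj (Datum.gaussDatum N A hA hℓN))) :
    ∃ hxV : Lfam N q (algebraMap (RatFunc Kb) ↥(modularFunctionFieldBar N) (x : RatFunc Kb)) ∈ V A,
      rho A ⟨_, hxV⟩ =
        lam N A (redVj (Datum.gaussDatum N A hA hℓN) (hx N A hA hℓN) (hrx N A hA hℓN) x) := by
  obtain ⟨a, s, hs, hrel⟩ := (mem_Vj_iff (Datum.gaussDatum N A hA hℓN) (hx N A hA hℓN)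
    (hrx N A hA hℓN) (x : RatFunc Kb)).mp x.2
  have h1 : Lfam N q (algebraMap (RatFunc Kb) ↥(modularFunctionFieldBar N) (x : RatFunc Kb)) *
      inc A (evA A N s) = inc A (evA A N a) := by
    rw [← Lfam_polyL, ← Lfam_polyL, ← map_mul, ← map_mul, hrel]
  have hK : lam N A (polyK (residue ↥A) s) ≠ 0 := (map_ne_zero (lam N A)).mpr (polyK_ne_zero hs)
  have hs' : rho0 A (evA A N s) ≠ 0 := by
    rw [← lam_polyK]
    exact hK
  refine ⟨⟨evA A N a, evA A N s, hs', h1⟩, ?_⟩
  have h2 := redVj_mul_polyK (Datum.gaussDatum N A hA hℓN) (hx N A hA hℓN) (hrx N A hA hℓN) x hrel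
  have h3 : rho A ⟨Lfam N q (algebraMap (RatFunc Kb) ↥(modularFunctionFieldBar N)
      (x : RatFunc Kb)), ⟨evA A N a, evA A N s, hs', h1⟩⟩ =
      rho0 A (evA A N a) / rho0 A (evA A N s) :=
    FracLocal.fracRed_eq (inc_injective A) _ hs' h1
  rw [h3, ← lam_polyK, ← lam_polyK, div_eq_iff hK, ← map_mul, h2]

/-! ### `hb`: the generators `j(q^d)` -/

/-- `j(q^d)` as an integral element -/
def jdI (d : {d : ℕ // d ∣ N}) :
    ↥(Fermat.Agent.S18.GaussFromH.intRing A (residue ↥A) N) :=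
  haveI : NeZero d.1 := Fermat.Agent.S24.DegreeAlg.neZero_of_dvd d.2
  ⟨qExpand ↥A d.1 (jqModC ↥A), Fermat.Agent.S18.GaussFromH.jd_mem_intRing d.2⟩

theorem toFL_jdI (d : {d : ℕ // d ∣ N}) :
    Fermat.Agent.S18.GaussFromH.toFL A (residue ↥A) N (jdI N A d) = jdivF N d := by
  haveI : NeZero d.1 := Fermat.Agent.S24.DegreeAlg.neZero_of_dvd d.2
  apply Subtype.ext
  rw [Fermat.Agent.S18.GaussFromH.coe_toFL]
  show coeffMap A.subtype (qExpand ↥A d.1 (jqModC ↥A)) = jdiv Kb N d
  rw [coeffMap_qExpand, coeffMap_jqModC, jdiv_eq_qExpand,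
    Fermat.Agent.S37.Cusps.CuspFamily.coeffEmb_jq]

theorem red_jdI (d : {d : ℕ // d ∣ N}) :
    Fermat.Agent.S18.GaussFromH.red A (residue ↥A) N (jdI N A d) =
      FkBasics.jdk (ResidueField ↥A) N d := by
  haveI : NeZero d.1 := Fermat.Agent.S24.DegreeAlg.neZero_of_dvd d.2
  apply Subtype.ext
  rw [Fermat.Agent.S18.GaussFromH.coe_red]
  show coeffMap (residue ↥A) (qExpand ↥A d.1 (jqModC ↥A)) = qExpand _ d.1 (jqModC _)
  rw [coeffMap_qExpand, coeffMap_jqModC]

include hA hℓN in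
theorem jdivF_mem_O (d : {d : ℕ // d ∣ N}) : jdivF N d ∈ (Datum.gaussDatum N A hA hℓN).O := by
  rw [← toFL_jdI N A d]
  exact Datum.toFL_mem_O hA hℓN _

/-- `j(q^d)` as an element of the Gauss valuation ring -/
def jdO (d : {d : ℕ // d ∣ N}) : ↥(Datum.gaussDatum N A hA hℓN).O :=
  ⟨jdivF N d, jdivF_mem_O N A hA hℓN d⟩

theorem red_jdO (d : {d : ℕ // d ∣ N}) :
    (Datum.gaussDatum N A hA hℓN).red (jdO N A hA hℓN d) = FkBasics.jdk (ResidueField ↥A) N d := by
  have h1 : jdO N A hA hℓN d =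
      ⟨Fermat.Agent.S18.GaussFromH.toFL A (residue ↥A) N (jdI N A d),
        Datum.toFL_mem_O hA hℓN _⟩ := Subtype.ext (toFL_jdI N A d).symm
  rw [h1, Datum.red_toFL, red_jdI]

/-- a root of unity of `ℚ̄` is a unit of `A` -/
theorem exists_unit_of_pow_eq_one (w : Kbˣ) {n : ℕ} (hn : n ≠ 0) (hw : w ^ n = 1) :
    ∃ wA : (↥A)ˣ, ((wA : ↥A) : Kb) = (w : Kb) := by
  have h1 : ((w : Kbˣ) : Kb) ^ n = 1 := by
    rw [← Units.val_pow_eq_pow_val, hw, Units.val_one]
  have h2 : ((w⁻¹ : Kbˣ) : Kb) ^ n = 1 := by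
    rw [← Units.val_pow_eq_pow_val, inv_pow, hw, inv_one, Units.val_one]
  refine ⟨⟨⟨(w : Kb), MonoInj.mem_valuationSubring_of_pow_eq_one A hn h1⟩,
    ⟨((w⁻¹ : Kbˣ) : Kb), MonoInj.mem_valuationSubring_of_pow_eq_one A hn h2⟩, ?_, ?_⟩, rfl⟩
  · apply Subtype.ext
    show (w : Kb) * ((w⁻¹ : Kbˣ) : Kb) = 1
    rw [← Units.val_mul, mul_inv_cancel, Units.val_one]
  · apply Subtype.ext
    show ((w⁻¹ : Kbˣ) : Kb) * (w : Kb) = 1
    rw [← Units.val_mul, inv_mul_cancel, Units.val_one]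

/-- **`hb`**: the value of the cusp embedding at `j(q^d)` is the image of a monomial substitution
with coefficients in `A`. -/
theorem Lfam_jdivF (q : SL(2, ℤ) ⧸ Gamma0 N) (d : {d : ℕ // d ∣ N}) :
    ∃ (wA : (↥A)ˣ) (e m : ℕ) (hm : m ≠ 0), ((wA : ↥A) : Kb) ^ (N ^ e) = 1 ∧
      Lfam N q (jdivF N d) = inc A (@qExpand ↥A _ m ⟨hm⟩ (rescaleU wA (jqModC ↥A))) ∧
      Lfam N q (jdivF N d) = @qExpand ℂ _ m ⟨hm⟩
        (rescaleU (Units.map (ι.comp A.subtype).toMonoidHom wA) (jqModC ℂ)) := by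
  have hd0 : d.1 ≠ 0 := fun h0 => NeZero.ne N (Nat.eq_zero_of_zero_dvd (h0 ▸ d.2))
  obtain ⟨w, e, m, hm, hw, hval⟩ :=
    Fermat.Agent.S37.Cusps.CuspFamily.isMono_Lfam N q d.1 hd0 d.2
  have hNe : N ^ e ≠ 0 := pow_ne_zero _ (NeZero.ne N)
  obtain ⟨wA, hwA⟩ := exists_unit_of_pow_eq_one A w hNe hw
  have hu : Units.map (ι.comp A.subtype).toMonoidHom wA = Units.map (ι : Kb →+* ℂ).toMonoidHom w := by
    apply Units.ext
    show ι ((wA : ↥A) : Kb) = ι (w : Kb)
    rw [hwA]
  have hval' : Lfam N q (jdivF N d) = @qExpand ℂ _ m ⟨hm⟩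
      (rescaleU (Units.map (ι.comp A.subtype).toMonoidHom wA) (jqModC ℂ)) := by
    rw [hu]
    exact hval
  refine ⟨wA, e, m, hm, ?_, ?_, hval'⟩
  · rw [hwA, ← Units.val_pow_eq_pow_val, hw, Units.val_one]
  · rw [hval', inc]
    haveI : NeZero m := ⟨hm⟩
    exact (MonoInj.coeffMap_mono (ι.comp A.subtype) wA m).symm

/-! ### the reduced cusp family -/

attribute [local instance] Fermat.Agent.S18.C.UnramVal.algBelow

set_option maxHeartbeats 1600000 in
open Fermat.Agent.S37.Wild.GaussA in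
include hA hℓN in
/-- **The reduced cusp embedding** at `q`, with (K1), (K2) and (V1) at `d = N`. -/
theorem exists_Lbar
    (hS : Algebra.adjoin (RatFunc (ResidueField ↥A))
      (Set.range (FkBasics.jdk (ResidueField ↥A) N)) = ⊤)
    (q : SL(2, ℤ) ⧸ Gamma0 N) :
    ∃ Lbar : ↥(modularFunctionFieldFullC (ResidueField ↥A) N) →+*
        LaurentSeries (ResidueField ↥A),
      (∀ c : ResidueField ↥A,
        Lbar (algebraMap (ResidueField ↥A)
          ↥(modularFunctionFieldFullC (ResidueField ↥A) N) c) = HahnSeries.C c) ∧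
      Lbar (FkBasics.jk (ResidueField ↥A) N) =
        qExpand (ResidueField ↥A) N (jqModC (ResidueField ↥A)) ∧
      ∃ (wA : (↥A)ˣ) (e m : ℕ) (hm : m ≠ 0), ((wA : ↥A) : Kb) ^ (N ^ e) = 1 ∧
        Lfam N q (jdivF N ⟨N, dvd_rfl⟩) = @qExpand ℂ _ m ⟨hm⟩
          (rescaleU (Units.map (ι.comp A.subtype).toMonoidHom wA) (jqModC ℂ)) ∧
        Lbar (FkBasics.jdk (ResidueField ↥A) N ⟨N, dvd_rfl⟩) =
          @qExpand (ResidueField ↥A) _ m ⟨hm⟩
            (rescaleU (Units.map (residue ↥A).toMonoidHom wA) (jqModC (ResidueField ↥A))) := by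
  haveI := KModelX0.finiteDimensional_FL N
  obtain ⟨t, hh⟩ := exists_hyp (Datum.gaussDatum N A hA hℓN) (hx N A hA hℓN) (hrx N A hA hℓN)
    (Datum.red_surjective hA hℓN) (KModelX0.finrank_le hA hℓN)
  have hredV := redVj_surjective (Datum.gaussDatum N A hA hℓN) (hx N A hA hℓN)
    (hrx N A hA hℓN) residue_surjective
  have hS' : Algebra.adjoin (RatFunc (ResidueField ↥A))
      ((Datum.gaussDatum N A hA hℓN).red '' Set.range (jdO N A hA hℓN)) = ⊤ := by
    rw [← Set.range_comp]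
    have hfun : ((Datum.gaussDatum N A hA hℓN).red ∘ jdO N A hA hℓN) =
        FkBasics.jdk (ResidueField ↥A) N := funext (red_jdO N A hA hℓN)
    rw [hfun]
    exact hS
  obtain ⟨Lbar, h1, h2⟩ := RedEmb.exists_redEmb hh hredV (Set.range (jdO N A hA hℓN)) hS'
    (V A) (rho A) (Lfam N q) (lam N A) (ha N A hA hℓN q)
    (by
      rintro g ⟨d, rfl⟩
      obtain ⟨wA, e, m, hm, -, hinc, -⟩ := Lfam_jdivF N A q d
      show Lfam N q (jdivF N d) ∈ V A
      rw [hinc]
      exact FracLocal.inc_mem _)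
  refine ⟨Lbar, fun c => ?_, ?_, ?_⟩
  · rw [IsScalarTower.algebraMap_apply (ResidueField ↥A) (RatFunc (ResidueField ↥A))
      ↥(modularFunctionFieldFullC (ResidueField ↥A) N), h2, lam_C]
  · rw [← ModularInst.algebraMap_Fk_X, h2, lam_X]
  · obtain ⟨wA, e, m, hm, hw, hinc, hval⟩ := Lfam_jdivF N A q ⟨N, dvd_rfl⟩
    refine ⟨wA, e, m, hm, hw, hval, ?_⟩
    obtain ⟨hxV, hL⟩ := h1 (jdO N A hA hℓN ⟨N, dvd_rfl⟩)
    rw [red_jdO] at hL
    rw [hL]
    have hsub : (⟨Lfam N q ((jdO N A hA hℓN ⟨N, dvd_rfl⟩ : ↥(Datum.gaussDatum N A hA hℓN).O) :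
          ↥(modularFunctionFieldBar N)), hxV⟩ : ↥(V A)) =
        ⟨inc A (@qExpand ↥A _ m ⟨hm⟩ (rescaleU wA (jqModC ↥A))), FracLocal.inc_mem _⟩ :=
      Subtype.ext hinc
    rw [hsub, FracLocal.fracRed_inc, rho0]
    haveI : NeZero m := ⟨hm⟩
    exact MonoInj.coeffMap_mono (residue ↥A) wA m

/-! ### the cusp count -/

include hA hℓN in
/-- **The cusp count** `GenusAll.CuspCount N A` (stated verbatim): `j̄` has at most (in fact
exactly) as many poles on `X₀(N)/k` as `j` has on `X₀(N)/ℚ̄`, for every valuation ring `A` of `ℚ̄`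
over a prime `ℓ ∤ N`. -/
theorem cuspCount :
    ∀ [IsAlgClosed (ResidueField ↥A)]
      (hsep : Algebra.IsSeparable
        (ResidueField ↥A)⟮FkBasics.jk (ResidueField ↥A) N⟯
        ↥(modularFunctionFieldFullC (ResidueField ↥A) N)),
      (FibreSep.poles (FkBasics.isFF (ResidueField ↥A) N) hsep).card
        ≤ (FibreSep.poles (Instances.isFF_jgen N) (Instances.isSeparable_jgen N)).card := by
  intro _ hsep
  have hS := Fermat.Agent.S37.Cusps.AdjoinJdk.adjoin_range_jdk_eq_top (ResidueField ↥A) N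
  choose Lbar hK1 hK2 hV using exists_Lbar N A hA hℓN hS
  have hl : ((N : ℕ) : ResidueField ↥A) ≠ 0 :=
    Fermat.Agent.S18.ResidueBasics.natCast_ne_zero_of_not_dvd A hA hℓN
  have hn : Module.finrank Kb⟮jgen N⟯ ↥(modularFunctionFieldBar N)
      = Module.finrank (ResidueField ↥A)⟮FkBasics.jk (ResidueField ↥A) N⟯
          ↥(modularFunctionFieldFullC (ResidueField ↥A) N) := by
    haveI := Fermat.Agent.S18.ResidueBasics.charP_residueField A hA
    letI : Algebra (ZMod ℓ) (ResidueField ↥A) := ZMod.algebra _ ℓ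
    rw [Fermat.Agent.S18.C.Forms.finrank_bar_eq_dedekindPsi N,
      Fermat.Agent.S18.C.FormsZMod.finrank_fullC_eq ℓ N (ResidueField ↥A) hℓN]
  exact CountK.cuspCount N A hl hn Lbar (fun q c => hK1 q c) hK2 hV hsep

end Main

end Fermat.Agent.S37.Cusps.EmbK
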