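import Mathlib
import Fermat.Agent.S37.Cusps.CuspFamily
import Fermat.Agent.S37.Cusps.InjK

/-!
# PROJECT I (S37), slice I-1b (cusps): the count of the cusps in characteristic `ℓ`, assembled

`k` the residue field of a valuation subring `A` of `ℚ̄`, `N` invertible in `k`, `k` algebraically
closed.  Given the reduced cusp family `Lbar : Q → (F_k →+* k((t)))` (`Q = SL₂(ℤ) ⧸ Γ₀(N)`) with

* `hV` : the explicit monomial values `(V1)` (shape of `InjK.injective_of_mono_N`),
* `hconst`, `hLx` : constants go to constants and `J ↦ J(t^N)`,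
* `hequiv` : whenever `s` intertwines the characteristic zero family `Lfam N` with the substitution
  `t ↦ ζ₀ t`, it intertwines `Lbar` with `t ↦ ζ̄₀ t`,
* `hn` : `[F_L : ℚ̄(j)] = [F_k : k(J)]`,

the poles of `J` on `X₀(N)` over `k` are as many as the poles of `j` on `X₀(N)` over `ℚ̄`
(`card_poles_eq`, `card_poles_le` = the hypothesis `hcp` of `S18.B.GenusLe.genus_le_X0`).

* `isPrimitiveRoot_residue` : reduction preserves primitive `N`-th roots of unity;
* `equivariant_of_red` : `hequiv` from "`Lbar q ∘ red = ρ ∘ Lfam N q` on `O`" (the conclusion of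
  `RedEmb.exists_redEmb`) and "`ρ` commutes with the substitutions" (`FracLocal.fracRed_map`).
-/

set_option autoImplicit false

noncomputable section

open UpperHalfPlane hiding I
open ModularForm CongruenceSubgroup ModularCurve AlgebraicCurve WithZero
open scoped MatrixGroups ModularForm Manifold

namespace Fermat.Agent.S37.Cusps.CountAssembly

open Fermat.Agent.S20 Fermat.Agent.S24.RepHom Fermat.Agent.S24.LaurentCusp
open Fermat.Agent.S24.OrbitDefs Fermat.Agent.S24.RepAll Fermat.Agent.S24.DegreeAlg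
open Fermat.Agent.S24.OrbitsCuspAlt Fermat.Agent.S24
open Fermat.Agent.S28.LaurentRescale Fermat.Agent.S18.B Fermat.Agent.S18.A
open IsLocalRing IntermediateField

local notation "Kb" => AlgebraicClosure ℚ

/-- reduction preserves primitive `N`-th roots of unity when `N` is invertible in the residue
field -/
theorem isPrimitiveRoot_residue {R : Type*} [CommRing R] [IsLocalRing R] [IsDomain R] {N : ℕ}
    (hl : ((N : ℕ) : ResidueField R) ≠ 0) {ζ : Rˣ} (hζ : IsPrimitiveRoot ζ N) :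
    IsPrimitiveRoot (Units.map (residue R).toMonoidHom ζ) N := by
  refine ⟨by rw [← map_pow, hζ.pow_eq_one, map_one], fun m hm => ?_⟩
  rw [← map_pow] at hm
  have h1 : residue R ((ζ ^ m : Rˣ) : R) = residue R (1 : R) := by
    have := congrArg (fun u : (ResidueField R)ˣ => (u : ResidueField R)) hm
    simpa using this
  have hpow1 : (((ζ ^ m : Rˣ) : R)) ^ N = 1 := by
    rw [← Units.val_pow_eq_pow_val, ← pow_mul, mul_comm, pow_mul, hζ.pow_eq_one, one_pow,
      Units.val_one]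
  have h2 : ((ζ ^ m : Rˣ) : R) = 1 :=
    MonoInj.eq_of_residue_eq_of_pow_eq_one hl hpow1 (one_pow N) h1
  exact hζ.dvd_of_pow_eq_one m (Units.ext h2)

/-- **equivariance of the reduced family** from the reduction property of `RedEmb.exists_redEmb` -/
theorem equivariant_of_red {F Fκ Ω Ωk Q : Type*} [Field F] [Field Fκ] [CommRing Ω] [CommRing Ωk]
    (O : Subring F) (red : ↥O →+* Fκ) (hred : Function.Surjective red)
    (V : Subring Ω) (ρ : ↥V →+* Ωk) (L : Q → F →+* Ω) (Lbar : Q → Fκ →+* Ωk)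
    (hL : ∀ q (x : ↥O), ∃ hx : L q (x : F) ∈ V, Lbar q (red x) = ρ ⟨L q (x : F), hx⟩)
    (σ : Ω →+* Ω) (σk : Ωk →+* Ωk)
    (hσ : ∀ (z : Ω) (hz : z ∈ V), ∃ hz' : σ z ∈ V, ρ ⟨σ z, hz'⟩ = σk (ρ ⟨z, hz⟩))
    (s : Q → Q) (hs : ∀ q, L (s q) = σ.comp (L q)) (q : Q) :
    Lbar (s q) = σk.comp (Lbar q) := by
  ext y
  obtain ⟨x, rfl⟩ := hred y
  obtain ⟨hx1, h1⟩ := hL (s q) x
  obtain ⟨hx2, h2⟩ := hL q x
  obtain ⟨hx3, h3⟩ := hσ _ hx2
  rw [RingHom.comp_apply, h1, h2, ← h3]
  congr 1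
  apply Subtype.ext
  show L (s q) (x : F) = σ (L q (x : F))
  rw [hs, RingHom.comp_apply]

variable (N : ℕ) [NeZero N]

/-- **The cusps of `X₀(N)` over `k` are as many as over `ℚ̄`.** -/
theorem card_poles_eq (A : ValuationSubring Kb) [IsAlgClosed (ResidueField ↥A)]
    (hl : ((N : ℕ) : ResidueField ↥A) ≠ 0)
    (hsepk : Algebra.IsSeparable (ResidueField ↥A)⟮FkBasics.jk (ResidueField ↥A) N⟯
      ↥(modularFunctionFieldFullC (ResidueField ↥A) N))
    (hn : Module.finrank Kb⟮jgen N⟯ ↥(modularFunctionFieldBar N)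
      = Module.finrank (ResidueField ↥A)⟮FkBasics.jk (ResidueField ↥A) N⟯
          ↥(modularFunctionFieldFullC (ResidueField ↥A) N))
    (Lbar : SL(2, ℤ) ⧸ Gamma0 N →
      (↥(modularFunctionFieldFullC (ResidueField ↥A) N) →+* LaurentSeries (ResidueField ↥A)))
    (hV : ∀ q : SL(2, ℤ) ⧸ Gamma0 N, ∃ (wA : (↥A)ˣ) (e m : ℕ) (hm : m ≠ 0),
      ((wA : ↥A) : Kb) ^ (N ^ e) = 1 ∧
      Lfam N q (jdivF N ⟨N, dvd_rfl⟩) = @qExpand ℂ _ m ⟨hm⟩
        (rescaleU (Units.map (ι.comp A.subtype).toMonoidHom wA) (jqModC ℂ)) ∧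
      Lbar q (FkBasics.jdk (ResidueField ↥A) N ⟨N, dvd_rfl⟩) = @qExpand (ResidueField ↥A) _ m ⟨hm⟩
        (rescaleU (Units.map (residue ↥A).toMonoidHom wA) (jqModC (ResidueField ↥A))))
    (hconst : ∀ q (c : ResidueField ↥A),
      Lbar q (algebraMap (ResidueField ↥A) ↥(modularFunctionFieldFullC (ResidueField ↥A) N) c)
        = HahnSeries.C c)
    (hLx : ∀ q, Lbar q (FkBasics.jk (ResidueField ↥A) N)
      = qExpand (ResidueField ↥A) N (jqModC (ResidueField ↥A)))
    (ζA : (↥A)ˣ) (hζA : IsPrimitiveRoot ζA N)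
    (hequiv : ∀ s : Equiv.Perm (SL(2, ℤ) ⧸ Gamma0 N),
      (∀ q, Lfam N (s q) = (rescaleU (Units.map (ι.comp A.subtype).toMonoidHom ζA)).toRingHom.comp
        (Lfam N q)) →
      ∀ q, Lbar (s q) = (rescaleU (Units.map (residue ↥A).toMonoidHom ζA)).toRingHom.comp
        (Lbar q)) :
    (FibreSep.poles (FkBasics.isFF (ResidueField ↥A) N) hsepk).card
      = (FibreSep.poles (Instances.isFF_jgen N) (Instances.isSeparable_jgen N)).card := by
  classical
  letI : Fintype (SL(2, ℤ) ⧸ Gamma0 N) := Fintype.ofFinite _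
  -- the characteristic zero side
  have hζ₀ : IsPrimitiveRoot (Units.map A.subtype.toMonoidHom ζA) N := by
    rw [← IsPrimitiveRoot.coe_units_iff]
    have h1 : IsPrimitiveRoot ((ζA : (↥A)ˣ) : ↥A) N := IsPrimitiveRoot.coe_units_iff.mpr hζA
    exact h1.map_of_injective A.subtype_injective
  obtain ⟨s, hs, hcardL⟩ := CuspFamily.exists_perm_card_poles N
    (Units.map A.subtype.toMonoidHom ζA) hζ₀ (Instances.isSeparable_jgen N)
  have hs' : ∀ q, Lfam N (s q) =
      (rescaleU (Units.map (ι.comp A.subtype).toMonoidHom ζA)).toRingHom.comp (Lfam N q) := by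
    intro q
    rw [hs q]
    rfl
  -- the characteristic `ℓ` side
  have hcard : Fintype.card (SL(2, ℤ) ⧸ Gamma0 N) =
      Module.finrank (ResidueField ↥A)⟮FkBasics.jk (ResidueField ↥A) N⟯
        ↥(modularFunctionFieldFullC (ResidueField ↥A) N) := by
    rw [← hn, Degree.finrank_eq_card N, Nat.card_eq_fintype_card]
  have hinj : Function.Injective Lbar := InjK.injective_of_mono_N N A hl Lbar hV
  have hk := RescaleCount.card_poles_eq (FkBasics.isFF (ResidueField ↥A) N) hsepk Lbar hinj hcard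
    (RingHom.id (ResidueField ↥A)) hconst N hLx _ (isPrimitiveRoot_residue hl hζA) s
    (hequiv s hs')
  rw [hk, hcardL]

/-- the hypothesis `hcp` of `S18.B.GenusLe.genus_le_X0` -/
theorem card_poles_le (A : ValuationSubring Kb) [IsAlgClosed (ResidueField ↥A)]
    (hl : ((N : ℕ) : ResidueField ↥A) ≠ 0)
    (hsepk : Algebra.IsSeparable (ResidueField ↥A)⟮FkBasics.jk (ResidueField ↥A) N⟯
      ↥(modularFunctionFieldFullC (ResidueField ↥A) N))
    (hn : Module.finrank Kb⟮jgen N⟯ ↥(modularFunctionFieldBar N)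
      = Module.finrank (ResidueField ↥A)⟮FkBasics.jk (ResidueField ↥A) N⟯
          ↥(modularFunctionFieldFullC (ResidueField ↥A) N))
    (Lbar : SL(2, ℤ) ⧸ Gamma0 N →
      (↥(modularFunctionFieldFullC (ResidueField ↥A) N) →+* LaurentSeries (ResidueField ↥A)))
    (hV : ∀ q : SL(2, ℤ) ⧸ Gamma0 N, ∃ (wA : (↥A)ˣ) (e m : ℕ) (hm : m ≠ 0),
      ((wA : ↥A) : Kb) ^ (N ^ e) = 1 ∧
      Lfam N q (jdivF N ⟨N, dvd_rfl⟩) = @qExpand ℂ _ m ⟨hm⟩
        (rescaleU (Units.map (ι.comp A.subtype).toMonoidHom wA) (jqModC ℂ)) ∧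
      Lbar q (FkBasics.jdk (ResidueField ↥A) N ⟨N, dvd_rfl⟩) = @qExpand (ResidueField ↥A) _ m ⟨hm⟩
        (rescaleU (Units.map (residue ↥A).toMonoidHom wA) (jqModC (ResidueField ↥A))))
    (hconst : ∀ q (c : ResidueField ↥A),
      Lbar q (algebraMap (ResidueField ↥A) ↥(modularFunctionFieldFullC (ResidueField ↥A) N) c)
        = HahnSeries.C c)
    (hLx : ∀ q, Lbar q (FkBasics.jk (ResidueField ↥A) N)
      = qExpand (ResidueField ↥A) N (jqModC (ResidueField ↥A)))
    (ζA : (↥A)ˣ) (hζA : IsPrimitiveRoot ζA N)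
    (hequiv : ∀ s : Equiv.Perm (SL(2, ℤ) ⧸ Gamma0 N),
      (∀ q, Lfam N (s q) = (rescaleU (Units.map (ι.comp A.subtype).toMonoidHom ζA)).toRingHom.comp
        (Lfam N q)) →
      ∀ q, Lbar (s q) = (rescaleU (Units.map (residue ↥A).toMonoidHom ζA)).toRingHom.comp
        (Lbar q)) :
    (FibreSep.poles (FkBasics.isFF (ResidueField ↥A) N) hsepk).card
      ≤ (FibreSep.poles (Instances.isFF_jgen N) (Instances.isSeparable_jgen N)).card :=
  (card_poles_eq N A hl hsepk hn Lbar hV hconst hLx ζA hζA hequiv).le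

end Fermat.Agent.S37.Cusps.CountAssembly
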