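import Mathlib
import Fermat.Agent.S37.Gauss.Datum
import Fermat.Agent.S24.DegreeAlg
import Fermat.Agent.S18.B.FkBasics

/-!
# PROJECT I (S37), slice I-1b-cusps: the generators `j(q^d)` in the Gauss datum of `X₀(N)`

For `d ∣ N` the function `j(q^d) = jdivF N d` lies in the Gauss valuation ring of
`Gauss.Datum.gaussDatum N A hA hℓN` and reduces to `J(q^d) = jdk k N d` (`hgen`), the last
hypothesis of `Cusps.EmbeddingsK` for this datum.
-/

set_option autoImplicit false
set_option linter.unusedSectionVars false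
set_option linter.style.haveILetI false

noncomputable section

namespace Fermat.Agent.S37.Cusps.GenGauss

open HahnSeries ModularCurve IsLocalRing
open Fermat.Agent.S18.GaussFromH
open Fermat.Agent.S24.DegreeAlg (jdivF jdiv neZero_of_dvd)
open Fermat.Agent.S18.B.FkBasics (jdk)
open Fermat.Agent.S37.Gauss

local notation "Kb" => AlgebraicClosure ℚ

set_option synthInstance.maxHeartbeats 400000

section General

variable {L : Type*} [Field L] [Algebra ℚ L] (A : ValuationSubring L)
variable {k : Type*} [Field k] (π : ↥A →+* k) (N : ℕ) [NeZero N]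

/-- `j(q^d)` as an integral element -/
def jdI (d : {d : ℕ // d ∣ N}) : ↥(intRing A π N) :=
  haveI : NeZero d.1 := neZero_of_dvd d.2
  ⟨qExpand ↥A d.1 (jqModC ↥A), jd_mem_intRing (A := A) (π := π) (N := N) d.2⟩

theorem coe_toFL_jdI (d : {d : ℕ // d ∣ N}) :
    ((toFL A π N (jdI A π N d) : ↥(laurentBaseChange L (modularFunctionFieldFull N))) :
      LaurentSeries L) = jdiv L N d := by
  haveI : NeZero d.1 := neZero_of_dvd d.2
  rw [coe_toFL]
  show coeffMap A.subtype (qExpand ↥A d.1 (jqModC ↥A)) = coeffEmb L (qExpand ℚ d.1 jq)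
  rw [coeffMap_qExpand, coeffMap_jqModC, coeffEmb, coeffMap_qExpand, ← jqModC_rat,
    coeffMap_jqModC]

theorem coe_red_jdI (d : {d : ℕ // d ∣ N}) :
    ((red A π N (jdI A π N d) : ↥(modularFunctionFieldFullC k N)) : LaurentSeries k) =
      ((jdk k N d : ↥(modularFunctionFieldFullC k N)) : LaurentSeries k) := by
  haveI : NeZero d.1 := neZero_of_dvd d.2
  rw [coe_red]
  show coeffMap π (qExpand ↥A d.1 (jqModC ↥A)) = qExpand k d.1 (jqModC k)
  rw [coeffMap_qExpand, coeffMap_jqModC]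

theorem red_jdI (d : {d : ℕ // d ∣ N}) : red A π N (jdI A π N d) = jdk k N d :=
  Subtype.ext (coe_red_jdI A π N d)

end General

variable {ℓ : ℕ} [Fact ℓ.Prime] (N : ℕ) [NeZero N] (A : ValuationSubring Kb)
variable (hA : A.LiesOverPrime ℓ) (hℓN : ¬ ℓ ∣ N)

theorem toFL_jdI (d : {d : ℕ // d ∣ N}) :
    toFL A (residue ↥A) N (jdI A (residue ↥A) N d) = jdivF N d :=
  Subtype.ext (coe_toFL_jdI A (residue ↥A) N d)

include hA hℓN in
/-- **`j(q^d)` is Gauss-integral and reduces to `J(q^d)`**, for every `d ∣ N`. -/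
theorem hgen (d : {d : ℕ // d ∣ N}) :
    ∃ h : jdivF N d ∈ (Datum.gaussDatum N A hA hℓN).O,
      (Datum.gaussDatum N A hA hℓN).red ⟨jdivF N d, h⟩ = jdk (ResidueField ↥A) N d := by
  have hmem : jdivF N d ∈ (Datum.gaussDatum N A hA hℓN).O := by
    rw [← toFL_jdI N A d]
    exact Datum.toFL_mem_O hA hℓN _
  refine ⟨hmem, ?_⟩
  have h1 : (⟨jdivF N d, hmem⟩ : ↥(Datum.gaussDatum N A hA hℓN).O) =
      ⟨toFL A (residue ↥A) N (jdI A (residue ↥A) N d), Datum.toFL_mem_O hA hℓN _⟩ :=
    Subtype.ext (toFL_jdI N A d).symm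
  rw [h1, Datum.red_toFL, red_jdI]

end Fermat.Agent.S37.Cusps.GenGauss
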