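import Mathlib
import Fermat.Agent.S37.Cusps.OrbitCountSep

/-!
# PROJECT I (S37), slice I-1b (cusps), part (b3-le): an UPPER bound for the number of places over a
point by the number of orbits on a family of embeddings (Lemma A only)

`OrbitCountSep.card_poles_eq_card_orbits` needs, besides Lemma A, the ramification bookkeeping
`hm hdvd hs`.  For the INEQUALITY `#places ≤ #orbits` Lemma A alone suffices: every place over the
point is `O.comap (L q)` for some `q`, and `q ↦ O.comap (L q)` is constant on the orbits of `d`
(`hsame`).  No valuation `w`, no `m`, any characteristic.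

* `comap_zpowers_smul` : `hsame` propagates to the orbits of `⟨d⟩`;
* **`card_zeros_le_card_orbits`**, **`card_poles_le_card_orbits`**;
* `card_le_card_quotient` : the abstract counting step, for an arbitrary `Setoid` on `Q`.
-/

set_option autoImplicit false

namespace Fermat.Agent.S37.Cusps.PolesLe

open AlgebraicCurve IntermediateField Module
open Fermat.Agent.S24 Fermat.Agent.S24.FF
open Fermat.Agent.S18.A Fermat.Agent.S37.Cusps.OrbitCountSep
open scoped IntermediateField.algebraAdjoinAdjoin

variable {K F Ω : Type*} [Field K] [Field F] [Algebra K F] [Field Ω]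

/-- the abstract counting step: places which are all pull-backs `O.comap (L q)`, with
`q ↦ O.comap (L q)` constant on the classes of a setoid, are at most as many as the classes -/
theorem card_le_card_quotient (O : ValuationSubring Ω) {Q : Type*} [Finite Q] (L : Q → F →+* Ω)
    (S : Set (Place K F))
    (hall : ∀ v ∈ S, ∃ q, v.toValuationSubring = O.comap (L q))
    (r : Setoid Q) (hsame : ∀ q q', r q q' → O.comap (L q) = O.comap (L q')) :
    Nat.card S ≤ Nat.card (Quotient r) := by
  classical
  choose qv hqv using fun v : S => hall v.1 v.2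
  let g : S → Quotient r := fun v => Quotient.mk r (qv v)
  have hg : Function.Injective g := by
    intro v v' h
    have h1 : r (qv v) (qv v') := Quotient.exact h
    have h2 := hsame _ _ h1
    apply Subtype.ext
    apply Place.ext
    rw [hqv v, hqv v', h2]
  exact Nat.card_le_card_of_injective g hg

/-- `hsame` for the generator propagates to the whole cyclic group -/
theorem comap_zpowers_smul (O : ValuationSubring Ω) {Q : Type*} {G : Type*} [Group G]
    [MulAction G Q] (d : G) (L : Q → F →+* Ω)
    (hsame : ∀ q : Q, O.comap (L (d • q)) = O.comap (L q))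
    (g : Subgroup.zpowers d) (q : Q) : O.comap (L (g • q)) = O.comap (L q) := by
  obtain ⟨g, n, rfl⟩ := g
  change O.comap (L ((d ^ n) • q)) = O.comap (L q)
  have hnat : ∀ (k : ℕ) (q : Q), O.comap (L ((d ^ k) • q)) = O.comap (L q) := by
    intro k
    induction k with
    | zero => intro q; rw [pow_zero, one_smul]
    | succ k ih =>
      intro q
      rw [pow_succ', mul_smul, hsame, ih]
  have hinv : ∀ q : Q, O.comap (L (d⁻¹ • q)) = O.comap (L q) := by
    intro q
    have := hsame (d⁻¹ • q)
    rw [smul_inv_smul] at this
    exact this.symm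
  have hnatinv : ∀ (k : ℕ) (q : Q), O.comap (L ((d⁻¹ ^ k) • q)) = O.comap (L q) := by
    intro k
    induction k with
    | zero => intro q; rw [pow_zero, one_smul]
    | succ k ih =>
      intro q
      rw [pow_succ', mul_smul, hinv, ih]
  rcases Int.eq_nat_or_neg n with ⟨k, rfl | rfl⟩
  · rw [zpow_natCast]
    exact hnat k q
  · rw [zpow_neg, zpow_natCast, ← inv_pow]
    exact hnatinv k q

variable [IsAlgClosed K]

/-- **zeros of `x - a`**: at most as many as the orbits of `⟨d⟩` on the embeddings -/
theorem card_zeros_le_card_orbits {x : F} (hx : IsFF K x) (hsep : Algebra.IsSeparable K⟮x⟯ F)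
    (a : K) (O : ValuationSubring Ω) {Q : Type*} [Fintype Q] {G : Type*} [Group G]
    [MulAction G Q] (d : G) (L : Q → F →+* Ω)
    (hcard : Fintype.card Q = finrank K⟮x⟯ F) (hinj : Function.Injective L)
    (hconst : ∀ q q' (c : K), L q (algebraMap K F c) = L q' (algebraMap K F c))
    (hLx : ∀ q q', L q x = L q' x)
    (hK : ∀ q (c : K), L q (algebraMap K F c) ∈ O)
    (hxa : ∀ q, L q (x - algebraMap K F a) ∈ O.nonunits)
    (hsame : ∀ q : Q, O.comap (L (d • q)) = O.comap (L q)) :
    (FibreSep.zeros hx hsep a).card
      ≤ Nat.card (MulAction.orbitRel.Quotient (Subgroup.zpowers d) Q) := by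
  have h1 : (FibreSep.zeros hx hsep a).card =
      Nat.card (↑(FibreSep.zeros hx hsep a) : Set (Place K F)) := by
    rw [Nat.card_coe_set_eq, Set.ncard_coe_finset]
  rw [h1]
  refine card_le_card_quotient O L _ ?_ (MulAction.orbitRel (Subgroup.zpowers d) Q) ?_
  · intro v hv
    have hv' : x - algebraMap K F a ∈ v.toValuationSubring.nonunits := by
      rw [FibreSep.mem_nonunits_iff]
      exact (FibreSep.mem_zeros hx hsep a v).mp (Finset.mem_coe.mp hv)
    exact exists_place_eq_comap_sub O L hx hsep a hcard hinj hconst hLx hK hxa v hv'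
  · rintro q q' ⟨g, rfl⟩
    exact comap_zpowers_smul O d L hsame g q'

/-- **poles of `x`**: at most as many as the orbits of `⟨d⟩` on the embeddings -/
theorem card_poles_le_card_orbits {x : F} (hx : IsFF K x) (hsep : Algebra.IsSeparable K⟮x⟯ F)
    (O : ValuationSubring Ω) {Q : Type*} [Fintype Q] {G : Type*} [Group G]
    [MulAction G Q] (d : G) (L : Q → F →+* Ω)
    (hcard : Fintype.card Q = finrank K⟮x⟯ F) (hinj : Function.Injective L)
    (hconst : ∀ q q' (c : K), L q (algebraMap K F c) = L q' (algebraMap K F c))
    (hLx : ∀ q q', L q x = L q' x)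
    (hK : ∀ q (c : K), L q (algebraMap K F c) ∈ O)
    (hxinv : ∀ q, L q x⁻¹ ∈ O.nonunits)
    (hsame : ∀ q : Q, O.comap (L (d • q)) = O.comap (L q)) :
    (FibreSep.poles hx hsep).card
      ≤ Nat.card (MulAction.orbitRel.Quotient (Subgroup.zpowers d) Q) := by
  have h1 : (FibreSep.poles hx hsep).card =
      Nat.card (↑(FibreSep.poles hx hsep) : Set (Place K F)) := by
    rw [Nat.card_coe_set_eq, Set.ncard_coe_finset]
  rw [h1]
  refine card_le_card_quotient O L _ ?_ (MulAction.orbitRel (Subgroup.zpowers d) Q) ?_
  · intro v hv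
    have hv' : x⁻¹ ∈ v.toValuationSubring.nonunits := by
      rw [inv_mem_nonunits_iff hx, FibreSep.not_mem_iff]
      exact (FibreSep.mem_poles hx hsep v).mp (Finset.mem_coe.mp hv)
    exact exists_place_eq_comap_inv O L hx hsep hcard hinj hconst hLx hK hxinv v hv'
  · rintro q q' ⟨g, rfl⟩
    exact comap_zpowers_smul O d L hsame g q'

end Fermat.Agent.S37.Cusps.PolesLe
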